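import Fermat.Agent.ML.Gen.Stage
import Fermat.Agent.ML.Rho.Flat
import Fermat.Agent.ML.Low.Hard.Main

/-!
# ML / Gen / OfRho : (GEN) for a stage module `G`, from GALOIS IDENTITIES ON `G`

`R` a commutative ring, `V` an `R`-module with `G_ℚ`-action, `H : RhoAct ρ Φ`, `π0 : R →+* ZMod p` lifting `rbar0`.
`G ≤ V` a `G_ℚ`-stable `R`-submodule (the stage module).   `J := Ann_R(G) ⊔ I`.

* `MCtx.adjoin_range_rho'` : `ρ(G_ℚ)` generates `M₂(R)` (`R` local).
* `RhoAct.phi_mem` : `G` is stable under `Φ (M₂ R)`;   `RhoAct.entry_mem_ann` : a matrix which kills `G` has its entries in `Ann_R(G)`.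
* `GenHypMZ.of_act` : all the fields of `GenHypMZ` for `J = Ann_R(G) ⊔ I` from identities on `G`.
* `MCtx.hgen_stage` : the hypothesis `hgen` of `Raise.step2` : every `a ∈ ker π0` acts on `G` as `p c + Σ_k w_k y_k`,
  `y : Fin t → R` containing the given local elements `u : Fin s → R`, `s ≤ Σ_{v ∈ Rs} w v`.
-/

set_option autoImplicit false

noncomputable section

open ExtCitation Polynomial

namespace Fermat.Agent.ML

open Fermat.Agent.RIB Fermat.Agent.S56 Fermat.Agent.S56.Gen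
open CFT (levS levAll decomp Z1 B1 Qb IsSmooth)

variable {p : ℕ} [Fact p.Prime] {T : Finset ℕ} {θ : ℕ → ℤ} {rbar0 : GQ →* M2 (ZMod p)}

/-! ### the abstract output : `hgen` -/

section Hgen

variable {R V : Type} [CommRing R] [AddCommGroup V] [Module R V]

/-- `ker π0 ≤ I + (u) + (p) + (x)`, `I G = 0` ⟹ `hgen`. -/
theorem hgen_of_ker_le {π0 : R →+* ZMod p} (G : Submodule R V) (I : Ideal R)
    (hI : ∀ a ∈ I, ∀ x ∈ G, a • x = 0) {s g t : ℕ} (u : Fin s → R) (x : Fin g → R)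
    (hsg : s + g ≤ t) (hu : ∀ j, π0 (u j) = 0) (hx : ∀ i, π0 (x i) = 0)
    (hle : RingHom.ker π0 ≤ (I ⊔ Ideal.span (Set.range u) ⊔ Ideal.span {(p : R)}) ⊔
      Ideal.span (Set.range x) ⊔ Ideal.span {(p : R)}) :
    ∃ y : Fin t → R, (∀ k, π0 (y k) = 0) ∧ (∀ j, ∃ k, y k = u j) ∧ (∀ i, ∃ k, y k = x i) ∧
      ∀ a : R, π0 a = 0 → ∃ (c : R) (w : Fin t → R), ∀ v ∈ G,
        a • v = ((p : R) * c) • v + ∑ k, w k • y k • v := by
  classical
  let y : Fin t → R := fun k => if h : (k : ℕ) < s + g then Fin.append u x ⟨k, h⟩ else 0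
  have hyu : ∀ j : Fin s, y ⟨j, by omega⟩ = u j := fun j => by
    have h : (j : ℕ) < s + g := by omega
    show (if h : (j : ℕ) < s + g then Fin.append u x ⟨j, h⟩ else 0) = u j
    rw [dif_pos h]
    exact Fin.append_left u x j
  have hyx : ∀ i : Fin g, y ⟨s + i, by omega⟩ = x i := fun i => by
    have h : s + (i : ℕ) < s + g := by omega
    show (if h : s + (i : ℕ) < s + g then Fin.append u x ⟨s + i, h⟩ else 0) = x i
    rw [dif_pos h]
    exact Fin.append_right u x i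
  have hy0 : ∀ k, π0 (y k) = 0 := fun k => by
    show π0 (if h : (k : ℕ) < s + g then Fin.append u x ⟨k, h⟩ else 0) = 0
    split_ifs with h
    · refine Fin.addCases (motive := fun z => π0 (Fin.append u x z) = 0) (fun j => ?_) (fun i => ?_) _
      · rw [Fin.append_left]; exact hu j
      · rw [Fin.append_right]; exact hx i
    · exact map_zero _
  refine ⟨y, hy0, fun j => ⟨_, hyu j⟩, fun i => ⟨_, hyx i⟩, fun a ha => ?_⟩
  have hU : Ideal.span (Set.range u) ≤ Ideal.span (Set.range y) :=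
    Ideal.span_mono (by rintro _ ⟨j, rfl⟩; exact ⟨_, hyu j⟩)
  have hX : Ideal.span (Set.range x) ≤ Ideal.span (Set.range y) :=
    Ideal.span_mono (by rintro _ ⟨i, rfl⟩; exact ⟨_, hyx i⟩)
  have hle' : RingHom.ker π0 ≤ I ⊔ Ideal.span {(p : R)} ⊔ Ideal.span (Set.range y) := by
    refine hle.trans (sup_le (sup_le (sup_le (sup_le ?_ ?_) ?_) ?_) ?_)
    · exact le_sup_of_le_left le_sup_left
    · exact le_sup_of_le_right hU
    · exact le_sup_of_le_left le_sup_right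
    · exact le_sup_of_le_right hX
    · exact le_sup_of_le_left le_sup_right
  obtain ⟨a₁, ha₁, a₂, ha₂, rfl⟩ := Submodule.mem_sup.1 (hle' ha)
  obtain ⟨a₃, ha₃, a₄, ha₄, rfl⟩ := Submodule.mem_sup.1 ha₁
  obtain ⟨c, rfl⟩ := Ideal.mem_span_singleton'.1 ha₄
  obtain ⟨w, rfl⟩ := (Ideal.mem_span_range_iff_exists_fun).1 ha₂
  refine ⟨c, w, fun v hv => ?_⟩
  rw [add_smul, add_smul, hI a₃ ha₃ v hv, zero_add, mul_comm c, Finset.sum_smul]
  congr 1
  exact Finset.sum_congr rfl fun k _ => mul_smul _ _ _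

/-- **[GEN-STAGE ⟹ hgen]** : the hypothesis `hgen` of `Raise.step2`. -/
theorem MCtx.hgen_stage (C : MCtx p T θ rbar0) {t : ℕ} {qv : Fin t → Nat.Primes}
    (W : TWGenL p (two_ne_zero_kM C.hp2) (mapK (kM p) rbar0) (toP T) t qv)
    {Rs : Finset Nat.Primes} (hRs : Rs ⊆ toP T) (hpR : pPrime p ∉ Rs) (w : Nat.Primes → ℕ)
    (hw : ∀ v ∈ Rs, Nat.card ↥(B1loc (adRep (mapK (kM p) rbar0)) v) * Nat.card (kM p) ^ w v ≤
      Nat.card (kM p) ^ 3)
    {π0 : R →+* ZMod p} {ρ : GQ →* M2 R} (G : Submodule R V) (I : Ideal R)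
    (hI : ∀ a ∈ I, ∀ x ∈ G, a • x = 0) {s : ℕ} (u : Fin s → R) (hu : ∀ j, π0 (u j) = 0)
    (hs : s ≤ ∑ v ∈ Rs, w v)
    (H : GenHypMZ p rbar0 (toP T) (Finset.univ.image qv) Rs π0 ρ
      (I ⊔ Ideal.span (Set.range u) ⊔ Ideal.span {(p : R)}))
    (hnil : IsNilpotent (RingHom.ker π0)) :
    ∃ y : Fin t → R, (∀ k, π0 (y k) = 0) ∧ (∀ j, ∃ k, y k = u j) ∧
      ∀ a : R, π0 a = 0 → ∃ (c : R) (w' : Fin t → R), ∀ v ∈ G,
        a • v = ((p : R) * c) • v + ∑ k, w' k • y k • v := by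
  obtain ⟨hde, x, hx, -, hle⟩ := C.gen_stage W hRs hpR w hw H
  obtain ⟨y, h1, h2, -, h4⟩ := hgen_of_ker_le G I hI u x (t := t) (by omega) hu hx (hle hnil)
  exact ⟨y, h1, h2, h4⟩

end Hgen

/-! ### the dictionary -/

section Act

variable {R V : Type} [CommRing R] [AddCommGroup V] [Module R V] [DistribMulAction GQ V]
  {ρ : GQ →* M2 R} {Φ : M2 R →ₐ[R] Module.End R V}

/-- `ρ(G_ℚ)` generates `M₂(R)`. -/
theorem MCtx.adjoin_range_rho' (C : MCtx p T θ rbar0) [IsLocalRing R] {π0 : R →+* ZMod p}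
    (hlift : ∀ σ, (ρ σ).map π0 = rbar0 σ) : Algebra.adjoin R (Set.range ρ) = ⊤ := by
  refine Hard.adjoin_range_eq_top_of_residual π0 (fun c => ?_) (fun x hx => ?_) ρ rbar0 hlift
    (Low.adjoin_range_rbar0 C)
  · obtain ⟨z, rfl⟩ := ZMod.intCast_surjective c
    exact ⟨z, map_intCast π0 z⟩
  · rw [IsLocalRing.mem_maximalIdeal, mem_nonunits_iff]
    intro hu
    have := hu.map π0
    rw [hx] at this
    exact not_isUnit_zero this

/-- a `G_ℚ`-stable submodule is stable under `Φ (M₂ R)`. -/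
theorem RhoAct.phi_mem (H : RhoAct ρ Φ) (hadj : Algebra.adjoin R (Set.range ρ) = ⊤)
    (G : Submodule R V) (hG : ∀ g : GQ, ∀ x ∈ G, g • x ∈ G) (A : M2 R) :
    ∀ y ∈ G, Φ A y ∈ G := by
  have hA : A ∈ Algebra.adjoin R (Set.range ρ) := hadj ▸ Algebra.mem_top
  induction hA using Algebra.adjoin_induction with
  | mem x hx =>
    obtain ⟨g, rfl⟩ := hx
    intro y hy
    rw [H.act]
    exact hG g y hy
  | algebraMap r =>
    intro y hy
    rw [AlgHom.commutes]
    exact G.smul_mem r hy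
  | add a b _ _ ha hb =>
    intro y hy
    rw [map_add]
    exact G.add_mem (ha y hy) (hb y hy)
  | mul a b _ _ ha hb =>
    intro y hy
    rw [map_mul]
    exact ha _ (hb y hy)

/-- a matrix which kills `G` has its entries in `Ann_R(G)`. -/
theorem RhoAct.entry_mem_ann (H : RhoAct ρ Φ) (hadj : Algebra.adjoin R (Set.range ρ) = ⊤)
    (G : Submodule R V) (hG : ∀ g : GQ, ∀ x ∈ G, g • x ∈ G) {X : M2 R}
    (hX : ∀ y ∈ G, Φ X y = 0) (i j : Fin 2) : X i j ∈ G.annihilator :=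
  Submodule.mem_annihilator.2 fun _ hy =>
    entry_smul_eq_zero Φ G (H.phi_mem hadj G hG) X hX i j hy

omit [DistribMulAction GQ V] in
theorem RhoAct.phi_smul_one (a : R) (y : V) : Φ (a • (1 : M2 R)) y = a • y := by
  rw [map_smul, map_one, LinearMap.smul_apply, Module.End.one_apply]

/-- `Φ ((ρ σ - a)(ρ τ - b)) y`. -/
theorem RhoAct.phi_sub_mul_sub (H : RhoAct ρ Φ) (σ τ : GQ) (a b : R) (y : V) :
    Φ ((ρ σ - a • (1 : M2 R)) * (ρ τ - b • (1 : M2 R))) y =
      σ • (τ • y - b • y) - a • (τ • y - b • y) := by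
  rw [map_mul, Module.End.mul_apply, map_sub, map_sub, LinearMap.sub_apply, LinearMap.sub_apply,
    H.act, H.act, RhoAct.phi_smul_one, RhoAct.phi_smul_one]

/-- **(GEN) hypotheses from Galois identities on the stage module `G`.** -/
theorem GenHypMZ.of_act [Finite V] (C : MCtx p T θ rbar0) (H : RhoAct ρ Φ)
    (hadj : Algebra.adjoin R (Set.range ρ) = ⊤) {π0 : R →+* ZMod p}
    (hlift : ∀ σ, (ρ σ).map π0 = rbar0 σ) (hdet : ∀ σ, ∃ c : ℤ, (ρ σ).det = (c : R))
    (htr : Algebra.adjoin ℤ (Set.range fun σ => (ρ σ).trace) = ⊤)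
    (hloc : ∀ a : R, π0 a ≠ 0 → IsUnit a)
    (hV : ∃ F : IntermediateField ℚ (AlgebraicClosure ℚ), FiniteDimensional ℚ F ∧
      ∀ σ : GQ, (∀ x ∈ F, σ x = x) → ∀ v : V, σ • v = v)
    (S₀ Q Rs : Finset Nat.Primes)
    (hur : ∀ q : Nat.Primes, q ∉ S₀ ∪ Q → ∀ A : ValuationSubring Qb, A.LiesOverPrime (q : ℕ) →
      ∀ σ ∈ A.inertiaSubgroupIn ℚ, ∀ v : V, σ • v = v)
    (G : Submodule R V) (hG : ∀ g : GQ, ∀ x ∈ G, g • x ∈ G) (hG0 : G ≠ ⊥)
    (I : Ideal R) (hI : ∀ a ∈ I, π0 a = 0)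
    (hstrict : ∀ v ∈ Rs, ∃ M : M2 R, IsUnit (M.map π0) ∧
      ∀ σ ∈ decomp v, ConjConst ℤ (G.annihilator ⊔ I) M (ρ σ))
    (hatp : Flat.HasFlat (Flat.Ap p).valuation (galAct (Flat.Ip p) V) ∨
      ∃ e : GQ → R, (∀ σ ∈ inert (pPrime p), ∀ x ∈ G, e σ • x = x) ∧
        ∀ σ ∈ decomp (pPrime p), ∀ τ ∈ decomp (pPrime p), ∀ x ∈ G,
          σ • (τ • x - e τ • x) = ((ρ σ).det * e σ) • (τ • x - e τ • x))
    (hdet1 : ∀ v ∈ S₀, v ≠ pPrime p → ∀ σ ∈ inert v, (ρ σ).det = 1)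
    (hmin : ∀ v ∈ S₀, v ∉ Rs → v ≠ pPrime p → (∀ σ ∈ inert v, ∀ x ∈ G, σ • x = x) ∨
      ((∃ σ ∈ inert v, rbar0 σ ≠ 1) ∧ ∀ σ ∈ inert v, ∀ x ∈ G, σ • (σ • x - x) = σ • x - x)) :
    GenHypMZ p rbar0 S₀ Q Rs π0 ρ (G.annihilator ⊔ I) where
  lift := hlift
  det := hdet
  tr := htr
  lev := H.lev hV _ hur
  J_le := by
    intro a ha
    obtain ⟨a₁, ha₁, a₂, ha₂, rfl⟩ := Submodule.mem_sup.1 ha
    rw [map_add, hI a₂ ha₂, add_zero]
    by_contra hne
    obtain ⟨b, hb⟩ := (hloc a₁ hne).exists_left_inv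
    refine hG0 ((Submodule.eq_bot_iff _).2 fun x hx => ?_)
    rw [← one_smul R x, ← hb, mul_smul, Submodule.mem_annihilator.1 ha₁ x hx, smul_zero]
  strict := hstrict
  atp := by
    rcases hatp with hfl | ⟨e, he, hs⟩
    · exact Or.inl fun φ _ => H.hasFlat_mapRep hfl φ
    · refine Or.inr ⟨e, fun σ hσ => Ideal.mem_sup_left (Submodule.mem_annihilator.2 fun x hx => ?_),
        fun σ hσ τ hτ i l => Ideal.mem_sup_left (H.entry_mem_ann hadj G hG (fun y hy => ?_) i l)⟩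
      · rw [sub_smul, one_smul, he σ hσ x hx, sub_self]
      · rw [H.phi_sub_mul_sub, hs σ hσ τ hτ y hy, sub_self]
  min := by
    intro v hv hvR hvp
    rcases hmin v hv hvR hvp with hu | ⟨hram, hu⟩
    · refine Or.inl fun σ hσ i l =>
        Ideal.mem_sup_left (H.entry_mem_ann hadj G hG (fun y hy => ?_) i l)
      rw [H.phi_sub_one, hu σ hσ y hy, sub_self]
    · refine Or.inr ⟨hram, fun σ hσ => ⟨Ideal.mem_sup_left ?_, ?_⟩⟩
      · -- `tr (tr - 2) ∈ Ann G`, `tr` a unit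
        have hd := hdet1 v hv hvp σ hσ
        have hent : ∀ i l, ((ρ σ - 1) * (ρ σ - 1)) i l ∈ G.annihilator :=
          H.entry_mem_ann hadj G hG fun y hy => by
            rw [map_mul, Module.End.mul_apply, H.phi_sub_one, H.phi_sub_one, hu σ hσ y hy, sub_self]
        have key : (ρ σ).trace * ((ρ σ).trace - 2) =
            ((ρ σ - 1) * (ρ σ - 1)) 0 0 + ((ρ σ - 1) * (ρ σ - 1)) 1 1 := by
          rw [Matrix.det_fin_two] at hd
          simp only [Matrix.mul_apply, Fin.sum_univ_two, Matrix.sub_apply, Matrix.one_apply_eq,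
            Matrix.one_apply_ne (show (0 : Fin 2) ≠ 1 by decide),
            Matrix.one_apply_ne (show (1 : Fin 2) ≠ 0 by decide), sub_zero, Matrix.trace_fin_two]
          linear_combination 2 * hd
        have hvp' : (v : ℕ) ≠ p := fun e => hvp (Subtype.ext e)
        have hrb : (rbar0 σ - 1) * (rbar0 σ - 1) = 0 :=
          C.unipI v v.2 hvp' _ (liesOverPrime_primeLocalPlace v) σ hσ σ hσ
        have htb : (rbar0 σ).trace = 2 := by
          have h2 : IsNilpotent (rbar0 σ - 1) := ⟨2, by rw [pow_two, hrb]⟩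
          have h3 : (rbar0 σ - 1).trace = 0 :=
            (Matrix.isNilpotent_trace_of_isNilpotent h2).eq_zero
          rw [Matrix.trace_sub, Matrix.trace_one, Fintype.card_fin, sub_eq_zero] at h3
          rw [h3]
          norm_num
        have hunit : IsUnit (ρ σ).trace := by
          refine hloc _ ?_
          have e : π0 (ρ σ).trace = (rbar0 σ).trace := by
            rw [← hlift σ, Matrix.trace_fin_two, Matrix.trace_fin_two, map_add]
            rfl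
          rw [e, htb]
          exact two_ne_zero_zmod C.hp2
        obtain ⟨b, hb⟩ := hunit.exists_left_inv
        have h5 : (ρ σ).trace - 2 = b * ((ρ σ).trace * ((ρ σ).trace - 2)) := by
          rw [← mul_assoc, hb, one_mul]
        rw [h5, key]
        exact Ideal.mul_mem_left _ _ (Ideal.add_mem _ (hent 0 0) (hent 1 1))
      · rw [hdet1 v hv hvp σ hσ, sub_self]
        exact Ideal.zero_mem _

end Act

end Fermat.Agent.ML
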