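import Fermat.Agent.ML.Main.Ctx
import Fermat.Agent.RIB.Main.GenCtx
import Fermat.Agent.TW.ESide.Big

/-!
# ML / Gen / Rbar : `S56.RbarHyp` for the residual context `MCtx` (general semistable `W`, `p` odd)

* `noLine_of_involution` (abstract) : no stable line over `F`, `c` with `r c ^ 2 = 1`, `det (r c) = -1`  ⟹  no stable line over any
  extension field `Ω`.
* `kM p = GaloisField p 2`, `quadSplitM` : monic quadratic polynomials over `𝔽_p` split in `kM p` (`p` odd).
* `MCtx.absIrr`, `MCtx.unramOutside`, `MCtx.rbarHyp` (with `irr2` as a hypothesis).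
-/

set_option autoImplicit false

noncomputable section

open ExtCitation Polynomial

namespace Fermat.Agent.ML

open Fermat.Agent.RIB Fermat.Agent.S56 Fermat.Agent.TW.ESide

local notation "M₂" => Matrix (Fin 2) (Fin 2)

section Abs

variable {F Ω : Type*} [Field F] [Field Ω] (ι : F →+* Ω) {G : Type*} [Group G]

/-- **absolute irreducibility from oddness.** -/
theorem noLine_of_involution (h2 : (2 : F) ≠ 0) (r : G →* M₂ F)
    (hirr : ∀ v : Fin 2 → F, v ≠ 0 → ∃ σ : G, ∀ c : F, (r σ).mulVec v ≠ c • v)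
    (c : G) (hc : r c * r c = 1) (hdet : (r c).det = -1) (w : Fin 2 → Ω) (hw : w ≠ 0) :
    ∃ σ : G, ∀ a : Ω, ((r σ).map ι).mulVec w ≠ a • w := by
  by_contra hcon
  push Not at hcon
  set C := r c with hC
  obtain ⟨a, ha⟩ := hcon c
  -- `a ^ 2 = 1`
  have hCι : (C.map ι) * (C.map ι) = 1 := by
    have := congrArg (fun M : M₂ F => M.map ι) hc
    simp only [Matrix.map_mul] at this
    rw [this]
    exact (ι.mapMatrix).map_one
  have ha2 : a * a = 1 := by
    have h1 : ((C.map ι) * (C.map ι)).mulVec w = (a * a) • w := by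
      rw [← Matrix.mulVec_mulVec, ha, Matrix.mulVec_smul, ha, smul_smul]
    rw [hCι, Matrix.one_mulVec] at h1
    by_contra hne
    apply hw
    have h3 : (a * a - 1) • w = 0 := by rw [sub_smul, one_smul, ← h1, sub_self]
    exact (smul_eq_zero.1 h3).resolve_left (sub_ne_zero.2 hne)
  obtain ⟨a₀, ha₀, ha₀2⟩ : ∃ a₀ : F, ι a₀ = a ∧ a₀ * a₀ = 1 := by
    have : (a - 1) * (a + 1) = 0 := by linear_combination ha2
    rcases mul_eq_zero.1 this with h | h
    · exact ⟨1, by rw [map_one]; exact (sub_eq_zero.1 h).symm, one_mul 1⟩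
    · exact ⟨-1, by rw [map_neg, map_one]; exact (eq_neg_of_add_eq_zero_left h).symm, by ring⟩
  -- `C` is not scalar
  have hns : ∀ b : F, b * b = 1 → C ≠ b • (1 : M₂ F) := by
    intro b hb h
    rw [h, Matrix.det_smul, Matrix.det_one, mul_one, Fintype.card_fin, pow_two, hb] at hdet
    apply h2
    linear_combination hdet
  -- a rational eigenvector
  have hP : C + a₀ • (1 : M₂ F) ≠ 0 := by
    intro h
    refine hns (-a₀) (by linear_combination ha₀2) ?_
    rw [neg_smul]
    exact eq_neg_of_add_eq_zero_left h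
  have hN : C - a₀ • (1 : M₂ F) ≠ 0 := fun h => hns a₀ ha₀2 (sub_eq_zero.1 h)
  have hNP : (C - a₀ • (1 : M₂ F)) * (C + a₀ • (1 : M₂ F)) = 0 := by
    have : (C - a₀ • (1 : M₂ F)) * (C + a₀ • (1 : M₂ F)) = C * C - (a₀ * a₀) • (1 : M₂ F) := by
      simp only [sub_mul, mul_add, Matrix.smul_mul, Matrix.mul_smul, Matrix.one_mul, Matrix.mul_one,
        smul_smul]
      abel
    rw [this, hc, ha₀2, one_smul, sub_self]
  obtain ⟨v, hv0, hv⟩ : ∃ v : Fin 2 → F, v ≠ 0 ∧ (C - a₀ • (1 : M₂ F)).mulVec v = 0 := by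
    by_contra hno
    push Not at hno
    apply hP
    ext i j
    have h1 : (C - a₀ • (1 : M₂ F)).mulVec ((C + a₀ • (1 : M₂ F)).mulVec (Pi.single j 1)) = 0 := by
      rw [Matrix.mulVec_mulVec, hNP, Matrix.zero_mulVec]
    have h3 : (C + a₀ • (1 : M₂ F)).mulVec (Pi.single j 1) = 0 := by
      by_contra h4
      exact hno _ h4 h1
    have := congrFun h3 i
    simpa [Matrix.mulVec_single_one] using this
  -- `w` is proportional to `ι ∘ v`
  have hιv0 : ι ∘ v ≠ 0 := by
    intro h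
    apply hv0
    funext i
    exact (map_eq_zero ι).1 (congrFun h i)
  have hNι : (C - a₀ • (1 : M₂ F)).map ι ≠ 0 := by
    intro h
    apply hN
    ext i j
    have := congrFun (congrFun h i) j
    exact (map_eq_zero ι).1 this
  have hNw : ((C - a₀ • (1 : M₂ F)).map ι).mulVec w = 0 := by
    have h1 : (C - a₀ • (1 : M₂ F)).map ι = C.map ι - a • (1 : M₂ Ω) := by
      ext i j
      by_cases hij : i = j
      · subst hij; simp [ha₀]
      · simp [Matrix.one_apply_ne hij]
    rw [h1, Matrix.sub_mulVec, ha, Matrix.smul_mulVec, Matrix.one_mulVec, sub_self]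
  have hNv : ((C - a₀ • (1 : M₂ F)).map ι).mulVec (ι ∘ v) = 0 := by
    rw [map_mulVec_comp, hv]
    funext i
    simp
  obtain ⟨b, hb⟩ := exists_smul_of_cross_eq_zero hιv0 (cross_eq_zero_of_mulVec_eq_zero hNι hNw hNv)
  have hb0 : b ≠ 0 := by
    intro h
    apply hw
    rw [hb, h, zero_smul]
  obtain ⟨σ, hσ⟩ := hirr v hv0
  obtain ⟨e, he⟩ := hcon σ
  have h5 : ((r σ).map ι).mulVec (ι ∘ v) = e • (ι ∘ v) := by
    rw [hb, Matrix.mulVec_smul, smul_comm] at he
    exact smul_right_injective _ hb0 he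
  have h6 : cross ((r σ).mulVec v) v = 0 := by
    apply (map_eq_zero ι).1
    rw [← cross_map, ← map_mulVec_comp, h5, cross_smul_left]
    simp [cross, mul_comm]
  obtain ⟨c', hc'⟩ := exists_smul_of_cross_eq_zero hv0 h6
  exact hσ c' hc'

end Abs

/-- the coefficient field `𝔽_{p²}` of (GEN). -/
abbrev kM (p : ℕ) [Fact p.Prime] : Type := GaloisField p 2

variable {p : ℕ} [Fact p.Prime]

theorem card_kM : Nat.card (kM p) = p ^ 2 := GaloisField.card p 2 two_ne_zero

theorem two_ne_zero_zmod (hp2 : p ≠ 2) : (2 : ZMod p) ≠ 0 := by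
  intro h
  have h3 : ((2 : ℕ) : ZMod p) = 0 := by exact_mod_cast h
  rw [ZMod.natCast_eq_zero_iff] at h3
  exact hp2 ((Nat.prime_dvd_prime_iff_eq (Fact.out : p.Prime) Nat.prime_two).1 h3)

theorem two_ne_zero_kM (hp2 : p ≠ 2) : (2 : kM p) ≠ 0 := by
  intro h
  have h3 : ((2 : ℕ) : kM p) = 0 := by exact_mod_cast h
  rw [CharP.cast_eq_zero_iff (kM p) p] at h3
  exact hp2 ((Nat.prime_dvd_prime_iff_eq (Fact.out : p.Prime) Nat.prime_two).1 h3)

/-- monic quadratic polynomials over `𝔽_p` split in `𝔽_{p²}` (`p` odd). -/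
theorem quadSplitM (hp2 : p ≠ 2) (a b : ZMod p) : ∃ α β : kM p,
    (X ^ 2 - C (algebraMap (ZMod p) (kM p) a) * X + C (algebraMap (ZMod p) (kM p) b) : (kM p)[X])
      = (X - C α) * (X - C β) := by
  classical
  have hp : p.Prime := Fact.out
  have := Fintype.ofFinite (kM p)
  have h2k : (2 : kM p) ≠ 0 := two_ne_zero_kM hp2
  have hchar : ringChar (kM p) ≠ 2 := by rw [ringChar.eq (kM p) p]; exact hp2
  set κ := algebraMap (ZMod p) (kM p) with hκ
  obtain ⟨s, hs⟩ : ∃ s : kM p, s * s = κ (a ^ 2 - 4 * b) := by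
    by_cases hd : a ^ 2 - 4 * b = 0
    · exact ⟨0, by rw [hd]; simp⟩
    · have hx0 : κ (a ^ 2 - 4 * b) ≠ 0 := by rw [Ne, map_eq_zero]; exact hd
      have hsq : IsSquare (κ (a ^ 2 - 4 * b)) := by
        rw [FiniteField.isSquare_iff hchar hx0]
        have hc : Fintype.card (kM p) = p ^ 2 := by rw [← Nat.card_eq_fintype_card, card_kM]
        obtain ⟨m, hm⟩ := hp.odd_of_ne_two hp2
        have e : Fintype.card (kM p) / 2 = (p - 1) * (m + 1) := by
          rw [hc, hm]
          have : (2 * m + 1) ^ 2 = 2 * ((2 * m + 1 - 1) * (m + 1)) + 1 := by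
            have : 2 * m + 1 - 1 = 2 * m := by omega
            rw [this]; ring
          omega
        rw [e, pow_mul, ← map_pow, ZMod.pow_card_sub_one_eq_one hd, map_one, one_pow]
      obtain ⟨s, hs⟩ := hsq
      exact ⟨s, hs.symm⟩
  refine ⟨(κ a + s) / 2, (κ a - s) / 2, ?_⟩
  have e1 : κ a = (κ a + s) / 2 + (κ a - s) / 2 := by field_simp; ring
  have e2 : κ b = (κ a + s) / 2 * ((κ a - s) / 2) := by
    rw [map_sub, map_pow, map_mul, map_ofNat] at hs
    field_simp
    linear_combination hs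
  generalize (κ a + s) / 2 = α at e1 e2
  generalize (κ a - s) / 2 = β at e1 e2
  rw [e1, e2, C_add, C_mul]
  ring

variable {T : Finset ℕ} {θ : ℕ → ℤ} {rbar0 : GQ →* M₂ (ZMod p)}

theorem mem_toP' {T : Finset ℕ} {q : Nat.Primes} : q ∈ toP T ↔ (q : ℕ) ∈ T := Finset.mem_subtype

theorem MCtx.det_conj (C : MCtx p T θ rbar0) : (rbar0 complexConjugation).det = -1 := by
  rw [C.det]
  exact Fermat.Agent.GAL.PC.cycloChar_complexConjugation p

theorem MCtx.conj_mul_self (_C : MCtx p T θ rbar0) :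
    rbar0 complexConjugation * rbar0 complexConjugation = 1 := by
  rw [← map_mul, complexConjugation_mul_self, map_one]

section K

variable (k : Type) [Field k] [Algebra (ZMod p) k]

theorem mapK_map_closure (g : GQ) :
    (mapK k rbar0 g).map (algebraMap k (AlgebraicClosure k)) =
      (rbar0 g).map ((algebraMap k (AlgebraicClosure k)).comp (algebraMap (ZMod p) k)) := by
  rw [mapK_apply, Matrix.map_map]
  rfl

/-- absolute irreducibility. -/
theorem MCtx.absIrr (C : MCtx p T θ rbar0) : AbsIrrOn (mapK k rbar0) ⊤ := by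
  intro v hv
  obtain ⟨σ, hσ⟩ := noLine_of_involution
    ((algebraMap k (AlgebraicClosure k)).comp (algebraMap (ZMod p) k)) (two_ne_zero_zmod C.hp2)
    rbar0 C.noLine complexConjugation C.conj_mul_self C.det_conj v hv
  exact ⟨σ, Subgroup.mem_top _, by rw [mapK_map_closure]; exact hσ⟩

theorem MCtx.cont_mapK (C : MCtx p T θ rbar0) : GaloisFactorsThroughFiniteLevel (mapK k rbar0) := by
  obtain ⟨L, hL, h⟩ := C.cont
  exact ⟨L, hL, fun σ hσ => (mapK_eq_one_iff σ).2 (h σ hσ)⟩

theorem MCtx.unramOutside (C : MCtx p T θ rbar0) : UnramOutside (mapK k rbar0) (toP T) := by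
  intro q hq A hA σ hσ
  exact (mapK_eq_one_iff σ).2 (C.unramT q q.2 (fun h => hq (mem_toP'.2 h)) A hA σ hσ)

theorem MCtx.det_mapK [CharP k p] (C : MCtx p T θ rbar0) (σ : GQ) :
    (mapK k rbar0 σ).det = (chiK p k σ : k) := by
  rw [mapK_apply]
  have h1 : ((rbar0 σ).map (algebraMap (ZMod p) k)).det = algebraMap (ZMod p) k (rbar0 σ).det :=
    ((algebraMap (ZMod p) k).map_det (rbar0 σ)).symm
  rw [h1, C.det]
  show _ = (ZMod.castHom (dvd_refl p) k : ZMod p →+* k) _
  rw [RingHom.ext_zmod (ZMod.castHom (dvd_refl p) k) (algebraMap (ZMod p) k)]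

end K

theorem charpoly_mapK (k : Type) [Field k] [Algebra (ZMod p) k] (σ : GQ) :
    (mapK k rbar0 σ).charpoly = X ^ 2 - C (algebraMap (ZMod p) k (rbar0 σ).trace) * X +
      C (algebraMap (ZMod p) k (rbar0 σ).det) := by
  rw [mapK_apply, Matrix.charpoly_map, Matrix.charpoly_fin_two]
  simp

/-- **`S56.RbarHyp` for `MCtx`**, `irr2` as a hypothesis. -/
theorem MCtx.rbarHyp (C : MCtx p T θ rbar0)
    (hirr2 : ∀ H : Subgroup GQ, H.index = 2 → AbsIrrOn (mapK (kM p) rbar0) H) :
    RbarHyp p (mapK (kM p) rbar0) where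
  cont := C.cont_mapK _
  det := C.det_mapK _
  split := fun σ => by
    rw [charpoly_mapK]
    exact quadSplitM C.hp2 _ _
  irr := C.absIrr _
  irr2 := hirr2

end Fermat.Agent.ML
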