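import Fermat.Agent.S56.Gen.MainW

/-!
# ML / Gen / Sub : (GEN) when `Λ → k` is NOT surjective : `Λ ->> F ⊆ k`

In ML : `Λ = ZMod (p^m)` (or any commutative ring), `F = ZMod p`, `k = F_{p^2}` (needed for `RbarHyp.split`), `A` a `Λ`-algebra,
`π0 : A →ₐ[Λ] F`, `π = (F → k) ∘ π0`.   `S56.exists_tw_gen_w` asks for `Λ ->> k`; the count `GenHypW.card_tanSet_le` does not.

* `tanCombL` : `e = [k : F]` tangent vectors with values in `F[ε]` give one with values in `k[ε]`.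
* `exists_gens_of_card_le_subL` : `#TanSet π J ≤ #k ^ g`  ⟹  `ker π0 ≤ J ⊔ (x_1..x_g) ⊔ (ker π0)^2 ⊔ (ker (Λ → F)) A`.
* `exists_gens_of_card_tanSet_le_subL` : the same from `#TanSet π J * #k ^ r ≤ #k ^ t`, with `g = t - r`.
* `exists_tw_gen_w_subL`, `exists_tw_gen_flat_subL` : (GEN) for `(Λ, A, π) = (Λ, A, (F → k) ∘ π0)`.
-/

set_option autoImplicit false

open ExtCitation Polynomial

namespace Fermat.Agent.ML

open Fermat.Agent.S56 Fermat.Agent.S56.Gen

section Alg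

variable {Λ F k A : Type} [CommRing Λ] [Field F] [Field k] [Algebra Λ F] [Algebra F k] [Algebra Λ k]
  [IsScalarTower Λ F k] [CommRing A] [Algebra Λ A]

/-- `π = (F → k) ∘ π0`. -/
noncomputable abbrev piKL (k : Type) [Field k] [Algebra F k] [Algebra Λ k] [IsScalarTower Λ F k]
    (π0 : A →ₐ[Λ] F) : A →ₐ[Λ] k :=
  (IsScalarTower.toAlgHom Λ F k).comp π0

theorem piKL_apply (π0 : A →ₐ[Λ] F) (a : A) : piKL k π0 a = algebraMap F k (π0 a) := rfl

/-- a family of `F[ε]`-valued tangent vectors and a family `b i ∈ k` give a `k[ε]`-valued tangent vector. -/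
noncomputable def tanCombL {ι : Type} [Fintype ι] (b : ι → k) (π0 : A →ₐ[Λ] F)
    (φ : ι → A →ₐ[Λ] DualNumber F) (hφ : ∀ i a, (φ i a).fst = π0 a) : A →ₐ[Λ] DualNumber k :=
  { toFun := fun a => TrivSqZeroExt.inl (algebraMap F k (π0 a)) +
      TrivSqZeroExt.inr (∑ i, (φ i a).snd • b i)
    map_one' := by
      apply TrivSqZeroExt.ext
      · simp
      · simp
    map_mul' := by
      intro y y'
      apply TrivSqZeroExt.ext
      · simp
      · simp only [map_mul, TrivSqZeroExt.snd_add, TrivSqZeroExt.snd_inl, TrivSqZeroExt.snd_inr,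
          zero_add, TrivSqZeroExt.snd_mul, TrivSqZeroExt.fst_add, TrivSqZeroExt.fst_inl,
          TrivSqZeroExt.fst_inr, add_zero, hφ, smul_eq_mul, MulOpposite.smul_eq_mul_unop,
          MulOpposite.unop_op, Finset.mul_sum, Finset.sum_mul, ← Finset.sum_add_distrib]
        refine Finset.sum_congr rfl fun i _ => ?_
        simp only [Algebra.smul_def, map_add, map_mul]
        ring
    map_zero' := by
      apply TrivSqZeroExt.ext
      · simp
      · simp
    map_add' := by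
      intro y y'
      apply TrivSqZeroExt.ext
      · simp
      · simp [add_smul, Finset.sum_add_distrib]
    commutes' := by
      intro c
      have h1 : (algebraMap Λ (DualNumber F) c).snd = 0 := rfl
      have h2 : (algebraMap Λ (DualNumber k) c).snd = 0 := rfl
      have h3 : (algebraMap Λ (DualNumber k) c).fst = algebraMap Λ k c := rfl
      apply TrivSqZeroExt.ext
      · simp only [AlgHom.commutes, TrivSqZeroExt.fst_add, TrivSqZeroExt.fst_inl,
          TrivSqZeroExt.fst_inr, add_zero, h3]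
        exact (IsScalarTower.algebraMap_apply Λ F k c).symm
      · simp [h1, h2] }

@[simp] theorem fst_tanCombL {ι : Type} [Fintype ι] (b : ι → k) (π0 : A →ₐ[Λ] F)
    (φ : ι → A →ₐ[Λ] DualNumber F) (hφ : ∀ i a, (φ i a).fst = π0 a) (a : A) :
    (tanCombL b π0 φ hφ a).fst = algebraMap F k (π0 a) := by
  show (TrivSqZeroExt.inl (algebraMap F k (π0 a)) +
      TrivSqZeroExt.inr (∑ i, (φ i a).snd • b i) : DualNumber k).fst = _
  simp

@[simp] theorem snd_tanCombL {ι : Type} [Fintype ι] (b : ι → k) (π0 : A →ₐ[Λ] F)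
    (φ : ι → A →ₐ[Λ] DualNumber F) (hφ : ∀ i a, (φ i a).fst = π0 a) (a : A) :
    (tanCombL b π0 φ hφ a).snd = ∑ i, (φ i a).snd • b i := by
  show (TrivSqZeroExt.inl (algebraMap F k (π0 a)) +
      TrivSqZeroExt.inr (∑ i, (φ i a).snd • b i) : DualNumber k).snd = _
  simp

/-- **[GEN-ALG], `Λ ->> F ⊆ k`** : few `Λ`-algebra maps `A → k[ε]` over `π0` killing `J` ⟹ few generators of `ker π0`. -/
theorem exists_gens_of_card_le_subL [Finite k] (hΛ : Function.Surjective (algebraMap Λ F))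
    (π0 : A →ₐ[Λ] F) (J : Ideal A)
    (hJ : ∀ a ∈ J, π0 a = 0) (g : ℕ) (hfin : (TanSet (piKL k π0) J).Finite)
    (hcard : Nat.card ↥(TanSet (piKL k π0) J) ≤ Nat.card k ^ g) :
    ∃ x : Fin g → A, (∀ i, π0 (x i) = 0) ∧
      RingHom.ker (π0 : A →+* F) ≤ J ⊔ Ideal.span (Set.range x) ⊔ RingHom.ker (π0 : A →+* F) ^ 2 ⊔
        (RingHom.ker (algebraMap Λ F)).map (algebraMap Λ A) := by
  classical
  haveI : Finite F := Finite.of_injective _ (algebraMap F k).injective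
  haveI : Module.Finite F k := Module.Finite.of_finite
  set e := Module.finrank F k with he
  have he0 : e ≠ 0 := (Module.finrank_pos (R := F) (M := k)).ne'
  let bb := Module.finBasis F k
  -- the injection `(TanSet π0 J)^e → TanSet π J`
  let Φ : (Fin e → ↥(TanSet π0 J)) → ↥(TanSet (piKL k π0) J) := fun φ =>
    ⟨tanCombL (fun i => bb i) π0 (fun i => (φ i : A →ₐ[Λ] DualNumber F)) (fun i a => (φ i).2.1 a),
      fun a => fst_tanCombL _ _ _ _ a, fun a ha => by
        apply TrivSqZeroExt.ext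
        · rw [fst_tanCombL, hJ a ha, map_zero]; rfl
        · rw [snd_tanCombL]
          refine Finset.sum_eq_zero fun i _ => ?_
          rw [(φ i).2.2 a ha]
          simp⟩
  have hΦ : Function.Injective Φ := by
    intro φ φ' h
    funext i
    apply Subtype.ext
    apply AlgHom.ext
    intro a
    apply TrivSqZeroExt.ext
    · rw [(φ i).2.1 a, (φ' i).2.1 a]
    · have h3 := congrArg (fun ψ : ↥(TanSet (piKL k π0) J) => ((ψ : A →ₐ[Λ] DualNumber k) a).snd) h
      simp only [Φ, snd_tanCombL] at h3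
      have h4 := congrArg (fun z => bb.repr z i) h3
      simpa [map_sum, Finsupp.single_apply] using h4
  haveI hfinT : Finite ↥(TanSet (piKL k π0) J) := hfin
  haveI hne : Nonempty (Fin e) := ⟨⟨0, Nat.pos_of_ne_zero he0⟩⟩
  have hfinP : Finite (Fin e → ↥(TanSet π0 J)) := Finite.of_injective Φ hΦ
  have hfin0 : Finite ↥(TanSet π0 J) := by
    by_contra hinf
    rw [not_finite_iff_infinite] at hinf
    exact (not_finite_iff_infinite.mpr (inferInstance : Infinite (Fin e → ↥(TanSet π0 J)))) hfinP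
  have hc : Nat.card ↥(TanSet π0 J) ≤ Nat.card F ^ g := by
    have h3 := (Nat.card_le_card_of_injective Φ hΦ).trans hcard
    rw [Nat.card_fun, Nat.card_eq_fintype_card (α := Fin e), Fintype.card_fin,
      Module.natCard_eq_pow_finrank (K := F) (V := k), ← he, ← pow_mul, mul_comm, pow_mul] at h3
    exact (Nat.pow_le_pow_iff_left he0).1 h3
  exact exists_gens_of_card_le (Λ := Λ) (k := F) hΛ π0 J hJ g hfin0 hc

/-- from the count to generators, `Λ ->> F ⊆ k` -/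
theorem exists_gens_of_card_tanSet_le_subL [Finite k] (hΛ : Function.Surjective (algebraMap Λ F))
    (π0 : A →ₐ[Λ] F) (J : Ideal A)
    (hJ : ∀ a ∈ J, π0 a = 0) {t r : ℕ} (hfin : (TanSet (piKL k π0) J).Finite)
    (hcard : Nat.card ↥(TanSet (piKL k π0) J) * Nat.card k ^ r ≤ Nat.card k ^ t) :
    r ≤ t ∧ ∃ x : Fin (t - r) → A, (∀ i, π0 (x i) = 0) ∧
      RingHom.ker (π0 : A →+* F) ≤ J ⊔ Ideal.span (Set.range x) ⊔ RingHom.ker (π0 : A →+* F) ^ 2 ⊔
        (RingHom.ker (algebraMap Λ F)).map (algebraMap Λ A) := by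
  have hK1 : 1 < Nat.card k := Finite.one_lt_card
  have hK : 0 < Nat.card k := Nat.card_pos
  have hne : Nonempty ↥(TanSet (piKL k π0) J) :=
    ⟨⟨(TrivSqZeroExt.inlAlgHom Λ k k).comp (piKL k π0), fun a => rfl, fun a ha => by
      show TrivSqZeroExt.inl (algebraMap F k (π0 a)) = 0
      rw [hJ a ha, map_zero, TrivSqZeroExt.inl_zero]⟩⟩
  have hfin' : Finite ↥(TanSet (piKL k π0) J) := hfin
  have hpos : 0 < Nat.card ↥(TanSet (piKL k π0) J) := Nat.card_pos
  have h3 : r ≤ t := by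
    refine (Nat.pow_le_pow_iff_right hK1).1 (le_trans ?_ hcard)
    exact Nat.le_mul_of_pos_left _ hpos
  refine ⟨h3, exists_gens_of_card_le_subL hΛ π0 J hJ _ hfin ?_⟩
  have h4 : Nat.card k ^ t = Nat.card k ^ (t - r) * Nat.card k ^ r := by
    rw [← pow_add, Nat.sub_add_cancel h3]
  rw [h4] at hcard
  exact Nat.le_of_mul_le_mul_right hcard (pow_pos hK _)

end Alg

section Main

open CFT (levS levAll decomp Z1 B1 Qb IsSmooth)

variable {k : Type} [Field k] {p : ℕ} [Fact p.Prime] [Finite k] [CharP k p]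

/-- **[GEN]**, weak hypotheses, for `(Λ, A, π) = (Λ, A, (F → k) ∘ π0)`, `Λ ->> F ⊆ k`. -/
theorem exists_tw_gen_w_subL (hp2 : p ≠ 2) (h2 : (2 : k) ≠ 0) {rbar : GQ →* M2 k}
    (h : RbarHyp p rbar) (S₀ : Finset Nat.Primes) (hpS : pPrime p ∈ S₀)
    (hur : UnramOutside rbar S₀) :
    ∃ t : ℕ, ∀ (n : ℕ) (T : Finset ℕ), ∃ qv : Fin t → Nat.Primes, Function.Injective qv ∧
      (∀ i, ((qv i : Nat.Primes) : ℕ) ∉ T ∧ qv i ∉ S₀ ∧ p ^ (n + 1) ∣ ((qv i : Nat.Primes) : ℕ) - 1 ∧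
        ∃ φ : GQ, (primeLocalPlace (qv i)).IsFrobeniusAt φ ((qv i : Nat.Primes) : ℕ) ∧
          ∃ α β : k, α ≠ β ∧ (rbar φ).charpoly = (X - C α) * (X - C β)) ∧
      ∀ (R : Finset Nat.Primes), R ⊆ S₀ → pPrime p ∉ R → (∀ v ∈ R, ScalarAt rbar v) →
      ∀ (Lp : Submodule k (↥(decomp (pPrime p)) → sl2 k)), B1loc (adRep rbar) (pPrime p) ≤ Lp →
        Lp ≤ Z1loc (adRep rbar) (pPrime p) → Nat.card ↥Lp ≤ Nat.card k ^ 4 →
      ∀ (Λ F A : Type) [CommRing Λ] [Field F] [Algebra Λ F] [Algebra F k] [Algebra Λ k]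
        [IsScalarTower Λ F k] [CommRing A] [Algebra Λ A]
        (_ : Function.Surjective (algebraMap Λ F))
        (π0 : A →ₐ[Λ] F) (rA : GQ →* M2 A) (J : Ideal A),
        GenHypW p h2 rbar S₀ (Finset.univ.image qv) R Lp (piKL k π0) rA J →
        3 * R.card ≤ t ∧ ∃ x : Fin (t - 3 * R.card) → A, (∀ i, π0 (x i) = 0) ∧
          RingHom.ker (π0 : A →+* F) ≤ J ⊔ Ideal.span (Set.range x) ⊔
            RingHom.ker (π0 : A →+* F) ^ 2 ⊔
            (RingHom.ker (algebraMap Λ F)).map (algebraMap Λ A) := by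
  classical
  obtain ⟨S₁, hS₁⟩ := exists_S1_greenberg_wiles hp2 h
  have hur' : UnramOutside rbar (S₀ ∪ S₁) := hur.mono Finset.subset_union_left
  have hpS' : pPrime p ∈ S₀ ∪ S₁ := Finset.mem_union_left _ hpS
  obtain ⟨t, ht⟩ := exists_tw_primes hp2 h (S₀ ∪ S₁) hpS' hur'
  refine ⟨t, fun n T => ?_⟩
  obtain ⟨qv, hinj, hq, hkill⟩ := ht n (T ∪ (S₀ ∪ S₁).image (fun q : Nat.Primes => (q : ℕ)))
  have hnotS : ∀ i, qv i ∉ S₀ ∪ S₁ := fun i hi =>
    (hq i).1 (Finset.mem_union_right _ (Finset.mem_image_of_mem _ hi))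
  refine ⟨qv, hinj, fun i => ⟨fun hi => (hq i).1 (Finset.mem_union_left _ hi),
    fun hi => hnotS i (Finset.mem_union_left _ hi), (hq i).2⟩, ?_⟩
  intro R hR hpR hscal Lp hLpB hLpZ hLpcard Λ F A _ _ _ _ _ _ _ _ hΛ π0 rA J H
  have hcard : (Finset.univ.image qv).card = t := by
    rw [Finset.card_image_of_injective _ hinj, Finset.card_univ, Fintype.card_fin]
  have hdisj : Disjoint (S₀ ∪ S₁) (Finset.univ.image qv) := by
    rw [Finset.disjoint_left]
    intro q hq1 hq2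
    obtain ⟨i, -, rfl⟩ := Finset.mem_image.1 hq2
    exact hnotS i hq1
  have hQ : ∀ q ∈ Finset.univ.image qv, p ∣ (q : ℕ) - 1 ∧ ∃ φ : GQ,
      (primeLocalPlace q).IsFrobeniusAt φ (q : ℕ) ∧
      ∃ α β : k, α ≠ β ∧ (rbar φ).charpoly = (X - C α) * (X - C β) := fun q hq' => by
    obtain ⟨i, -, rfl⟩ := Finset.mem_image.1 hq'
    exact ⟨(dvd_pow_self p (Nat.succ_ne_zero n)).trans (hq i).2.1, (hq i).2.2⟩
  obtain ⟨hfin, hc⟩ := (H.mono Finset.subset_union_left hdisj).card_tanSet_le hp2 h hdisj hpS' hur'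
    hQ hkill (hS₁ _ _ Finset.subset_union_right hdisj hpS' hur' hQ)
    (hR.trans Finset.subset_union_left) hpR hscal hLpB hLpZ hLpcard
  rw [hcard] at hc
  refine exists_gens_of_card_tanSet_le_subL hΛ π0 J (fun a ha => ?_) hfin hc
  have := H.J_le a ha
  exact (algebraMap F k).injective (by rw [map_zero]; exact this)

/-- **[GEN]**, flat at `p`, `Λ ->> F ⊆ k`. -/
theorem exists_tw_gen_flat_subL (hp2 : p ≠ 2) (h2 : (2 : k) ≠ 0) {rbar : GQ →* M2 k}
    (h : RbarHyp p rbar) (S₀ : Finset Nat.Primes) (hpS : pPrime p ∈ S₀)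
    (hur : UnramOutside rbar S₀) :
    ∃ t : ℕ, ∀ (n : ℕ) (T : Finset ℕ), ∃ qv : Fin t → Nat.Primes, Function.Injective qv ∧
      (∀ i, ((qv i : Nat.Primes) : ℕ) ∉ T ∧ qv i ∉ S₀ ∧ p ^ (n + 1) ∣ ((qv i : Nat.Primes) : ℕ) - 1 ∧
        ∃ φ : GQ, (primeLocalPlace (qv i)).IsFrobeniusAt φ ((qv i : Nat.Primes) : ℕ) ∧
          ∃ α β : k, α ≠ β ∧ (rbar φ).charpoly = (X - C α) * (X - C β)) ∧
      ∀ (R : Finset Nat.Primes), R ⊆ S₀ → pPrime p ∉ R → (∀ v ∈ R, ScalarAt rbar v) →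
      ∀ (Λ F A : Type) [CommRing Λ] [Field F] [Algebra Λ F] [Algebra F k] [Algebra Λ k]
        [IsScalarTower Λ F k] [CommRing A] [Algebra Λ A]
        (_ : Function.Surjective (algebraMap Λ F))
        (π0 : A →ₐ[Λ] F) (rA : GQ →* M2 A) (J : Ideal A),
        GenHypFlat p h2 rbar S₀ (Finset.univ.image qv) R (piKL k π0) rA J →
        3 * R.card ≤ t ∧ ∃ x : Fin (t - 3 * R.card) → A, (∀ i, π0 (x i) = 0) ∧
          RingHom.ker (π0 : A →+* F) ≤ J ⊔ Ideal.span (Set.range x) ⊔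
            RingHom.ker (π0 : A →+* F) ^ 2 ⊔
            (RingHom.ker (algebraMap Λ F)).map (algebraMap Λ A) := by
  obtain ⟨Lp, hB, hZ, -, hcard, hmem⟩ := flatTanM hp2 h2 rbar h.cont h.det h.split
  obtain ⟨t, ht⟩ := exists_tw_gen_w_subL hp2 h2 h S₀ hpS hur
  refine ⟨t, fun n T => ?_⟩
  obtain ⟨qv, hinj, hq, hgen⟩ := ht n T
  refine ⟨qv, hinj, hq, fun R hR hpR hscal Λ F A _ _ _ _ _ _ _ _ hΛ π0 rA J H => ?_⟩
  refine hgen R hR hpR hscal Lp hB hZ hcard Λ F A hΛ π0 rA J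
    { lift := H.lift, det := H.det, tr := H.tr, lev := H.lev, J_le := H.J_le, hard := H.hard,
      min := H.min, atp := fun φ hφ => hmem _ ?_ }
  exact ⟨isLift_pushRep H.lift hφ.1, det_pushRep H.lift H.det φ, cont_pushRep H.lev φ, H.flat φ hφ⟩

end Main

end Fermat.Agent.ML
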