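import Fermat.Agent.ML.Gen.Main
import Fermat.Agent.ML.Gen.Sub
import Fermat.Agent.ML.Gen.Rbar

/-!
# ML / Gen / Out : (GEN) for the context `MCtx`

* `TWGenL p h2 rbar S₀ t qv` : the last conjunct of (GEN-L) in the form `Λ ->> F ⊆ k` (`Λ = ZMod (p^m)`, `F = ZMod p`, `k = 𝔽_{p²}`).
* `exists_tw_gen_L_subL` : helper58's `exists_tw_gen_L` in that form.
* `MCtx.exists_tw` : ONE `t`; for all `n` and all finite sets `B` of primes to avoid, Taylor-Wiles primes `qv : Fin t → Nat.Primes` with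
  `MTW p T θ L₀ t n qv` for every rigid `L₀` supported in `T`, and `TWGenL`.
-/

set_option autoImplicit false

noncomputable section

open ExtCitation Polynomial

namespace Fermat.Agent.ML

open Fermat.Agent.RIB Fermat.Agent.S56 Fermat.Agent.S56.Gen
open CFT (levS levAll decomp Z1 B1 Qb IsSmooth)

local notation "M₂" => Matrix (Fin 2) (Fin 2)

/-- the last conjunct of `exists_tw_gen_L_subL`. -/
def TWGenL (p : ℕ) [Fact p.Prime] {k : Type} [Field k] (h2 : (2 : k) ≠ 0) (rbar : GQ →* M2 k)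
    (S₀ : Finset Nat.Primes) (t : ℕ) (qv : Fin t → Nat.Primes) : Prop :=
  ∀ (L : ∀ v : Nat.Primes, Submodule k (↥(decomp v) → sl2 k)),
    (∀ v ∈ S₀, B1loc (adRep rbar) v ≤ L v) → (∀ v ∈ S₀, L v ≤ Z1loc (adRep rbar) v) →
  ∀ (d e : ℕ), (∏ v ∈ S₀, Nat.card ↥(L v)) * Nat.card k ^ d ≤
      Nat.card k ^ (3 * S₀.card + 1 + e) →
  ∀ (Λ F A : Type) [CommRing Λ] [Field F] [Algebra Λ F] [Algebra F k] [Algebra Λ k]
    [IsScalarTower Λ F k] [CommRing A] [Algebra Λ A]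
    (_ : Function.Surjective (algebraMap Λ F))
    (π0 : A →ₐ[Λ] F) (rA : GQ →* M2 A) (J : Ideal A),
    GenHypL p h2 rbar S₀ (Finset.univ.image qv) L (piKL k π0) rA J →
    d ≤ t + e ∧ ∃ x : Fin (t + e - d) → A, (∀ i, π0 (x i) = 0) ∧
      RingHom.ker (π0 : A →+* F) ≤ J ⊔ Ideal.span (Set.range x) ⊔
        RingHom.ker (π0 : A →+* F) ^ 2 ⊔ (RingHom.ker (algebraMap Λ F)).map (algebraMap Λ A)

section

variable {k : Type} [Field k] {p : ℕ} [Fact p.Prime] [Finite k] [CharP k p]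

/-- **[GEN-L]**, `Λ ->> F ⊆ k`. -/
theorem exists_tw_gen_L_subL (hp2 : p ≠ 2) (h2 : (2 : k) ≠ 0) {rbar : GQ →* M2 k}
    (h : RbarHyp p rbar) (S₀ : Finset Nat.Primes) (hpS : pPrime p ∈ S₀)
    (hur : UnramOutside rbar S₀) :
    ∃ t : ℕ, ∀ (n : ℕ) (T : Finset ℕ), ∃ qv : Fin t → Nat.Primes, Function.Injective qv ∧
      (∀ i, ((qv i : Nat.Primes) : ℕ) ∉ T ∧ qv i ∉ S₀ ∧ p ^ (n + 1) ∣ ((qv i : Nat.Primes) : ℕ) - 1 ∧
        ∃ φ : GQ, (primeLocalPlace (qv i)).IsFrobeniusAt φ ((qv i : Nat.Primes) : ℕ) ∧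
          ∃ α β : k, α ≠ β ∧ (rbar φ).charpoly = (X - C α) * (X - C β)) ∧
      TWGenL p h2 rbar S₀ t qv := by
  classical
  obtain ⟨S₁, hS₁⟩ := exists_S1_greenberg_wiles hp2 h
  have hur' : UnramOutside rbar (S₀ ∪ S₁) := hur.mono Finset.subset_union_left
  have hpS' : pPrime p ∈ S₀ ∪ S₁ := Finset.mem_union_left _ hpS
  obtain ⟨t, ht⟩ := exists_tw_primes hp2 h (S₀ ∪ S₁) hpS' hur'
  refine ⟨t, fun n T => ?_⟩
  obtain ⟨qv, hinj, hq, hkill⟩ := ht n (T ∪ (S₀ ∪ S₁).image (fun q : Nat.Primes => (q : ℕ)))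
  have hnotS : ∀ i, qv i ∉ S₀ ∪ S₁ := fun i hi =>
    (hq i).1 (Finset.mem_union_right _ (Finset.mem_image_of_mem _ hi))
  refine ⟨qv, hinj, fun i => ⟨fun hi => (hq i).1 (Finset.mem_union_left _ hi),
    fun hi => hnotS i (Finset.mem_union_left _ hi), (hq i).2⟩, ?_⟩
  intro L hLB hLZ d e hLcard Λ F A _ _ _ _ _ _ _ _ hΛ π0 rA J H
  have hcard : (Finset.univ.image qv).card = t := by
    rw [Finset.card_image_of_injective _ hinj, Finset.card_univ, Fintype.card_fin]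
  have hdisj : Disjoint (S₀ ∪ S₁) (Finset.univ.image qv) := by
    rw [Finset.disjoint_left]
    intro q hq1 hq2
    obtain ⟨i, -, rfl⟩ := Finset.mem_image.1 hq2
    exact hnotS i hq1
  have hQ : ∀ q ∈ Finset.univ.image qv, p ∣ (q : ℕ) - 1 ∧ ∃ φ : GQ,
      (primeLocalPlace q).IsFrobeniusAt φ (q : ℕ) ∧
      ∃ α β : k, α ≠ β ∧ (rbar φ).charpoly = (X - C α) * (X - C β) := fun q hq' => by
    obtain ⟨i, -, rfl⟩ := Finset.mem_image.1 hq'
    exact ⟨(dvd_pow_self p (Nat.succ_ne_zero n)).trans (hq i).2.1, (hq i).2.2⟩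
  have hsmA : IsSmooth levAll (adRep rbar) :=
    isSmooth_levAll_of_levS (adRep_smooth h.cont _ hur')
  have hK : 0 < Nat.card k := Nat.card_pos
  -- the extended family
  have hLB' : ∀ v ∈ S₀ ∪ S₁, B1loc (adRep rbar) v ≤ extFam rbar S₀ L v := fun v _ => by
    by_cases hv0 : v ∈ S₀
    · rw [extFam_mem rbar L hv0]; exact hLB v hv0
    · rw [extFam_not_mem rbar L hv0]; exact B1loc_le_Lur _ hsmA v
  have hLZ' : ∀ v ∈ S₀ ∪ S₁, extFam rbar S₀ L v ≤ Z1loc (adRep rbar) v := fun v _ => by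
    by_cases hv0 : v ∈ S₀
    · rw [extFam_mem rbar L hv0]; exact hLZ v hv0
    · rw [extFam_not_mem rbar L hv0]; exact Lur_le_Z1loc _ v
  have hLcard' : (∏ v ∈ S₀ ∪ S₁, Nat.card ↥(extFam rbar S₀ L v)) * Nat.card k ^ d ≤
      Nat.card k ^ (3 * (S₀ ∪ S₁).card + 1 + e) := by
    have hU : S₀ ∪ S₁ = S₀ ∪ (S₁ \ S₀) := by rw [Finset.union_sdiff_self_eq_union]
    have hdj : Disjoint S₀ (S₁ \ S₀) := Finset.disjoint_sdiff
    rw [hU, Finset.prod_union hdj, Finset.card_union_of_disjoint hdj]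
    have h1 : ∏ v ∈ S₀, Nat.card ↥(extFam rbar S₀ L v) = ∏ v ∈ S₀, Nat.card ↥(L v) :=
      Finset.prod_congr rfl fun v hv => by rw [extFam_mem rbar L hv]
    have h2' : ∏ v ∈ S₁ \ S₀, Nat.card ↥(extFam rbar S₀ L v) ≤
        (Nat.card k ^ 3) ^ (S₁ \ S₀).card := by
      refine Finset.prod_le_pow_card _ _ _ fun v hv => ?_
      rw [extFam_not_mem rbar L (Finset.mem_sdiff.1 hv).2, ← card_sl2]
      exact (card_Lur_le (adRep rbar) v).2
    rw [h1]
    calc (∏ v ∈ S₀, Nat.card ↥(L v)) * (∏ v ∈ S₁ \ S₀, Nat.card ↥(extFam rbar S₀ L v)) *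
          Nat.card k ^ d
        = (∏ v ∈ S₀, Nat.card ↥(L v)) * Nat.card k ^ d *
          (∏ v ∈ S₁ \ S₀, Nat.card ↥(extFam rbar S₀ L v)) := by ring
      _ ≤ Nat.card k ^ (3 * S₀.card + 1 + e) * (Nat.card k ^ 3) ^ (S₁ \ S₀).card :=
          Nat.mul_le_mul hLcard h2'
      _ = Nat.card k ^ (3 * (S₀.card + (S₁ \ S₀).card) + 1 + e) := by
          rw [← pow_mul, ← pow_add]; congr 1; ring
  obtain ⟨hfin, hc⟩ := (H.mono Finset.subset_union_left hdisj).card_tanSet_le hp2 h hdisj hpS' hur'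
    hQ hkill (hS₁ _ _ Finset.subset_union_right hdisj hpS' hur' hQ) hLB' hLZ' d e hLcard'
  rw [hcard] at hc
  refine exists_gens_of_card_tanSet_le_subL hΛ π0 J (fun a ha => ?_) hfin hc
  have := H.J_le a ha
  exact (algebraMap F k).injective (by rw [map_zero]; exact this)

end

/-- `X² - a X + 1 = (X - α)(X - β)`, `a² = 4` ⟹ `α = β`. -/
theorem disc_aux_M {K : Type*} [Field K] {a α β : K}
    (h : (X ^ 2 - C a * X + C 1 : K[X]) = (X - C α) * (X - C β)) (ha : a ^ 2 - 4 = 0) : α = β := by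
  have e : ((X : K[X]) - C α) * (X - C β) = X ^ 2 - C (α + β) * X + C (α * β) := by
    rw [C_add, C_mul]; ring
  rw [e] at h
  have c1 : a = α + β := by
    have := congrArg (fun f => f.coeff 1) h
    simp only [coeff_add, coeff_sub, coeff_X_pow, coeff_C_mul, coeff_X_one, coeff_C] at this
    have h' : -a = -β + -α := by simpa using this
    linear_combination -h'
  have c0 : 1 = α * β := by
    have := congrArg (fun f => f.coeff 0) h
    simp only [coeff_add, coeff_sub, coeff_X_pow, coeff_C_mul, coeff_X_zero, coeff_C] at this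
    simpa using this
  have h4 : (α - β) ^ 2 = 0 := by
    rw [c1] at ha
    linear_combination ha + 4 * c0
  exact sub_eq_zero.1 ((pow_eq_zero_iff two_ne_zero).1 h4)

variable {p : ℕ} [Fact p.Prime] {T : Finset ℕ} {θ : ℕ → ℤ} {rbar0 : GQ →* M₂ (ZMod p)}

/-- distinct Frobenius eigenvalues in `𝔽_{p²}` ⟹ the discriminant `θ(l)² - 4` is prime to `p` (`l ≡ 1 mod p`). -/
theorem MCtx.disc_of_charpoly (C : MCtx p T θ rbar0) {l : Nat.Primes} (hlT : (l : ℕ) ∉ T)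
    (hl1 : p ∣ (l : ℕ) - 1) {φ : GQ} (hφ : (primeLocalPlace l).IsFrobeniusAt φ (l : ℕ))
    {α β : kM p} (hαβ : α ≠ β)
    (hchar : (mapK (kM p) rbar0 φ).charpoly = (X - Polynomial.C α) * (X - Polynomial.C β)) :
    IsCoprime (p : ℤ) (θ (l : ℕ) ^ 2 - 4) := by
  have hp : p.Prime := Fact.out
  obtain ⟨h1, h2⟩ := C.frob _ l.2 hlT _ (liesOverPrime_primeLocalPlace l) φ hφ
  have hdet : (rbar0 φ).det = 1 := by
    rw [h2]
    have h1le : 1 ≤ (l : ℕ) := l.2.one_lt.le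
    have h0 : (((l : ℕ) - 1 : ℕ) : ZMod p) = 0 := (ZMod.natCast_eq_zero_iff _ _).2 hl1
    rw [Nat.cast_sub h1le, Nat.cast_one, sub_eq_zero] at h0
    exact h0
  rw [charpoly_mapK, hdet, map_one, h1] at hchar
  refine ((Nat.prime_iff_prime_int.1 hp).coprime_iff_not_dvd).2 fun hd => ?_
  have h0 : (((θ (l : ℕ) ^ 2 - 4 : ℤ) : ℤ) : ZMod p) = 0 :=
    (ZMod.intCast_zmod_eq_zero_iff_dvd _ _).2 hd
  refine hαβ (disc_aux_M hchar ?_)
  have h3 := congrArg (algebraMap (ZMod p) (kM p)) h0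
  rw [map_zero, Int.cast_sub, Int.cast_pow, map_sub, map_pow] at h3
  rw [← h3]
  congr 1
  have h4 : (((4 : ℤ) : ℤ) : ZMod p) = ((4 : ℕ) : ZMod p) := by norm_num
  rw [h4, map_natCast]
  norm_num

/-- **(G4)** the Taylor-Wiles primes of the context `MCtx`. -/
theorem MCtx.exists_tw (C : MCtx p T θ rbar0)
    (hirr2 : ∀ H : Subgroup GQ, H.index = 2 → AbsIrrOn (mapK (kM p) rbar0) H) :
    ∃ t : ℕ, ∀ (n : ℕ) (B : Finset ℕ), ∃ qv : Fin t → Nat.Primes,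
      (∀ i, ((qv i : Nat.Primes) : ℕ) ∉ B) ∧
      (∀ L₀ : ℕ, (∀ r : ℕ, r.Prime → r ∣ L₀ * p → r ∈ T) → 4 ∣ L₀ → MTW p T θ L₀ t n qv) ∧
      TWGenL p (two_ne_zero_kM C.hp2) (mapK (kM p) rbar0) (toP T) t qv := by
  obtain ⟨t, ht⟩ := exists_tw_gen_L_subL C.hp2 (two_ne_zero_kM C.hp2) (C.rbarHyp hirr2) (toP T)
    (mem_toP'.2 C.p_mem) (C.unramOutside _)
  refine ⟨t, fun n B => ?_⟩
  obtain ⟨qv, hinj, hq, hgen⟩ := ht n (T ∪ B)
  refine ⟨qv, fun i hi => (hq i).1 (Finset.mem_union_right _ hi), fun L₀ hlev h4 => ?_, hgen⟩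
  have hnT : ∀ i, ((qv i : Nat.Primes) : ℕ) ∉ T := fun i hi =>
    (hq i).1 (Finset.mem_union_left _ hi)
  exact
    { inj := hinj
      notT := hnT
      pow := fun i => (hq i).2.2.1
      disc := fun i => by
        obtain ⟨φ, hφ, α, β, hαβ, hchar⟩ := (hq i).2.2.2
        exact C.disc_of_charpoly (hnT i)
          ((dvd_pow_self p (Nat.succ_ne_zero n)).trans (hq i).2.2.1) hφ hαβ hchar
      lev := hlev
      rigid := h4 }

end Fermat.Agent.ML
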