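import Fermat.Agent.ML.Gen.Menu
import Fermat.Agent.ML.Gen.Sub

/-!
# ML / Gen / Card : ONE Taylor-Wiles family for all consumers.

* `TWCard p h2 rbar S₀ Q` : the property of a Taylor-Wiles set `Q` : for EVERY family of local conditions `L` on `S₀` with budget `(d, e)`
  and every `(Λ, A, π, rA, J)` with `GenHypL` : `#TanSet π J * #k^d ≤ #k^(#Q + e)`.   (No surjectivity of `Λ → k`.)
* `exists_tw_card` : `∃ t, ∀ n T, ∃ qv : Fin t → Nat.Primes`, Taylor-Wiles properties `∧ TWCard .. (image qv)`.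
* `TWCard.gens`, `TWCard.gens_sub` : generators, for `Λ ->> k`, resp. `Λ ->> F ⊆ k`, `π = (F → k) ∘ π0`.
* `TWCard.gens_strict_sub` : the same for `GenHypS` (`Lp` at `p`, `B¹` at `R` with weights `w`, `Lur` elsewhere).
* `ConjConst Λ J M X` : `M * X ≡ C * M (mod J)` for some `C ∈ M₂(Λ)`; stable under products; `conjConst_of_gens` : enough to check it on a Frobenius and on inertia.
* `GenHypM` : matrix-level hypotheses, `GenHypM.toS`.
-/

set_option autoImplicit false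

open ExtCitation Polynomial

namespace Fermat.Agent.ML

open Fermat.Agent.S56
open CFT (levS levAll decomp Z1 B1 Qb IsSmooth d01)
open Fermat.Agent.S56.Gen

variable {k : Type} [Field k] {p : ℕ} [Fact p.Prime]

/-- the counting property of a Taylor-Wiles set `Q`. -/
def TWCard (p : ℕ) [Fact p.Prime] (h2 : (2 : k) ≠ 0) (rbar : GQ →* M2 k)
    (S₀ Q : Finset Nat.Primes) : Prop :=
  ∀ (L : ∀ v : Nat.Primes, Submodule k (↥(decomp v) → sl2 k)),
    (∀ v ∈ S₀, B1loc (adRep rbar) v ≤ L v) → (∀ v ∈ S₀, L v ≤ Z1loc (adRep rbar) v) →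
  ∀ (d e : ℕ), (∏ v ∈ S₀, Nat.card ↥(L v)) * Nat.card k ^ d ≤
      Nat.card k ^ (3 * S₀.card + 1 + e) →
  ∀ (Λ A : Type) [CommRing Λ] [Algebra Λ k] [CommRing A] [Algebra Λ A]
    (π : A →ₐ[Λ] k) (rA : GQ →* M2 A) (J : Ideal A),
    GenHypL p h2 rbar S₀ Q L π rA J →
    (TanSet π J).Finite ∧ Nat.card ↥(TanSet π J) * Nat.card k ^ d ≤ Nat.card k ^ (Q.card + e)

section

variable [Finite k] [CharP k p]

/-- **[GEN-CARD]** : ONE `t` and ONE family of Taylor-Wiles sets for all local conditions, rings, ideals. -/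
theorem exists_tw_card (hp2 : p ≠ 2) (h2 : (2 : k) ≠ 0) {rbar : GQ →* M2 k} (h : RbarHyp p rbar)
    (S₀ : Finset Nat.Primes) (hpS : pPrime p ∈ S₀) (hur : UnramOutside rbar S₀) :
    ∃ t : ℕ, ∀ (n : ℕ) (T : Finset ℕ), ∃ qv : Fin t → Nat.Primes, Function.Injective qv ∧
      (∀ i, ((qv i : Nat.Primes) : ℕ) ∉ T ∧ qv i ∉ S₀ ∧ p ^ (n + 1) ∣ ((qv i : Nat.Primes) : ℕ) - 1 ∧
        ∃ φ : GQ, (primeLocalPlace (qv i)).IsFrobeniusAt φ ((qv i : Nat.Primes) : ℕ) ∧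
          ∃ α β : k, α ≠ β ∧ (rbar φ).charpoly = (X - C α) * (X - C β)) ∧
      (Finset.univ.image qv).card = t ∧ TWCard p h2 rbar S₀ (Finset.univ.image qv) := by
  classical
  obtain ⟨S₁, hS₁⟩ := exists_S1_greenberg_wiles hp2 h
  have hur' : UnramOutside rbar (S₀ ∪ S₁) := hur.mono Finset.subset_union_left
  have hpS' : pPrime p ∈ S₀ ∪ S₁ := Finset.mem_union_left _ hpS
  obtain ⟨t, ht⟩ := exists_tw_primes hp2 h (S₀ ∪ S₁) hpS' hur'
  refine ⟨t, fun n T => ?_⟩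
  obtain ⟨qv, hinj, hq, hkill⟩ := ht n (T ∪ (S₀ ∪ S₁).image (fun q : Nat.Primes => (q : ℕ)))
  have hnotS : ∀ i, qv i ∉ S₀ ∪ S₁ := fun i hi =>
    (hq i).1 (Finset.mem_union_right _ (Finset.mem_image_of_mem _ hi))
  have hcard : (Finset.univ.image qv).card = t := by
    rw [Finset.card_image_of_injective _ hinj, Finset.card_univ, Fintype.card_fin]
  refine ⟨qv, hinj, fun i => ⟨fun hi => (hq i).1 (Finset.mem_union_left _ hi),
    fun hi => hnotS i (Finset.mem_union_left _ hi), (hq i).2⟩, hcard, ?_⟩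
  intro L hLB hLZ d e hLcard Λ A _ _ _ _ π rA J H
  have hdisj : Disjoint (S₀ ∪ S₁) (Finset.univ.image qv) := by
    rw [Finset.disjoint_left]
    intro q hq1 hq2
    obtain ⟨i, -, rfl⟩ := Finset.mem_image.1 hq2
    exact hnotS i hq1
  have hQ : ∀ q ∈ Finset.univ.image qv, p ∣ (q : ℕ) - 1 ∧ ∃ φ : GQ,
      (primeLocalPlace q).IsFrobeniusAt φ (q : ℕ) ∧
      ∃ α β : k, α ≠ β ∧ (rbar φ).charpoly = (X - C α) * (X - C β) := fun q hq' => by
    obtain ⟨i, -, rfl⟩ := Finset.mem_image.1 hq'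
    exact ⟨(dvd_pow_self p (Nat.succ_ne_zero n)).trans (hq i).2.1, (hq i).2.2⟩
  have hsmA : IsSmooth levAll (adRep rbar) :=
    isSmooth_levAll_of_levS (adRep_smooth h.cont _ hur')
  have hLB' : ∀ v ∈ S₀ ∪ S₁, B1loc (adRep rbar) v ≤ extFam rbar S₀ L v := fun v _ => by
    by_cases hv0 : v ∈ S₀
    · rw [extFam_mem rbar L hv0]; exact hLB v hv0
    · rw [extFam_not_mem rbar L hv0]; exact B1loc_le_Lur _ hsmA v
  have hLZ' : ∀ v ∈ S₀ ∪ S₁, extFam rbar S₀ L v ≤ Z1loc (adRep rbar) v := fun v _ => by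
    by_cases hv0 : v ∈ S₀
    · rw [extFam_mem rbar L hv0]; exact hLZ v hv0
    · rw [extFam_not_mem rbar L hv0]; exact Lur_le_Z1loc _ v
  have hLcard' : (∏ v ∈ S₀ ∪ S₁, Nat.card ↥(extFam rbar S₀ L v)) * Nat.card k ^ d ≤
      Nat.card k ^ (3 * (S₀ ∪ S₁).card + 1 + e) := by
    have hU : S₀ ∪ S₁ = S₀ ∪ (S₁ \ S₀) := by rw [Finset.union_sdiff_self_eq_union]
    have hdj : Disjoint S₀ (S₁ \ S₀) := Finset.disjoint_sdiff
    rw [hU, Finset.prod_union hdj, Finset.card_union_of_disjoint hdj]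
    have h1 : ∏ v ∈ S₀, Nat.card ↥(extFam rbar S₀ L v) = ∏ v ∈ S₀, Nat.card ↥(L v) :=
      Finset.prod_congr rfl fun v hv => by rw [extFam_mem rbar L hv]
    have h2' : ∏ v ∈ S₁ \ S₀, Nat.card ↥(extFam rbar S₀ L v) ≤
        (Nat.card k ^ 3) ^ (S₁ \ S₀).card := by
      refine Finset.prod_le_pow_card _ _ _ fun v hv => ?_
      rw [extFam_not_mem rbar L (Finset.mem_sdiff.1 hv).2, ← card_sl2]
      exact (card_Lur_le (adRep rbar) v).2
    rw [h1]
    calc (∏ v ∈ S₀, Nat.card ↥(L v)) * (∏ v ∈ S₁ \ S₀, Nat.card ↥(extFam rbar S₀ L v)) *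
          Nat.card k ^ d
        = (∏ v ∈ S₀, Nat.card ↥(L v)) * Nat.card k ^ d *
          (∏ v ∈ S₁ \ S₀, Nat.card ↥(extFam rbar S₀ L v)) := by ring
      _ ≤ Nat.card k ^ (3 * S₀.card + 1 + e) * (Nat.card k ^ 3) ^ (S₁ \ S₀).card :=
          Nat.mul_le_mul hLcard h2'
      _ = Nat.card k ^ (3 * (S₀.card + (S₁ \ S₀).card) + 1 + e) := by
          rw [← pow_mul, ← pow_add]; congr 1; ring
  exact (H.mono Finset.subset_union_left hdisj).card_tanSet_le hp2 h hdisj hpS' hur'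
    hQ hkill (hS₁ _ _ Finset.subset_union_right hdisj hpS' hur' hQ) hLB' hLZ' d e hLcard'

end

section Gens

variable {h2 : (2 : k) ≠ 0} {rbar : GQ →* M2 k} {S₀ Q : Finset Nat.Primes}

/-- generators, `Λ ->> k`. -/
theorem TWCard.gens [Finite k] (W : TWCard p h2 rbar S₀ Q)
    {L : ∀ v : Nat.Primes, Submodule k (↥(decomp v) → sl2 k)}
    (hLB : ∀ v ∈ S₀, B1loc (adRep rbar) v ≤ L v) (hLZ : ∀ v ∈ S₀, L v ≤ Z1loc (adRep rbar) v)
    {d e : ℕ} (hLcard : (∏ v ∈ S₀, Nat.card ↥(L v)) * Nat.card k ^ d ≤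
      Nat.card k ^ (3 * S₀.card + 1 + e))
    {Λ A : Type} [CommRing Λ] [Algebra Λ k] [CommRing A] [Algebra Λ A]
    (hΛ : Function.Surjective (algebraMap Λ k)) {π : A →ₐ[Λ] k} {rA : GQ →* M2 A} {J : Ideal A}
    (H : GenHypL p h2 rbar S₀ Q L π rA J) :
    d ≤ Q.card + e ∧ ∃ x : Fin (Q.card + e - d) → A, (∀ i, π (x i) = 0) ∧
      RingHom.ker (π : A →+* k) ≤ J ⊔ Ideal.span (Set.range x) ⊔
        RingHom.ker (π : A →+* k) ^ 2 ⊔ (RingHom.ker (algebraMap Λ k)).map (algebraMap Λ A) := by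
  obtain ⟨hfin, hc⟩ := W L hLB hLZ d e hLcard Λ A π rA J H
  exact exists_gens_of_card_tanSet_le H.J_le hfin hc hΛ

/-- generators, `Λ ->> F ⊆ k`. -/
theorem TWCard.gens_sub [Finite k] (W : TWCard p h2 rbar S₀ Q)
    {L : ∀ v : Nat.Primes, Submodule k (↥(decomp v) → sl2 k)}
    (hLB : ∀ v ∈ S₀, B1loc (adRep rbar) v ≤ L v) (hLZ : ∀ v ∈ S₀, L v ≤ Z1loc (adRep rbar) v)
    {d e : ℕ} (hLcard : (∏ v ∈ S₀, Nat.card ↥(L v)) * Nat.card k ^ d ≤
      Nat.card k ^ (3 * S₀.card + 1 + e))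
    {Λ F A : Type} [CommRing Λ] [Field F] [Algebra Λ F] [Algebra F k] [Algebra Λ k]
    [IsScalarTower Λ F k] [CommRing A] [Algebra Λ A]
    (hΛ : Function.Surjective (algebraMap Λ F)) {π0 : A →ₐ[Λ] F} {rA : GQ →* M2 A} {J : Ideal A}
    (H : GenHypL p h2 rbar S₀ Q L (piKL k π0) rA J) :
    d ≤ Q.card + e ∧ ∃ x : Fin (Q.card + e - d) → A, (∀ i, π0 (x i) = 0) ∧
      RingHom.ker (π0 : A →+* F) ≤ J ⊔ Ideal.span (Set.range x) ⊔
        RingHom.ker (π0 : A →+* F) ^ 2 ⊔ (RingHom.ker (algebraMap Λ F)).map (algebraMap Λ A) := by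
  obtain ⟨hfin, hc⟩ := W L hLB hLZ d e hLcard Λ A (piKL k π0) rA J H
  have hJ : ∀ a ∈ J, π0 a = 0 := fun a ha => by
    have h1 : algebraMap F k (π0 a) = 0 := H.J_le a ha
    exact (map_eq_zero (algebraMap F k)).1 h1
  exact exists_gens_of_card_tanSet_le_subL hΛ π0 J hJ hfin hc

/-- generators for `GenHypS`, `Λ ->> F ⊆ k`. -/
theorem TWCard.gens_strict_sub [Finite k] [CharP k p] (W : TWCard p h2 rbar S₀ Q)
    (hcont : GaloisFactorsThroughFiniteLevel rbar)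
    (hpS : pPrime p ∈ S₀) {R : Finset Nat.Primes} (hR : R ⊆ S₀) (hpR : pPrime p ∉ R)
    (w : Nat.Primes → ℕ)
    (hw : ∀ v ∈ R, Nat.card ↥(B1loc (adRep rbar) v) * Nat.card k ^ w v ≤ Nat.card k ^ 3)
    {Lp : Submodule k (↥(decomp (pPrime p)) → sl2 k)} (hLpB : B1loc (adRep rbar) (pPrime p) ≤ Lp)
    (hLpZ : Lp ≤ Z1loc (adRep rbar) (pPrime p)) (hLpcard : Nat.card ↥Lp ≤ Nat.card k ^ 4)
    {Λ F A : Type} [CommRing Λ] [Field F] [Algebra Λ F] [Algebra F k] [Algebra Λ k]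
    [IsScalarTower Λ F k] [CommRing A] [Algebra Λ A]
    (hΛ : Function.Surjective (algebraMap Λ F)) {π0 : A →ₐ[Λ] F} {rA : GQ →* M2 A} {J : Ideal A}
    (H : GenHypS p h2 rbar S₀ Q R Lp (piKL k π0) rA J) :
    ∑ v ∈ R, w v ≤ Q.card ∧ ∃ x : Fin (Q.card - ∑ v ∈ R, w v) → A, (∀ i, π0 (x i) = 0) ∧
      RingHom.ker (π0 : A →+* F) ≤ J ⊔ Ideal.span (Set.range x) ⊔
        RingHom.ker (π0 : A →+* F) ^ 2 ⊔ (RingHom.ker (algebraMap Λ F)).map (algebraMap Λ A) := by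
  classical
  have hsmA : IsSmooth levAll (adRep rbar) := isSmooth_adRep rbar hcont
  exact W.gens_sub (L := strictFam rbar Lp R)
    (fun v _ => by
      by_cases hvR : v ∈ R
      · rw [strictFam_mem rbar Lp hvR]
      rw [strictFam_not_mem rbar Lp hvR]
      by_cases hv : v = pPrime p
      · subst hv; rw [locFam_p]; exact hLpB
      · rw [locFam_ne rbar Lp hv]; exact B1loc_le_Lur _ hsmA v)
    (fun v _ => by
      by_cases hvR : v ∈ R
      · rw [strictFam_mem rbar Lp hvR]; exact B1loc_le_Z1loc _ hsmA v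
      rw [strictFam_not_mem rbar Lp hvR]
      by_cases hv : v = pPrime p
      · subst hv; rw [locFam_p]; exact hLpZ
      · rw [locFam_ne rbar Lp hv]; exact Lur_le_Z1loc _ v)
    (d := ∑ v ∈ R, w v) (e := 0) (prod_card_strictFam_le rbar S₀ R hpS hR hpR Lp hLpcard w hw)
    hΛ H.toL

end Gens

section ConjConst

variable {Λ A : Type} [CommRing Λ] [CommRing A] [Algebra Λ A]

/-- `M * X ≡ C * M (mod J)` for some `C ∈ M₂(Λ)`. -/
def ConjConst (Λ : Type) {A : Type} [CommRing Λ] [CommRing A] [Algebra Λ A] (J : Ideal A)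
    (M X : M2 A) : Prop :=
  ∃ C : M2 Λ, ∀ i l, (M * X - C.map (algebraMap Λ A) * M) i l ∈ J

theorem conjConst_iff {J : Ideal A} {M X : M2 A} : ConjConst Λ J M X ↔
    ∃ C : M2 Λ, (Ideal.Quotient.mk J).mapMatrix (M * X) =
      (Ideal.Quotient.mk J).mapMatrix (C.map (algebraMap Λ A) * M) := by
  refine exists_congr fun C => ?_
  constructor
  · intro h
    ext i l
    exact Ideal.Quotient.eq.2 (h i l)
  · intro h i l
    exact Ideal.Quotient.eq.1 (congrFun (congrFun h i) l)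

theorem ConjConst.one (J : Ideal A) (M : M2 A) : ConjConst Λ J M (1 : M2 A) :=
  ⟨1, fun i l => by
    have : (1 : M2 Λ).map (algebraMap Λ A) = 1 := map_one (algebraMap Λ A).mapMatrix
    rw [this, one_mul, mul_one, sub_self]; exact J.zero_mem⟩

theorem ConjConst.mul {J : Ideal A} {M X Y : M2 A} (hX : ConjConst Λ J M X)
    (hY : ConjConst Λ J M Y) : ConjConst Λ J M (X * Y) := by
  rw [conjConst_iff] at hX hY ⊢
  obtain ⟨C, hC⟩ := hX
  obtain ⟨D, hD⟩ := hY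
  refine ⟨C * D, ?_⟩
  have e : (C * D).map (algebraMap Λ A) = C.map (algebraMap Λ A) * D.map (algebraMap Λ A) :=
    map_mul (algebraMap Λ A).mapMatrix C D
  rw [map_mul] at hC hD
  simp only [map_mul] at hC hD
  simp only [e, map_mul]
  rw [← mul_assoc, hC, mul_assoc, hD, mul_assoc]

theorem ConjConst.pow {J : Ideal A} {M X : M2 A} (hX : ConjConst Λ J M X) (n : ℕ) :
    ConjConst Λ J M (X ^ n) := by
  induction n with
  | zero => rw [pow_zero]; exact ConjConst.one J M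
  | succ n ih => rw [pow_succ]; exact ih.mul hX

/-- it is enough to check `ConjConst` on one Frobenius and on the inertia group (tame case). -/
theorem conjConst_of_gens {rA : GQ →* M2 A} (hcont : GaloisFactorsThroughFiniteLevel rA)
    (v : Nat.Primes) (N : ℕ) (hN : Nat.Coprime N (v : ℕ)) (htors : ∀ σ ∈ inert v, rA σ ^ N = 1)
    {J : Ideal A} {M : M2 A} (hI : ∀ σ ∈ inert v, ConjConst Λ J M (rA σ))
    {φ : GQ} (hφ : (primeLocalPlace v).IsFrobeniusAt φ (v : ℕ)) (hF : ConjConst Λ J M (rA φ)) :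
    ∀ σ ∈ decomp v, ConjConst Λ J M (rA σ) := by
  obtain ⟨σ₀, hσ₀, -, hdec⟩ := exists_local_gens rA hcont v N hN htors
  intro σ hσ
  obtain ⟨a, b, hab⟩ := hdec φ hφ σ hσ
  rw [hab]
  exact (hF.pow a).mul ((hI σ₀ hσ₀).pow b)

end ConjConst

/-- matrix-level hypotheses of (GEN): at `v ∈ R`, `rA|_{D_v}` is conjugate modulo `J` to a representation with values in `M₂(Λ)`. -/
structure GenHypM (p : ℕ) [Fact p.Prime] (h2 : (2 : k) ≠ 0) (rbar : GQ →* M2 k)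
    (S₀ Q R : Finset Nat.Primes) (Lp : Submodule k (↥(decomp (pPrime p)) → sl2 k))
    {Λ A : Type} [CommRing Λ] [Algebra Λ k] [CommRing A] [Algebra Λ A]
    (π : A →ₐ[Λ] k) (rA : GQ →* M2 A) (J : Ideal A) : Prop where
  lift : ∀ σ, (rA σ).map π = rbar σ
  det : ∀ σ, ∃ c : Λ, (rA σ).det = algebraMap Λ A c
  tr : Algebra.adjoin Λ (Set.range fun σ => (rA σ).trace) = ⊤
  lev : ∃ U ∈ (levS (S₀ ∪ Q)).carrier, ∀ s ∈ U, rA s = 1
  J_le : ∀ a ∈ J, π a = 0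
  strict : ∀ v ∈ R, ∃ M : M2 A, IsUnit (M.map π) ∧ ∀ σ ∈ decomp v, ConjConst Λ J M (rA σ)
  atp : ∀ φ ∈ TanSet π J, resLoc k (pPrime p) (coc h2 (pushRep φ rA)) ∈ Lp
  min : ∀ v ∈ S₀, v ∉ R → v ≠ pPrime p → (∀ σ ∈ inert v, rA σ = 1) ∨
    ((∃ σ ∈ inert v, rbar σ ≠ 1) ∧ ∀ σ ∈ inert v, (rA σ).charpoly = (X - 1) ^ 2)

theorem GenHypM.toS [Finite k] [CharP k p] {h2 : (2 : k) ≠ 0} {rbar : GQ →* M2 k}
    {S₀ Q R : Finset Nat.Primes} {Lp : Submodule k (↥(decomp (pPrime p)) → sl2 k)}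
    {Λ A : Type} [CommRing Λ] [Algebra Λ k] [CommRing A] [Algebra Λ A]
    {π : A →ₐ[Λ] k} {rA : GQ →* M2 A} {J : Ideal A}
    (H : GenHypM p h2 rbar S₀ Q R Lp π rA J) : GenHypS p h2 rbar S₀ Q R Lp π rA J where
  lift := H.lift
  det := H.det
  tr := H.tr
  lev := H.lev
  J_le := H.J_le
  strict := by
    intro v hv φ hφ
    obtain ⟨M, hM, hc⟩ := H.strict v hv
    exact resLoc_coc_mem_B1loc_of_conj h2 H.lift hφ v M hM hc
  atp := H.atp
  min := by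
    intro v hv hvR hvp φ hφ
    have hl : IsLift rbar (pushRep φ rA) := isLift_pushRep H.lift hφ.1
    have hcont := cont_pushRep H.lev φ
    have hvp' : (v : ℕ) ≠ p := fun e => hvp (Subtype.ext e)
    rcases H.min v hv hvR hvp with hu | ⟨hram, hu⟩
    · exact resLoc_coc_mem_Lur_of_trivial h2 rbar v _ hcont hl
        (fun σ hσ => pushRep_eq_one φ (hu σ hσ))
    · exact resLoc_coc_mem_Lur_of_unip h2 rbar v hvp' hram _ hcont hl
        (fun σ hσ => charpoly_pushRep φ (hu σ hσ))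

end Fermat.Agent.ML
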