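import Fermat.Agent.ML.Gen.Main
import Fermat.Agent.ML.Gen.Sub

/-!
# ML / Gen / Loc : (GEN) with ARBITRARY local conditions (helper58's `GenHypL`) over `Λ ↠ F ⊆ k` (helper16's `piKL`), and its RING FORM.

* `exists_tw_gen_loc` : `exists_tw_gen_L` VERBATIM, for `(Λ, A, π) = (Λ, A, (F → k) ∘ π0)`, `Λ ↠ F ⊆ k`.
* `GenHypZ`, `exists_tw_gen_loc_int` : the same for a plain commutative ring `R` with `π0 : R →+* ZMod p`;
   the tangent vectors are the ring homs `φ : R →+* k[ε]` over `π0` killing `J`;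
   conclusion `ker π0 ≤ J ⊔ (x_1..x_(t+e-d)) ⊔ (ker π0)² ⊔ (p)`, and without `(ker π0)²` if `ker π0` is nilpotent.
* `prod_card_le_of_forall` : the budget hypothesis from bounds `#L v ≤ #k ^ a v`.
* `ker_le_of_nilp` (Nakayama), `adjoin_int_eq_top_of_zmod`.
-/

set_option autoImplicit false

open ExtCitation Polynomial

namespace Fermat.Agent.ML

open Fermat.Agent.S56 Fermat.Agent.S56.Gen
open CFT (levS levAll decomp Z1 B1 Qb IsSmooth)

/-- Nakayama : remove `m²` when `m` is nilpotent modulo the right hand side. -/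
theorem ker_le_of_nilp {A : Type} [CommRing A] {m J X P : Ideal A} (h : m ≤ J ⊔ X ⊔ m ^ 2 ⊔ P) {N : ℕ}
    (hN : m ^ N ≤ J ⊔ X ⊔ P) : m ≤ J ⊔ X ⊔ P := by
  refine le_of_le_sup_sq_of_pow_le (h.trans ?_) hN
  refine sup_le (sup_le (le_sup_of_le_left le_sup_left) le_sup_right)
    (le_sup_of_le_left le_sup_right)

/-- generation over `ZMod m` is generation over `ℤ`. -/
theorem adjoin_int_eq_top_of_zmod {m : ℕ} {R : Type} [CommRing R] [Algebra (ZMod m) R] {s : Set R}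
    (h : Algebra.adjoin (ZMod m) s = ⊤) : Algebra.adjoin ℤ s = ⊤ := by
  rw [eq_top_iff]
  intro x _
  have hx : x ∈ Algebra.adjoin (ZMod m) s := h ▸ Algebra.mem_top
  induction hx using Algebra.adjoin_induction with
  | mem x hx => exact Algebra.subset_adjoin hx
  | algebraMap r =>
    obtain ⟨z, rfl⟩ := ZMod.intCast_surjective r
    rw [map_intCast]
    exact intCast_mem _ z
  | add x y _ _ hx hy => exact add_mem (hx Algebra.mem_top) (hy Algebra.mem_top)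
  | mul x y _ _ hx hy => exact mul_mem (hx Algebra.mem_top) (hy Algebra.mem_top)

/-- the budget hypothesis of `exists_tw_gen_L` / `exists_tw_gen_loc` from prime-by-prime bounds `#L v ≤ #k ^ a v`. -/
theorem prod_card_le_of_forall {k : Type} [Field k] [Finite k] (S₀ : Finset Nat.Primes)
    (L : ∀ v : Nat.Primes, Submodule k (↥(decomp v) → sl2 k)) (a : Nat.Primes → ℕ)
    (ha : ∀ v ∈ S₀, Nat.card ↥(L v) ≤ Nat.card k ^ a v) (d e : ℕ)
    (hde : ∑ v ∈ S₀, a v + d ≤ 3 * S₀.card + 1 + e) :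
    (∏ v ∈ S₀, Nat.card ↥(L v)) * Nat.card k ^ d ≤ Nat.card k ^ (3 * S₀.card + 1 + e) := by
  have hK : 0 < Nat.card k := Nat.card_pos
  calc (∏ v ∈ S₀, Nat.card ↥(L v)) * Nat.card k ^ d
      ≤ (∏ v ∈ S₀, Nat.card k ^ a v) * Nat.card k ^ d :=
        Nat.mul_le_mul_right _ (Finset.prod_le_prod' ha)
    _ = Nat.card k ^ (∑ v ∈ S₀, a v + d) := by rw [Finset.prod_pow_eq_pow_sum, pow_add]
    _ ≤ Nat.card k ^ (3 * S₀.card + 1 + e) := Nat.pow_le_pow_right hK hde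

section Main

variable {k : Type} [Field k] {p : ℕ} [Fact p.Prime] [Finite k] [CharP k p]

/-- **[GEN-LOC]** : `exists_tw_gen_L` for `Λ ↠ F ⊆ k`.  `t` and the Taylor-Wiles primes do not depend on `L`, `d`, `e`, `Λ`, `A`, `J`. -/
theorem exists_tw_gen_loc (hp2 : p ≠ 2) (h2 : (2 : k) ≠ 0) {rbar : GQ →* M2 k}
    (h : RbarHyp p rbar) (S₀ : Finset Nat.Primes) (hpS : pPrime p ∈ S₀)
    (hur : UnramOutside rbar S₀) :
    ∃ t : ℕ, ∀ (n : ℕ) (T : Finset ℕ), ∃ qv : Fin t → Nat.Primes, Function.Injective qv ∧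
      (∀ i, ((qv i : Nat.Primes) : ℕ) ∉ T ∧ qv i ∉ S₀ ∧ p ^ (n + 1) ∣ ((qv i : Nat.Primes) : ℕ) - 1 ∧
        ∃ φ : GQ, (primeLocalPlace (qv i)).IsFrobeniusAt φ ((qv i : Nat.Primes) : ℕ) ∧
          ∃ α β : k, α ≠ β ∧ (rbar φ).charpoly = (X - C α) * (X - C β)) ∧
      ∀ (L : ∀ v : Nat.Primes, Submodule k (↥(decomp v) → sl2 k)),
        (∀ v ∈ S₀, B1loc (adRep rbar) v ≤ L v) → (∀ v ∈ S₀, L v ≤ Z1loc (adRep rbar) v) →
      ∀ (d e : ℕ), (∏ v ∈ S₀, Nat.card ↥(L v)) * Nat.card k ^ d ≤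
          Nat.card k ^ (3 * S₀.card + 1 + e) →
      ∀ (Λ F A : Type) [CommRing Λ] [Field F] [Algebra Λ F] [Algebra F k] [Algebra Λ k]
        [IsScalarTower Λ F k] [CommRing A] [Algebra Λ A]
        (_ : Function.Surjective (algebraMap Λ F))
        (π0 : A →ₐ[Λ] F) (rA : GQ →* M2 A) (J : Ideal A),
        GenHypL p h2 rbar S₀ (Finset.univ.image qv) L (piKL k π0) rA J →
        d ≤ t + e ∧ ∃ x : Fin (t + e - d) → A, (∀ i, π0 (x i) = 0) ∧
          RingHom.ker (π0 : A →+* F) ≤ J ⊔ Ideal.span (Set.range x) ⊔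
            RingHom.ker (π0 : A →+* F) ^ 2 ⊔ (RingHom.ker (algebraMap Λ F)).map (algebraMap Λ A) := by
  classical
  obtain ⟨S₁, hS₁⟩ := exists_S1_greenberg_wiles hp2 h
  have hur' : UnramOutside rbar (S₀ ∪ S₁) := hur.mono Finset.subset_union_left
  have hpS' : pPrime p ∈ S₀ ∪ S₁ := Finset.mem_union_left _ hpS
  obtain ⟨t, ht⟩ := exists_tw_primes hp2 h (S₀ ∪ S₁) hpS' hur'
  refine ⟨t, fun n T => ?_⟩
  obtain ⟨qv, hinj, hq, hkill⟩ := ht n (T ∪ (S₀ ∪ S₁).image (fun q : Nat.Primes => (q : ℕ)))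
  have hnotS : ∀ i, qv i ∉ S₀ ∪ S₁ := fun i hi =>
    (hq i).1 (Finset.mem_union_right _ (Finset.mem_image_of_mem _ hi))
  refine ⟨qv, hinj, fun i => ⟨fun hi => (hq i).1 (Finset.mem_union_left _ hi),
    fun hi => hnotS i (Finset.mem_union_left _ hi), (hq i).2⟩, ?_⟩
  intro L hLB hLZ d e hLcard Λ F A _ _ _ _ _ _ _ _ hΛ π0 rA J H
  have hcard : (Finset.univ.image qv).card = t := by
    rw [Finset.card_image_of_injective _ hinj, Finset.card_univ, Fintype.card_fin]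
  have hdisj : Disjoint (S₀ ∪ S₁) (Finset.univ.image qv) := by
    rw [Finset.disjoint_left]
    intro q hq1 hq2
    obtain ⟨i, -, rfl⟩ := Finset.mem_image.1 hq2
    exact hnotS i hq1
  have hQ : ∀ q ∈ Finset.univ.image qv, p ∣ (q : ℕ) - 1 ∧ ∃ φ : GQ,
      (primeLocalPlace q).IsFrobeniusAt φ (q : ℕ) ∧
      ∃ α β : k, α ≠ β ∧ (rbar φ).charpoly = (X - C α) * (X - C β) := fun q hq' => by
    obtain ⟨i, -, rfl⟩ := Finset.mem_image.1 hq'
    exact ⟨(dvd_pow_self p (Nat.succ_ne_zero n)).trans (hq i).2.1, (hq i).2.2⟩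
  have hsmA : IsSmooth levAll (adRep rbar) :=
    isSmooth_levAll_of_levS (adRep_smooth h.cont _ hur')
  have hK : 0 < Nat.card k := Nat.card_pos
  -- the extended family
  have hLB' : ∀ v ∈ S₀ ∪ S₁, B1loc (adRep rbar) v ≤ extFam rbar S₀ L v := fun v _ => by
    by_cases hv0 : v ∈ S₀
    · rw [extFam_mem rbar L hv0]; exact hLB v hv0
    · rw [extFam_not_mem rbar L hv0]; exact B1loc_le_Lur _ hsmA v
  have hLZ' : ∀ v ∈ S₀ ∪ S₁, extFam rbar S₀ L v ≤ Z1loc (adRep rbar) v := fun v _ => by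
    by_cases hv0 : v ∈ S₀
    · rw [extFam_mem rbar L hv0]; exact hLZ v hv0
    · rw [extFam_not_mem rbar L hv0]; exact Lur_le_Z1loc _ v
  have hLcard' : (∏ v ∈ S₀ ∪ S₁, Nat.card ↥(extFam rbar S₀ L v)) * Nat.card k ^ d ≤
      Nat.card k ^ (3 * (S₀ ∪ S₁).card + 1 + e) := by
    have hU : S₀ ∪ S₁ = S₀ ∪ (S₁ \ S₀) := by rw [Finset.union_sdiff_self_eq_union]
    have hdj : Disjoint S₀ (S₁ \ S₀) := Finset.disjoint_sdiff
    rw [hU, Finset.prod_union hdj, Finset.card_union_of_disjoint hdj]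
    have h1 : ∏ v ∈ S₀, Nat.card ↥(extFam rbar S₀ L v) = ∏ v ∈ S₀, Nat.card ↥(L v) :=
      Finset.prod_congr rfl fun v hv => by rw [extFam_mem rbar L hv]
    have h2' : ∏ v ∈ S₁ \ S₀, Nat.card ↥(extFam rbar S₀ L v) ≤
        (Nat.card k ^ 3) ^ (S₁ \ S₀).card := by
      refine Finset.prod_le_pow_card _ _ _ fun v hv => ?_
      rw [extFam_not_mem rbar L (Finset.mem_sdiff.1 hv).2, ← card_sl2]
      exact (card_Lur_le (adRep rbar) v).2
    rw [h1]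
    calc (∏ v ∈ S₀, Nat.card ↥(L v)) * (∏ v ∈ S₁ \ S₀, Nat.card ↥(extFam rbar S₀ L v)) *
          Nat.card k ^ d
        = (∏ v ∈ S₀, Nat.card ↥(L v)) * Nat.card k ^ d *
          (∏ v ∈ S₁ \ S₀, Nat.card ↥(extFam rbar S₀ L v)) := by ring
      _ ≤ Nat.card k ^ (3 * S₀.card + 1 + e) * (Nat.card k ^ 3) ^ (S₁ \ S₀).card :=
          Nat.mul_le_mul hLcard h2'
      _ = Nat.card k ^ (3 * (S₀.card + (S₁ \ S₀).card) + 1 + e) := by
          rw [← pow_mul, ← pow_add]; congr 1; ring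
  obtain ⟨hfin, hc⟩ := (H.mono Finset.subset_union_left hdisj).card_tanSet_le hp2 h hdisj hpS' hur'
    hQ hkill (hS₁ _ _ Finset.subset_union_right hdisj hpS' hur' hQ) hLB' hLZ' d e hLcard'
  rw [hcard] at hc
  refine exists_gens_of_card_tanSet_le_subL hΛ π0 J (fun a ha => ?_) hfin hc
  have := H.J_le a ha
  exact (algebraMap F k).injective (by rw [map_zero]; exact this)

end Main

section IntForm

variable {k : Type} [Field k] {p : ℕ} [Fact p.Prime]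

/-- the hypotheses of (GEN) for a plain ring `R` with `π0 : R →+* ZMod p` : tangent vectors are the ring homs `R →+* k[ε]`. -/
structure GenHypZ (p : ℕ) [Fact p.Prime] [Algebra (ZMod p) k] (h2 : (2 : k) ≠ 0) (rbar : GQ →* M2 k)
    (S₀ Q : Finset Nat.Primes) (L : ∀ v : Nat.Primes, Submodule k (↥(decomp v) → sl2 k))
    {R : Type} [CommRing R] (π0 : R →+* ZMod p) (ρ : GQ →* M2 R) (J : Ideal R) : Prop where
  lift : ∀ σ, (ρ σ).map ((algebraMap (ZMod p) k).comp π0) = rbar σ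
  det : ∀ σ, ∃ c : ℤ, (ρ σ).det = (c : R)
  tr : Algebra.adjoin ℤ (Set.range fun σ => (ρ σ).trace) = ⊤
  lev : ∃ U ∈ (levS (S₀ ∪ Q)).carrier, ∀ s ∈ U, ρ s = 1
  J_le : ∀ a ∈ J, π0 a = 0
  loc : ∀ v ∈ S₀, ∀ φ : R →+* DualNumber k, (∀ a, (φ a).fst = algebraMap (ZMod p) k (π0 a)) →
    (∀ a ∈ J, φ a = 0) → resLoc k v (coc h2 (S53.mapRep φ ρ)) ∈ L v

theorem GenHypZ.toL [Algebra (ZMod p) k] {h2 : (2 : k) ≠ 0} {rbar : GQ →* M2 k}
    {S₀ Q : Finset Nat.Primes} {L : ∀ v : Nat.Primes, Submodule k (↥(decomp v) → sl2 k)}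
    {R : Type} [CommRing R] {π0 : R →+* ZMod p} {ρ : GQ →* M2 R} {J : Ideal R}
    (H : GenHypZ p h2 rbar S₀ Q L π0 ρ J) :
    GenHypL p h2 rbar S₀ Q L (piKL k (π0.toIntAlgHom)) ρ J where
  lift := H.lift
  det := fun σ => by
    obtain ⟨c, hc⟩ := H.det σ
    exact ⟨c, by rw [hc]; simp⟩
  tr := H.tr
  lev := H.lev
  J_le := fun a ha => by
    show algebraMap (ZMod p) k (π0 a) = 0
    rw [H.J_le a ha, map_zero]
  loc := fun v hv φ hφ => H.loc v hv (φ : R →+* DualNumber k) hφ.1 hφ.2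

variable [Finite k] [CharP k p]

/-- **[GEN-LOC]**, ring form : `R` any commutative ring with `π0 : R →+* ZMod p`. -/
theorem exists_tw_gen_loc_int [Algebra (ZMod p) k] (hp2 : p ≠ 2) (h2 : (2 : k) ≠ 0)
    {rbar : GQ →* M2 k} (h : RbarHyp p rbar) (S₀ : Finset Nat.Primes) (hpS : pPrime p ∈ S₀)
    (hur : UnramOutside rbar S₀) :
    ∃ t : ℕ, ∀ (n : ℕ) (T : Finset ℕ), ∃ qv : Fin t → Nat.Primes, Function.Injective qv ∧
      (∀ i, ((qv i : Nat.Primes) : ℕ) ∉ T ∧ qv i ∉ S₀ ∧ p ^ (n + 1) ∣ ((qv i : Nat.Primes) : ℕ) - 1 ∧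
        ∃ φ : GQ, (primeLocalPlace (qv i)).IsFrobeniusAt φ ((qv i : Nat.Primes) : ℕ) ∧
          ∃ α β : k, α ≠ β ∧ (rbar φ).charpoly = (X - C α) * (X - C β)) ∧
      ∀ (L : ∀ v : Nat.Primes, Submodule k (↥(decomp v) → sl2 k)),
        (∀ v ∈ S₀, B1loc (adRep rbar) v ≤ L v) → (∀ v ∈ S₀, L v ≤ Z1loc (adRep rbar) v) →
      ∀ (d e : ℕ), (∏ v ∈ S₀, Nat.card ↥(L v)) * Nat.card k ^ d ≤
          Nat.card k ^ (3 * S₀.card + 1 + e) →
      ∀ (R : Type) [CommRing R] (π0 : R →+* ZMod p) (ρ : GQ →* M2 R) (J : Ideal R),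
        GenHypZ p h2 rbar S₀ (Finset.univ.image qv) L π0 ρ J →
        d ≤ t + e ∧ ∃ x : Fin (t + e - d) → R, (∀ i, π0 (x i) = 0) ∧
          RingHom.ker π0 ≤ J ⊔ Ideal.span (Set.range x) ⊔ RingHom.ker π0 ^ 2 ⊔
            Ideal.span {(p : R)} ∧
          (IsNilpotent (RingHom.ker π0) →
            RingHom.ker π0 ≤ J ⊔ Ideal.span (Set.range x) ⊔ Ideal.span {(p : R)}) := by
  obtain ⟨t, ht⟩ := exists_tw_gen_loc hp2 h2 h S₀ hpS hur
  refine ⟨t, fun n T => ?_⟩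
  obtain ⟨qv, hinj, hq, hgen⟩ := ht n T
  refine ⟨qv, hinj, hq, fun L hLB hLZ d e hLcard R _ π0 ρ J H => ?_⟩
  obtain ⟨hde, x, hx, hle⟩ := hgen L hLB hLZ d e hLcard ℤ (ZMod p) R ZMod.intCast_surjective
    π0.toIntAlgHom ρ J H.toL
  have hP : (RingHom.ker (algebraMap ℤ (ZMod p))).map (algebraMap ℤ R) = Ideal.span {(p : R)} := by
    have : RingHom.ker (algebraMap ℤ (ZMod p)) = Ideal.span {(p : ℤ)} := ZMod.ker_intCastRingHom p
    rw [this, Ideal.map_span, Set.image_singleton]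
    simp
  rw [hP] at hle
  have hle' : RingHom.ker π0 ≤ J ⊔ Ideal.span (Set.range x) ⊔ RingHom.ker π0 ^ 2 ⊔
      Ideal.span {(p : R)} := hle
  refine ⟨hde, x, hx, hle', fun hnil => ?_⟩
  obtain ⟨N, hN⟩ := hnil
  exact ker_le_of_nilp hle' (N := N) (by rw [hN]; exact bot_le)

end IntForm

end Fermat.Agent.ML
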