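import Fermat.Agent.ML.Gen.OfRho
import Fermat.Agent.ML.AtP.GenFS

/-!
# ML / Gen / StageP : (GEN) with a SAVING OF `1` AT `p`   (case (Mb) : `p` is a raising prime which is not yet raised)

At the stages of level prime to `p` the representation is flat at `p` and `J` contains `c_p`, i.e. `tr ρ(σ₁)` is constant modulo `J`
for a Frobenius lift `σ₁` at `p` such that `rbar0 σ₁` has distinct eigenvalues.  helper38's `exists_flat_tr_condition` gives a local condition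
with `#Lp ≤ #k³`.

* `prod_card_strictFam_le'` : the budget of `strictFam` with `#Lp * #k^wp ≤ #k⁴`.
* `MCtx.gen_stage_of` : (GEN) for `GenHypS` with an arbitrary `Lp`, `#Lp * #k^wp ≤ #k⁴` : `t - (Σ w + wp)` generators.
* `MCtx.gen_stage_p` : `GenHypMZ` + flat + `tr ρ(σ₁)` constant modulo `J` ⟹ `t - (Σ w + 1)` generators.
* `MCtx.hgen_stage_p` : the hypothesis `hgen` of `Raise.step2` in this case (`s ≤ Σ w + 1` local elements).
-/

set_option autoImplicit false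

noncomputable section

open ExtCitation Polynomial

namespace Fermat.Agent.ML

open Fermat.Agent.RIB Fermat.Agent.S56 Fermat.Agent.S56.Gen
open CFT (levS levAll decomp Z1 B1 Qb IsSmooth)

variable {p : ℕ} [Fact p.Prime]

/-- the budget of `strictFam`, with a saving `wp` at `p`. -/
theorem prod_card_strictFam_le' {k : Type} [Field k] [Finite k] [CharP k p] (rbar : GQ →* M2 k)
    (S₀ R : Finset Nat.Primes) (hpS : pPrime p ∈ S₀) (hR : R ⊆ S₀) (hpR : pPrime p ∉ R)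
    (Lp : Submodule k (↥(decomp (pPrime p)) → sl2 k)) (wp : ℕ)
    (hLpcard : Nat.card ↥Lp * Nat.card k ^ wp ≤ Nat.card k ^ 4) (w : Nat.Primes → ℕ)
    (hw : ∀ v ∈ R, Nat.card ↥(B1loc (adRep rbar) v) * Nat.card k ^ w v ≤ Nat.card k ^ 3) :
    (∏ v ∈ S₀, Nat.card ↥(strictFam rbar Lp R v)) * Nat.card k ^ (∑ v ∈ R, w v + wp) ≤
      Nat.card k ^ (3 * S₀.card + 1 + 0) := by
  classical
  have hRe : R ⊆ S₀.erase (pPrime p) := fun v hv =>
    Finset.mem_erase.2 ⟨fun e => hpR (e ▸ hv), hR hv⟩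
  rw [← Finset.mul_prod_erase S₀ _ hpS, strictFam_not_mem rbar Lp hpR, locFam_p,
    ← Finset.prod_sdiff hRe, pow_add, ← Finset.prod_pow_eq_pow_sum]
  have h1 : (∏ v ∈ R, Nat.card ↥(strictFam rbar Lp R v)) * ∏ v ∈ R, Nat.card k ^ w v ≤
      (Nat.card k ^ 3) ^ R.card := by
    rw [← Finset.prod_mul_distrib]
    refine Finset.prod_le_pow_card _ _ _ fun v hv => ?_
    rw [strictFam_mem rbar Lp hv]
    exact hw v hv
  have h2' : ∏ v ∈ S₀.erase (pPrime p) \ R, Nat.card ↥(strictFam rbar Lp R v) ≤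
      (Nat.card k ^ 3) ^ (S₀.erase (pPrime p) \ R).card := by
    refine Finset.prod_le_pow_card _ _ _ fun v hv => ?_
    obtain ⟨hv1, hv2⟩ := Finset.mem_sdiff.1 hv
    rw [strictFam_not_mem rbar Lp hv2, locFam_ne rbar Lp (Finset.ne_of_mem_erase hv1), ← card_sl2]
    exact (card_Lur_le (adRep rbar) v).2
  have hc : (S₀.erase (pPrime p) \ R).card + R.card + 1 = S₀.card := by
    rw [Finset.card_sdiff_add_card_eq_card hRe, Finset.card_erase_add_one hpS]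
  calc Nat.card ↥Lp * ((∏ v ∈ S₀.erase (pPrime p) \ R, Nat.card ↥(strictFam rbar Lp R v)) *
        ∏ v ∈ R, Nat.card ↥(strictFam rbar Lp R v)) * ((∏ v ∈ R, Nat.card k ^ w v) *
          Nat.card k ^ wp)
      = (Nat.card ↥Lp * Nat.card k ^ wp) *
        (∏ v ∈ S₀.erase (pPrime p) \ R, Nat.card ↥(strictFam rbar Lp R v)) *
        ((∏ v ∈ R, Nat.card ↥(strictFam rbar Lp R v)) * ∏ v ∈ R, Nat.card k ^ w v) := by ring
    _ ≤ Nat.card k ^ 4 * (Nat.card k ^ 3) ^ (S₀.erase (pPrime p) \ R).card *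
        (Nat.card k ^ 3) ^ R.card := Nat.mul_le_mul (Nat.mul_le_mul hLpcard h2') h1
    _ = Nat.card k ^ (3 * S₀.card + 1 + 0) := by
        rw [← hc, ← pow_mul, ← pow_mul, ← pow_add, ← pow_add]; congr 1; ring

variable {T : Finset ℕ} {θ : ℕ → ℤ} {rbar0 : GQ →* M2 (ZMod p)}

/-- (GEN) for `GenHypS` with an arbitrary `Lp`, saving `wp` at `p`. -/
theorem MCtx.gen_stage_of (C : MCtx p T θ rbar0) {t : ℕ} {qv : Fin t → Nat.Primes}
    (W : TWGenL p (two_ne_zero_kM C.hp2) (mapK (kM p) rbar0) (toP T) t qv)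
    {Rs : Finset Nat.Primes} (hRs : Rs ⊆ toP T) (hpR : pPrime p ∉ Rs) (w : Nat.Primes → ℕ)
    (hw : ∀ v ∈ Rs, Nat.card ↥(B1loc (adRep (mapK (kM p) rbar0)) v) * Nat.card (kM p) ^ w v ≤
      Nat.card (kM p) ^ 3)
    {Lp : Submodule (kM p) (↥(decomp (pPrime p)) → sl2 (kM p))}
    (hLpB : B1loc (adRep (mapK (kM p) rbar0)) (pPrime p) ≤ Lp)
    (hLpZ : Lp ≤ Z1loc (adRep (mapK (kM p) rbar0)) (pPrime p)) (wp : ℕ)
    (hLpcard : Nat.card ↥Lp * Nat.card (kM p) ^ wp ≤ Nat.card (kM p) ^ 4)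
    {R : Type} [CommRing R] {π0 : R →+* ZMod p} {ρ : GQ →* M2 R} {J : Ideal R}
    (HS : GenHypS p (two_ne_zero_kM C.hp2) (mapK (kM p) rbar0) (toP T) (Finset.univ.image qv) Rs Lp
      (piKL (kM p) (π0.toIntAlgHom)) ρ J) :
    ∑ v ∈ Rs, w v + wp ≤ t ∧ ∃ x : Fin (t - (∑ v ∈ Rs, w v + wp)) → R, (∀ i, π0 (x i) = 0) ∧
      RingHom.ker π0 ≤ J ⊔ Ideal.span (Set.range x) ⊔ RingHom.ker π0 ^ 2 ⊔
        Ideal.span {(p : R)} ∧
      (IsNilpotent (RingHom.ker π0) →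
        RingHom.ker π0 ≤ J ⊔ Ideal.span (Set.range x) ⊔ Ideal.span {(p : R)}) := by
  classical
  have hsmA : IsSmooth levAll (adRep (mapK (kM p) rbar0)) :=
    isSmooth_adRep _ (C.cont_mapK (kM p))
  have hpS : pPrime p ∈ toP T := mem_toP'.2 C.p_mem
  obtain ⟨hde, x, hx, hle⟩ := W (strictFam (mapK (kM p) rbar0) Lp Rs)
    (fun v _ => by
      by_cases hvR : v ∈ Rs
      · rw [strictFam_mem _ Lp hvR]
      rw [strictFam_not_mem _ Lp hvR]
      by_cases hv : v = pPrime p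
      · subst hv; rw [locFam_p]; exact hLpB
      · rw [locFam_ne _ Lp hv]; exact B1loc_le_Lur _ hsmA v)
    (fun v _ => by
      by_cases hvR : v ∈ Rs
      · rw [strictFam_mem _ Lp hvR]; exact B1loc_le_Z1loc _ hsmA v
      rw [strictFam_not_mem _ Lp hvR]
      by_cases hv : v = pPrime p
      · subst hv; rw [locFam_p]; exact hLpZ
      · rw [locFam_ne _ Lp hv]; exact Lur_le_Z1loc _ v)
    (∑ v ∈ Rs, w v + wp) 0
    (prod_card_strictFam_le' _ (toP T) Rs hpS hRs hpR Lp wp hLpcard w hw)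
    ℤ (ZMod p) R ZMod.intCast_surjective π0.toIntAlgHom ρ J HS.toL
  have hP : (RingHom.ker (algebraMap ℤ (ZMod p))).map (algebraMap ℤ R) = Ideal.span {(p : R)} := by
    have : RingHom.ker (algebraMap ℤ (ZMod p)) = Ideal.span {(p : ℤ)} := ZMod.ker_intCastRingHom p
    rw [this, Ideal.map_span, Set.image_singleton]
    simp
  rw [hP] at hle
  have hle' : RingHom.ker π0 ≤ J ⊔ Ideal.span (Set.range x) ⊔ RingHom.ker π0 ^ 2 ⊔
      Ideal.span {(p : R)} := hle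
  refine ⟨hde, x, hx, hle', fun hnil => ?_⟩
  obtain ⟨N, hN⟩ := hnil
  exact ker_le_of_nilp hle' (N := N) (by rw [hN]; exact bot_le)

/-- **[GEN-STAGE-P]** : flat at `p` and `tr ρ(σ₁)` constant modulo `J` : one generator less. -/
theorem MCtx.gen_stage_p (C : MCtx p T θ rbar0) {t : ℕ} {qv : Fin t → Nat.Primes}
    (W : TWGenL p (two_ne_zero_kM C.hp2) (mapK (kM p) rbar0) (toP T) t qv)
    {Rs : Finset Nat.Primes} (hRs : Rs ⊆ toP T) (hpR : pPrime p ∉ Rs) (w : Nat.Primes → ℕ)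
    (hw : ∀ v ∈ Rs, Nat.card ↥(B1loc (adRep (mapK (kM p) rbar0)) v) * Nat.card (kM p) ^ w v ≤
      Nat.card (kM p) ^ 3)
    {R : Type} [CommRing R] {π0 : R →+* ZMod p} {ρ : GQ →* M2 R} {J : Ideal R}
    (H : GenHypMZ p rbar0 (toP T) (Finset.univ.image qv) Rs π0 ρ J)
    (hflat : ∀ φ : R →+* DualNumber (kM p), IsTan p π0 J φ →
      Flat.HasFlat (Flat.Ap p).valuation (Flat.matAct (Flat.Ip p) (S53.mapRep φ ρ)))
    (hred : ∃ u : Fin 2 → ZMod p, u ≠ 0 ∧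
      ∀ σ ∈ decomp (pPrime p), ∃ c : ZMod p, (rbar0 σ).mulVec u = c • u)
    {σ₁ : GQ} (hσ₁ : (primeLocalPlace (pPrime p)).IsFrobeniusAt σ₁ ((pPrime p : Nat.Primes) : ℕ))
    (hdisc : (rbar0 σ₁).trace ^ 2 ≠ 4 * (rbar0 σ₁).det)
    (htr : ∃ c : ℤ, (ρ σ₁).trace - (c : R) ∈ J) :
    ∑ v ∈ Rs, w v + 1 ≤ t ∧ ∃ x : Fin (t - (∑ v ∈ Rs, w v + 1)) → R, (∀ i, π0 (x i) = 0) ∧
      RingHom.ker π0 ≤ J ⊔ Ideal.span (Set.range x) ⊔ RingHom.ker π0 ^ 2 ⊔
        Ideal.span {(p : R)} ∧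
      (IsNilpotent (RingHom.ker π0) →
        RingHom.ker π0 ≤ J ⊔ Ideal.span (Set.range x) ⊔ Ideal.span {(p : R)}) := by
  have h2 : (2 : kM p) ≠ 0 := two_ne_zero_kM C.hp2
  set κ := algebraMap (ZMod p) (kM p) with hκ
  obtain ⟨Lp₀, -, -, -, HS⟩ := H.exists_genHypS C
  have htrK : ∀ σ, (mapK (kM p) rbar0 σ).trace = κ (rbar0 σ).trace := fun σ => by
    rw [mapK_apply, Matrix.trace_fin_two, Matrix.trace_fin_two, map_add]
    rfl
  have hdetK : ∀ σ, (mapK (kM p) rbar0 σ).det = κ (rbar0 σ).det := fun σ => by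
    rw [mapK_apply]
    exact (κ.map_det (rbar0 σ)).symm
  obtain ⟨Lp, hB, hZ, -, hcard, hmem⟩ := exists_flat_tr_condition C.hp2 h2 (mapK (kM p) rbar0)
    (C.cont_mapK (kM p)) (C.det_mapK (kM p))
    (by
      obtain ⟨u, hu0, hu⟩ := hred
      refine ⟨fun i => κ (u i), fun h0 => hu0 ?_, fun σ hσ => ?_⟩
      · funext i
        exact κ.injective (by rw [Pi.zero_apply, map_zero]; exact congrFun h0 i)
      · obtain ⟨c, hc⟩ := hu σ hσ
        refine ⟨κ c, ?_⟩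
        funext i
        have h1 := congrArg κ (congrFun hc i)
        simp only [Matrix.mulVec, dotProduct, Fin.sum_univ_two, Pi.smul_apply, smul_eq_mul,
          map_add, map_mul] at h1 ⊢
        exact h1)
    hσ₁
    (by
      rw [htrK, hdetK]
      intro h
      apply hdisc
      apply κ.injective
      rw [map_pow, map_mul, h, map_ofNat])
  refine C.gen_stage_of W hRs hpR w hw hB hZ 1 ?_
    { lift := HS.lift, det := HS.det, tr := HS.tr, lev := HS.lev, J_le := HS.J_le,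
      strict := HS.strict, min := HS.min, atp := fun φ hφ => hmem _ ⟨isLift_pushRep HS.lift hφ.1,
        det_pushRep HS.lift HS.det φ, cont_pushRep HS.lev φ,
        hflat (φ : R →+* DualNumber (kM p)) ⟨hφ.1, hφ.2⟩⟩ ?_ }
  · calc Nat.card ↥Lp * Nat.card (kM p) ^ 1 ≤ Nat.card (kM p) ^ 3 * Nat.card (kM p) ^ 1 :=
          Nat.mul_le_mul_right _ hcard
      _ = Nat.card (kM p) ^ 4 := by rw [← pow_add]
  · obtain ⟨c, hc⟩ := htr
    have h1 := hφ.2 _ hc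
    rw [map_sub, sub_eq_zero, map_intCast] at h1
    have h3 : (pushRep φ ρ σ₁).trace = φ (ρ σ₁).trace :=
      (AddMonoidHom.map_trace (φ : R →+* DualNumber (kM p)).toAddMonoidHom (ρ σ₁)).symm
    rw [h3, h1]
    have h4 : ((c : ℤ) : DualNumber (kM p)) = TrivSqZeroExt.inl ((c : ℤ) : kM p) :=
      (map_intCast (TrivSqZeroExt.inlHom (kM p) (kM p)) c).symm
    rw [h4, TrivSqZeroExt.snd_inl]

/-- **[GEN-STAGE-P ⟹ hgen]**. -/
theorem MCtx.hgen_stage_p (C : MCtx p T θ rbar0) {t : ℕ} {qv : Fin t → Nat.Primes}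
    (W : TWGenL p (two_ne_zero_kM C.hp2) (mapK (kM p) rbar0) (toP T) t qv)
    {Rs : Finset Nat.Primes} (hRs : Rs ⊆ toP T) (hpR : pPrime p ∉ Rs) (w : Nat.Primes → ℕ)
    (hw : ∀ v ∈ Rs, Nat.card ↥(B1loc (adRep (mapK (kM p) rbar0)) v) * Nat.card (kM p) ^ w v ≤
      Nat.card (kM p) ^ 3)
    {R V : Type} [CommRing R] [AddCommGroup V] [Module R V]
    {π0 : R →+* ZMod p} {ρ : GQ →* M2 R} (G : Submodule R V) (I : Ideal R)
    (hI : ∀ a ∈ I, ∀ x ∈ G, a • x = 0) {s : ℕ} (u : Fin s → R) (hu : ∀ j, π0 (u j) = 0)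
    (hs : s ≤ ∑ v ∈ Rs, w v + 1)
    (H : GenHypMZ p rbar0 (toP T) (Finset.univ.image qv) Rs π0 ρ
      (I ⊔ Ideal.span (Set.range u) ⊔ Ideal.span {(p : R)}))
    (hflat : ∀ φ : R →+* DualNumber (kM p),
      IsTan p π0 (I ⊔ Ideal.span (Set.range u) ⊔ Ideal.span {(p : R)}) φ →
      Flat.HasFlat (Flat.Ap p).valuation (Flat.matAct (Flat.Ip p) (S53.mapRep φ ρ)))
    (hred : ∃ u : Fin 2 → ZMod p, u ≠ 0 ∧
      ∀ σ ∈ decomp (pPrime p), ∃ c : ZMod p, (rbar0 σ).mulVec u = c • u)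
    {σ₁ : GQ} (hσ₁ : (primeLocalPlace (pPrime p)).IsFrobeniusAt σ₁ ((pPrime p : Nat.Primes) : ℕ))
    (hdisc : (rbar0 σ₁).trace ^ 2 ≠ 4 * (rbar0 σ₁).det)
    (htr : ∃ c : ℤ, (ρ σ₁).trace - (c : R) ∈
      I ⊔ Ideal.span (Set.range u) ⊔ Ideal.span {(p : R)})
    (hnil : IsNilpotent (RingHom.ker π0)) :
    ∃ y : Fin t → R, (∀ k, π0 (y k) = 0) ∧ (∀ j, ∃ k, y k = u j) ∧
      ∀ a : R, π0 a = 0 → ∃ (c : R) (w' : Fin t → R), ∀ v ∈ G,
        a • v = ((p : R) * c) • v + ∑ k, w' k • y k • v := by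
  obtain ⟨hde, x, hx, -, hle⟩ := C.gen_stage_p W hRs hpR w hw H hflat hred hσ₁ hdisc htr
  obtain ⟨y, h1, h2, -, h4⟩ := hgen_of_ker_le G I hI u x (t := t) (by omega) hu hx (hle hnil)
  exact ⟨y, h1, h2, h4⟩

end Fermat.Agent.ML
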