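import Fermat.Agent.S56.Loc.Ord
import Fermat.Agent.RIB.Rho.Diag

/-!
# ML / Gen / Ord : the STRICT ORDINARY local condition at `p`, in MATRIX / OPERATOR form (no `GaloisRepAdic`).

`S56.exists_ord_condition` is stated for `ρ₁ : GaloisRepAdic k[ε]` with `ρ₁.IsStrictOrdinaryAt p`.  Here :

* `TriModel p r₁` : `r₁ : GQ →* M2 k[ε]` is conjugate to `(χ z, *; 0, z)` on `D_p` (`z² = 1` constant, `z = 1` on `I_p`).
* `StrictOp p r₁` : the OPERATOR IDENTITY  `(r₁ σ - χ(σ) e(σ)) (r₁ τ - e(τ)) = 0` for `σ τ ∈ D_p`, with `e = 1` on `I_p`.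
* `triModel_of_strictOp` : `StrictOp` + `det r₁ = χ` ⟹ `TriModel`.
* `exists_ord_condition_mat` : `∃ Lp`, `B¹ ≤ Lp ≤ Z¹`, `#Lp ≤ #k⁴`, containing `res_p (coc r₁)` for every lift `r₁` of `rbar`
   of finite level with `det r₁ = det rbar` and `TriModel p r₁`.
* `exists_ord_condition_op` : the same with `StrictOp`.
* `strictOp_mapRep` : the operator identity over any ring `R` passes to `S53.mapRep φ ρ`, `φ : R →+* k[ε]`.
-/

set_option autoImplicit false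

open ExtCitation

namespace Fermat.Agent.ML

open Fermat.Agent.S56
open CFT (levS levAll decomp Z1 B1 Qb chiRep d01 d12)

variable {p : ℕ} [Fact p.Prime] {k : Type} [Field k] [CharP k p]

/-- `r₁` is conjugate to an upper triangular representation `(χ z, *; 0, z)` on `D_p`, `z = 1` on `I_p`. -/
def TriModel (p : ℕ) [Fact p.Prime] {k : Type} [Field k] [CharP k p]
    (r₁ : GQ →* M2 (DualNumber k)) : Prop :=
  ∃ (r' : GQ →* M2 (DualNumber k)) (M : (M2 (DualNumber k))ˣ),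
    (∀ σ, (M : M2 (DualNumber k)) * r₁ σ = r' σ * (M : M2 (DualNumber k))) ∧
    (∀ σ ∈ decomp (pPrime p), ∃ (z : k) (β : DualNumber k), z * z = 1 ∧
       r' σ = !![TrivSqZeroExt.inl ((chiK p k σ : k) * z), β; 0, TrivSqZeroExt.inl z]) ∧
    (∀ σ ∈ inert (pPrime p), r' σ 1 1 = 1)

/-- the strict ordinary operator identity on `D_p`. -/
def StrictOp (p : ℕ) [Fact p.Prime] {k : Type} [Field k] [CharP k p]
    (r₁ : GQ →* M2 (DualNumber k)) : Prop :=
  ∃ e : GQ → DualNumber k, (∀ σ ∈ inert (pPrime p), e σ = 1) ∧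
    ∀ σ ∈ decomp (pPrime p), ∀ τ ∈ decomp (pPrime p),
      (r₁ σ - (TrivSqZeroExt.inl (chiK p k σ : k) * e σ) • (1 : M2 (DualNumber k))) *
        (r₁ τ - e τ • (1 : M2 (DualNumber k))) = 0

/-- `exists_ordPkg` from a triangular model. -/
theorem exists_ordPkg_mat (h2 : (2 : k) ≠ 0) (rbar : GQ →* M2 k)
    (r₁ : GQ →* M2 (DualNumber k)) (hcont : GaloisFactorsThroughFiniteLevel r₁)
    (hl : IsLift rbar r₁)
    (hd : ∀ σ, (r₁ σ).det = TrivSqZeroExt.inl (rbar σ).det) (ht : TriModel p r₁) :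
    ∃ M₀ : (M2 k)ˣ, OrdPkg (chiK p k) rbar (coc h2 r₁) M₀ (pPrime p) := by
  obtain ⟨r', M, hM, hD, hI⟩ := ht
  set M₀ : (M2 k)ˣ := redU M with hM₀
  -- reduction of `r'`
  have hred : ∀ σ, cjO M₀ (rbar σ) = (r' σ).map TrivSqZeroExt.fst := by
    intro σ
    have h1 := congrArg (fun X : M2 (DualNumber k) => X.map TrivSqZeroExt.fst) (hM σ)
    simp only [map_fst_mul, hl σ] at h1
    unfold cjO
    rw [hM₀, redU_coe, h1, mul_assoc, ← redU_coe, Units.mul_inv, mul_one]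
  -- the normalised representation
  set r₂ : GQ →* M2 (DualNumber k) := S53.conjRep (cst M₀⁻¹) r' with hr₂
  set N : (M2 (DualNumber k))ˣ := cst M₀⁻¹ * M with hN
  have hNfst : (N : M2 (DualNumber k)).map TrivSqZeroExt.fst = 1 := by
    rw [hN, Units.val_mul, map_fst_mul, cst_coe, map_fst_map_inl, ← redU_coe, ← hM₀, Units.inv_mul]
  have hc : ∀ σ, (N : M2 (DualNumber k)) * r₁ σ = r₂ σ * (N : M2 (DualNumber k)) := by
    intro σ
    rw [hN, hr₂, S53.conjRep_apply, Units.val_mul, mul_assoc, hM σ]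
    simp only [mul_assoc, Units.inv_mul_cancel_left]
  have hl₂ : IsLift rbar r₂ := by
    intro σ
    have h1 := congrArg (fun X : M2 (DualNumber k) => X.map TrivSqZeroExt.fst) (hc σ)
    simp only [map_fst_mul, hNfst, one_mul, mul_one, hl σ] at h1
    exact h1.symm
  have hd₂ : ∀ σ, (r₂ σ).det = TrivSqZeroExt.inl (rbar σ).det := fun σ => by
    rw [← hd σ]; exact (det_eq_of_conj N (hc σ)).symm
  have hcoc := coc_conj h2 hl (N : M2 (DualNumber k)) hNfst hc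
  refine ⟨M₀, ⟨?_, ?_, coc h2 r₂, toSl2 h2 ((N : M2 (DualNumber k)).map TrivSqZeroExt.snd),
    ?_, ?_, ?_⟩⟩
  · intro σ hσ
    obtain ⟨z, β, hz, hr⟩ := hD σ hσ
    refine ⟨z, β.fst, hz, ?_⟩
    have := hred σ
    unfold cjO at this
    rw [this, hr]
    ext i j
    fin_cases i <;> fin_cases j <;> simp
  · intro σ hσ
    rw [hred σ, Matrix.map_apply, hI σ hσ]
    rfl
  · obtain ⟨L, hL, hL1⟩ := hcont
    obtain ⟨U, hU, hle⟩ := CFT.exists_levAll_le L
    refine coc_mem_Z1 h2 levAll hl₂ ⟨U, hU, fun s hs => ?_⟩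
    have h1 : r₁ s = 1 := hL1 s fun x hx =>
      (IntermediateField.mem_fixingSubgroup_iff _ _).1 (hle hs) x hx
    have h3 := hc s
    rw [h1, mul_one] at h3
    have h4 : r₂ s * (N : M2 (DualNumber k)) * ((N⁻¹ : (M2 (DualNumber k))ˣ) : M2 (DualNumber k)) = 1 := by
      rw [← h3, Units.mul_inv]
    rwa [mul_assoc, Units.mul_inv, mul_one] at h4
  · rw [hcoc]; abel
  · intro σ hσ
    obtain ⟨z, β, hz, hr⟩ := hD σ hσ
    obtain ⟨z', β', hz', hr'⟩ := hD σ⁻¹ ((decomp (pPrime p)).inv_mem hσ)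
    refine ⟨β.snd * z', ?_⟩
    rw [coc_coe_of_det h2 hl₂ hd₂ σ, hr₂, cocM_conj_const, inv_inv]
    have h5 : cjO M₀ (((M₀⁻¹ : (M2 k)ˣ) : M2 k) * cocM r' σ * (M₀ : M2 k)) = cocM r' σ :=
      cjO_cjI M₀ _
    rw [h5, cocM, hr, hr', single01_eq]
    ext i j
    fin_cases i <;> fin_cases j <;> simp [Matrix.mul_apply, Fin.sum_univ_two]

/-- **[LOC-ORD]**, matrix form. -/
theorem exists_ord_condition_mat [Finite k] (hp2 : p ≠ 2) (h2 : (2 : k) ≠ 0) (rbar : GQ →* M2 k)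
    (hcont : GaloisFactorsThroughFiniteLevel rbar) :
    ∃ L : Submodule k (↥(decomp (pPrime p)) → sl2 k),
      B1loc (adRep rbar) (pPrime p) ≤ L ∧ L ≤ Z1loc (adRep rbar) (pPrime p) ∧
      Finite ↥L ∧ Nat.card ↥L ≤ Nat.card k ^ 4 ∧
      ∀ r₁ : GQ →* M2 (DualNumber k), GaloisFactorsThroughFiniteLevel r₁ → IsLift rbar r₁ →
        (∀ σ, (r₁ σ).det = TrivSqZeroExt.inl (rbar σ).det) → TriModel p r₁ →
        resLoc k (pPrime p) (coc h2 r₁) ∈ L := by
  have hB : B1loc (adRep rbar) (pPrime p) ≤ Z1loc (adRep rbar) (pPrime p) :=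
    B1loc_le_Z1loc _ (isSmooth_adRep rbar hcont) _
  by_cases hex : ∃ r₁ : GQ →* M2 (DualNumber k), GaloisFactorsThroughFiniteLevel r₁ ∧
      IsLift rbar r₁ ∧ (∀ σ, (r₁ σ).det = TrivSqZeroExt.inl (rbar σ).det) ∧ TriModel p r₁
  · obtain ⟨r₀, hc₀, hl₀, hd₀, ht₀⟩ := hex
    obtain ⟨g₀, P₀⟩ := exists_ordPkg_mat h2 rbar r₀ hc₀ hl₀ hd₀ ht₀
    obtain ⟨hf, hc⟩ := card_Lord_le hp2 rbar hcont g₀ P₀.tri
    refine ⟨Lord rbar g₀ (pPrime p), le_sup_right, sup_le inf_le_left hB, hf, hc, ?_⟩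
    intro r₁ hc₁ hl hd ht
    obtain ⟨M₀, P⟩ := exists_ordPkg_mat h2 rbar r₁ hc₁ hl hd ht
    obtain ⟨c₂, m, hc₂, hcc, hW⟩ := P.dec
    rw [hcc, map_add, Lord_eq]
    refine Submodule.add_mem_sup ⟨resLoc_mem_Z1loc' _ hc₂ _, ?_⟩ (resLoc_mem_B1loc _ ⟨m, rfl⟩ _)
    refine mem_W2val.2 fun σ => ?_
    obtain ⟨t, ht'⟩ := hW σ σ.2
    exact P₀.transfer P (chiK_inert_ne_one hp2) ht'
  · have hfin : Finite (sl2 k) :=
      Finite.of_injective (fun x : sl2 k => (x : M2 k)) Subtype.val_injective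
    have hsurj : Function.Surjective
        (fun w : sl2 k => (⟨CFT.d01 (locRep (adRep rbar) (pPrime p)) w, ⟨w, rfl⟩⟩ :
          ↥(B1loc (adRep rbar) (pPrime p)))) := by
      rintro ⟨_, w, rfl⟩
      exact ⟨w, rfl⟩
    have hfB : Finite ↥(B1loc (adRep rbar) (pPrime p)) := Finite.of_surjective _ hsurj
    refine ⟨B1loc (adRep rbar) (pPrime p), le_rfl, hB, hfB, ?_, fun r₁ hc₁ hl hd ht =>
      absurd ⟨r₁, hc₁, hl, hd, ht⟩ hex⟩
    calc Nat.card ↥(B1loc (adRep rbar) (pPrime p)) ≤ Nat.card (sl2 k) :=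
          Nat.card_le_card_of_surjective _ hsurj
      _ ≤ Nat.card (M2 k) :=
          Nat.card_le_card_of_injective (fun x : sl2 k => (x : M2 k)) Subtype.val_injective
      _ = Nat.card k ^ 4 := by
          change Nat.card (Fin 2 → Fin 2 → k) = _
          rw [Nat.card_fun, Nat.card_fun, Nat.card_eq_fintype_card (α := Fin 2), Fintype.card_fin,
            ← pow_mul]

section Op

omit [Fact p.Prime] [CharP k p] in
/-- `(X - c)(X - 1) = 0`, `det X = c` a unit ⟹ `tr X = c + 1`. -/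
theorem trace_of_quad {A : Type} [CommRing A] (X : M2 A) (c : A) (hc : IsUnit c) (hdet : X.det = c)
    (hX : (X - c • (1 : M2 A)) * (X - 1) = 0) : c + 1 = X.trace := by
  have e00 := congrFun (congrFun hX 0) 0
  have e01 := congrFun (congrFun hX 0) 1
  simp only [Matrix.mul_apply, Fin.sum_univ_two, Matrix.sub_apply, Matrix.smul_apply,
    Matrix.one_apply_eq, Matrix.zero_apply, smul_eq_mul, mul_one, mul_zero, sub_zero,
    Matrix.one_apply_ne (show (0 : Fin 2) ≠ 1 by decide),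
    Matrix.one_apply_ne (show (1 : Fin 2) ≠ 0 by decide)] at e00 e01
  rw [Matrix.det_fin_two] at hdet
  rw [Matrix.trace_fin_two]
  have h : (X 0 0 + X 1 1 - c - 1) * c = 0 := by
    linear_combination X 1 1 * e00 + X 1 1 * hdet - X 1 0 * e01 - (X 0 0 + X 1 1 - c - 1) * hdet
  have h0 := hc.mul_left_eq_zero.1 h
  linear_combination -h0

omit [Fact p.Prime] [CharP k p] in
lemma conj_mul_zero {A : Type} [CommRing A] {Q Qi U V : M2 A} (h : Q * Qi = 1) (hUV : U * V = 0) :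
    (Qi * U * Q) * (Qi * V * Q) = 0 := by
  calc (Qi * U * Q) * (Qi * V * Q) = Qi * U * (Q * Qi) * V * Q := by simp only [mul_assoc]
    _ = Qi * (U * V) * Q := by rw [h, mul_one]; simp only [mul_assoc]
    _ = 0 := by rw [hUV, mul_zero, zero_mul]

omit [Fact p.Prime] [CharP k p] in
lemma conj_sub_smul {A : Type} [CommRing A] {Q Qi : M2 A} (h : Qi * Q = 1) (U : M2 A) (a : A) :
    Qi * (U - a • (1 : M2 A)) * Q = Qi * U * Q - a • (1 : M2 A) := by
  rw [mul_sub, sub_mul, Matrix.mul_smul, mul_one, Matrix.smul_mul, h]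

/-- the operator identity gives a triangular model. -/
theorem triModel_of_strictOp [Finite k] (hp2 : p ≠ 2) (h2 : (2 : k) ≠ 0) (rbar : GQ →* M2 k)
    (hdet : ∀ σ, (rbar σ).det = (chiK p k σ : k)) (r₁ : GQ →* M2 (DualNumber k))
    (hd : ∀ σ, (r₁ σ).det = TrivSqZeroExt.inl (rbar σ).det) (hs : StrictOp p r₁) :
    TriModel p r₁ := by
  obtain ⟨e, he, hs⟩ := hs
  obtain ⟨τ₀, hτ₀, hχ₀⟩ := chiK_inert_ne_one (p := p) (k := k) hp2
  have hτD : τ₀ ∈ decomp (pPrime p) := inert_le_decomp _ hτ₀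
  set c₀ : k := (chiK p k τ₀ : k) with hc₀
  have hc1 : c₀ ≠ 1 := fun h => hχ₀ (Units.ext h)
  have hc0 : c₀ ≠ 0 := (chiK p k τ₀).ne_zero
  set c : DualNumber k := TrivSqZeroExt.inl c₀ with hc
  have hcu : IsUnit c := (IsUnit.mk0 c₀ hc0).map (TrivSqZeroExt.inlHom k k)
  have hu : IsUnit (c - 1) := by
    have : c - 1 = TrivSqZeroExt.inlHom k k (c₀ - 1) := by
      rw [map_sub, map_one]; rfl
    rw [this]
    exact (IsUnit.mk0 _ (sub_ne_zero.2 hc1)).map (TrivSqZeroExt.inlHom k k)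
  set X : M2 (DualNumber k) := r₁ τ₀ with hX
  have hXdet : X.det = c := by rw [hX, hd, hdet]
  have hXq : (X - c • (1 : M2 (DualNumber k))) * (X - 1) = 0 := by
    have := hs τ₀ hτD τ₀ hτD
    rwa [he τ₀ hτ₀, mul_one, one_smul] at this
  obtain ⟨Q, hQ, hXQ⟩ := RIB.exists_diag X c 1 (trace_of_quad X c hcu hXdet hXq)
    (by rw [mul_one, hXdet]) hu
  set Qu : (M2 (DualNumber k))ˣ := ((Matrix.isUnit_iff_isUnit_det Q).2 hQ).unit with hQu
  have hQc : (Qu : M2 (DualNumber k)) = Q := IsUnit.unit_spec _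
  set Qi : M2 (DualNumber k) := ((Qu⁻¹ : (M2 (DualNumber k))ˣ) : M2 (DualNumber k)) with hQi
  have hQQi : Q * Qi = 1 := by rw [← hQc]; exact Units.mul_inv Qu
  have hQiQ : Qi * Q = 1 := by rw [← hQc]; exact Units.inv_mul Qu
  have hD0 : Qi * X * Q = !![c, 0; 0, 1] := by
    rw [mul_assoc, hXQ, ← mul_assoc, hQiQ, one_mul]
  have hr' : ∀ σ, S53.conjRep Qu⁻¹ r₁ σ = Qi * r₁ σ * Q := by
    intro σ
    rw [S53.conjRep_apply, inv_inv, hQc]
  -- the shape on `D_p`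
  have hshape : ∀ σ ∈ decomp (pPrime p), Qi * r₁ σ * Q =
      !![TrivSqZeroExt.inl (chiK p k σ : k) * e σ, (Qi * r₁ σ * Q) 0 1; 0, e σ] := by
    intro σ hσ
    set Y := Qi * r₁ σ * Q with hY
    have h1 := conj_mul_zero hQQi (hs σ hσ τ₀ hτD)
    rw [he τ₀ hτ₀, conj_sub_smul hQiQ, conj_sub_smul hQiQ, ← hX, hD0, ← hY, one_smul] at h1
    have h3 := conj_mul_zero hQQi (hs τ₀ hτD σ hσ)
    rw [he τ₀ hτ₀, mul_one, conj_sub_smul hQiQ, conj_sub_smul hQiQ, ← hX, hD0, ← hY, ← hc₀,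
      ← hc] at h3
    have a00 := congrFun (congrFun h1 0) 0
    have a10 := congrFun (congrFun h1 1) 0
    have b11 := congrFun (congrFun h3 1) 1
    simp only [Matrix.mul_apply, Fin.sum_univ_two, Matrix.sub_apply, Matrix.smul_apply,
      Matrix.one_apply_eq, Matrix.zero_apply, smul_eq_mul, mul_one, mul_zero, sub_zero,
      Matrix.one_apply_ne (show (0 : Fin 2) ≠ 1 by decide),
      Matrix.one_apply_ne (show (1 : Fin 2) ≠ 0 by decide), Matrix.of_apply, Matrix.cons_val_zero,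
      Matrix.cons_val_one, Matrix.cons_val', Matrix.cons_val_fin_one, add_zero, zero_mul, zero_add,
      sub_self] at a00 a10 b11
    have y00 : Y 0 0 = TrivSqZeroExt.inl (chiK p k σ : k) * e σ :=
      sub_eq_zero.1 (hu.mul_left_eq_zero.1 a00)
    have y10 : Y 1 0 = 0 := hu.mul_left_eq_zero.1 a10
    have y11 : Y 1 1 = e σ := by
      have hu' : IsUnit (1 - c) := by rw [← neg_sub]; exact hu.neg
      exact sub_eq_zero.1 (hu'.mul_right_eq_zero.1 b11)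
    conv_lhs => rw [Matrix.eta_fin_two Y, y00, y10, y11]
  refine ⟨S53.conjRep Qu⁻¹ r₁, Qu⁻¹, fun σ => S53.mul_eq_conjRep_mul _ _ _, ?_, ?_⟩
  · intro σ hσ
    have hY := hshape σ hσ
    have hdd : (r₁ σ).det = (S53.conjRep Qu⁻¹ r₁ σ).det :=
      det_eq_of_conj Qu⁻¹ (S53.mul_eq_conjRep_mul _ _ _)
    rw [hr', hY, hd σ, hdet σ, Matrix.det_fin_two_of, mul_zero, sub_zero] at hdd
    obtain ⟨hz1, hz2⟩ := dual_sq_eq_one h2 (chiK p k σ).ne_zero hdd.symm
    refine ⟨(e σ).fst, (Qi * r₁ σ * Q) 0 1, hz1, ?_⟩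
    rw [hr', TrivSqZeroExt.inl_mul, ← hz2]
    exact hY
  · intro σ hσ
    rw [hr', hshape σ (inert_le_decomp _ hσ), he σ hσ]
    rfl

/-- **[LOC-ORD]**, operator form. -/
theorem exists_ord_condition_op [Finite k] (hp2 : p ≠ 2) (h2 : (2 : k) ≠ 0) (rbar : GQ →* M2 k)
    (hcont : GaloisFactorsThroughFiniteLevel rbar)
    (hdet : ∀ σ, (rbar σ).det = (chiK p k σ : k)) :
    ∃ L : Submodule k (↥(decomp (pPrime p)) → sl2 k),
      B1loc (adRep rbar) (pPrime p) ≤ L ∧ L ≤ Z1loc (adRep rbar) (pPrime p) ∧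
      Finite ↥L ∧ Nat.card ↥L ≤ Nat.card k ^ 4 ∧
      ∀ r₁ : GQ →* M2 (DualNumber k), GaloisFactorsThroughFiniteLevel r₁ → IsLift rbar r₁ →
        (∀ σ, (r₁ σ).det = TrivSqZeroExt.inl (rbar σ).det) → StrictOp p r₁ →
        resLoc k (pPrime p) (coc h2 r₁) ∈ L := by
  obtain ⟨L, hB, hZ, hf, hc, hmem⟩ := exists_ord_condition_mat hp2 h2 rbar hcont
  exact ⟨L, hB, hZ, hf, hc, fun r₁ hc₁ hl hd hs =>
    hmem r₁ hc₁ hl hd (triModel_of_strictOp hp2 h2 rbar hdet r₁ hd hs)⟩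

/-- the operator identity over `R` passes to the tangent vectors. -/
theorem strictOp_mapRep {R : Type} [CommRing R] (φ : R →+* DualNumber k) (ρ : GQ →* M2 R)
    (c e : GQ → R) (hc : ∀ σ ∈ decomp (pPrime p), φ (c σ) = TrivSqZeroExt.inl (chiK p k σ : k))
    (he : ∀ σ ∈ inert (pPrime p), e σ = 1)
    (hs : ∀ σ ∈ decomp (pPrime p), ∀ τ ∈ decomp (pPrime p),
      (ρ σ - (c σ * e σ) • (1 : M2 R)) * (ρ τ - e τ • (1 : M2 R)) = 0) :
    StrictOp p (S53.mapRep φ ρ) := by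
  refine ⟨fun σ => φ (e σ), fun σ hσ => by
    show φ (e σ) = 1
    rw [he σ hσ, map_one], fun σ hσ τ hτ => ?_⟩
  have h := congrArg φ.mapMatrix (hs σ hσ τ hτ)
  have hsm : ∀ a : R, φ.mapMatrix (a • (1 : M2 R)) = φ a • (1 : M2 (DualNumber k)) := by
    intro a
    refine Matrix.ext fun i j => ?_
    fin_cases i <;> fin_cases j <;> simp
  rw [map_mul, map_sub, map_sub, hsm, hsm, map_mul, hc σ hσ, map_zero] at h
  exact h

end Op

end Fermat.Agent.ML
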