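import Fermat.Agent.ML.Gen.Out
import Fermat.Agent.ML.Gen.Card
import Fermat.Agent.ML.Gen.Loc
import Fermat.Agent.ML.Gen.Ord
import Fermat.Agent.S56.Gen.FlatM

/-!
# ML / Gen / Stage : (GEN) as ONE citation, in plain ring / matrix form, for the context `MCtx`

`R` any commutative ring, `π0 : R →+* ZMod p`, `ρ : G_ℚ → M₂(R)`, `J` an ideal of `R`.

* `IsTan p π0 J φ` : `φ : R →+* 𝔽_{p²}[ε]` lies over `π0` and kills `J`.
* `GenHypMZ p rbar0 S₀ Q Rs π0 ρ J` : all the hypotheses, everything modulo `J` :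
  `strict` at `v ∈ Rs` (conjugate modulo `J` to a representation with integer entries), `atp` (flat OR the strict ordinary operator identity),
  `min` at the other primes of `S₀` (unramified modulo `J`, or `rbar0` ramified and unipotent modulo `J`).
* `MCtx.gen_stage` : `t - Σ_{v ∈ Rs} w v` generators of `ker π0` modulo `J + (p)`.
* `MCtx.weight_zero / weight_one / weight_three` : the weights `w v`.
-/

set_option autoImplicit false

noncomputable section

open ExtCitation Polynomial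

namespace Fermat.Agent.ML

open Fermat.Agent.RIB Fermat.Agent.S56 Fermat.Agent.S56.Gen
open CFT (levS levAll decomp Z1 B1 Qb IsSmooth)

/-- the tangent vectors, ring form. -/
def IsTan (p : ℕ) [Fact p.Prime] {R : Type} [CommRing R] (π0 : R →+* ZMod p) (J : Ideal R)
    (φ : R →+* DualNumber (kM p)) : Prop :=
  (∀ a, (φ a).fst = algebraMap (ZMod p) (kM p) (π0 a)) ∧ ∀ a ∈ J, φ a = 0

/-- the hypotheses of (GEN), plain ring / matrix form, everything modulo `J`. -/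
structure GenHypMZ (p : ℕ) [Fact p.Prime] (rbar0 : GQ →* M2 (ZMod p))
    (S₀ Q Rs : Finset Nat.Primes) {R : Type} [CommRing R] (π0 : R →+* ZMod p) (ρ : GQ →* M2 R)
    (J : Ideal R) : Prop where
  lift : ∀ σ, (ρ σ).map π0 = rbar0 σ
  det : ∀ σ, ∃ c : ℤ, (ρ σ).det = (c : R)
  tr : Algebra.adjoin ℤ (Set.range fun σ => (ρ σ).trace) = ⊤
  lev : ∃ U ∈ (levS (S₀ ∪ Q)).carrier, ∀ s ∈ U, ρ s = 1
  J_le : ∀ a ∈ J, π0 a = 0
  strict : ∀ v ∈ Rs, ∃ M : M2 R, IsUnit (M.map π0) ∧ ∀ σ ∈ decomp v, ConjConst ℤ J M (ρ σ)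
  atp : (∀ φ : R →+* DualNumber (kM p), IsTan p π0 J φ →
      Flat.HasFlat (Flat.Ap p).valuation (Flat.matAct (Flat.Ip p) (S53.mapRep φ ρ))) ∨
    (∃ e : GQ → R, (∀ σ ∈ inert (pPrime p), e σ - 1 ∈ J) ∧
      ∀ σ ∈ decomp (pPrime p), ∀ τ ∈ decomp (pPrime p), ∀ i l,
        ((ρ σ - ((ρ σ).det * e σ) • (1 : M2 R)) * (ρ τ - e τ • (1 : M2 R))) i l ∈ J)
  min : ∀ v ∈ S₀, v ∉ Rs → v ≠ pPrime p →
    (∀ σ ∈ inert v, ∀ i l, (ρ σ - 1) i l ∈ J) ∨
    ((∃ σ ∈ inert v, rbar0 σ ≠ 1) ∧ ∀ σ ∈ inert v, (ρ σ).trace - 2 ∈ J ∧ (ρ σ).det - 1 ∈ J)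

variable {p : ℕ} [Fact p.Prime]

/-- a matrix with entries in `J` is killed by a ring hom killing `J`. -/
theorem mapMatrix_eq_zero_of_mem {R B : Type} [CommRing R] [CommRing B] {J : Ideal R}
    (φ : R →+* B) (hφ : ∀ a ∈ J, φ a = 0) {X : M2 R} (hX : ∀ i l, X i l ∈ J) :
    φ.mapMatrix X = 0 := by
  ext i l
  exact hφ _ (hX i l)

theorem mapMatrix_smul_one' {R B : Type} [CommRing R] [CommRing B] (φ : R →+* B) (a : R) :
    φ.mapMatrix (a • (1 : M2 R)) = φ a • (1 : M2 B) := by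
  refine Matrix.ext fun i j => ?_
  fin_cases i <;> fin_cases j <;> simp

section Stage

variable {T : Finset ℕ} {θ : ℕ → ℤ} {rbar0 : GQ →* M2 (ZMod p)}

/-- the local condition at `p` attached to `GenHypMZ.atp`, and `GenHypS`. -/
theorem GenHypMZ.exists_genHypS (C : MCtx p T θ rbar0) {S₀ Q Rs : Finset Nat.Primes}
    {R : Type} [CommRing R] {π0 : R →+* ZMod p} {ρ : GQ →* M2 R} {J : Ideal R}
    (H : GenHypMZ p rbar0 S₀ Q Rs π0 ρ J) :
    ∃ Lp : Submodule (kM p) (↥(decomp (pPrime p)) → sl2 (kM p)),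
      B1loc (adRep (mapK (kM p) rbar0)) (pPrime p) ≤ Lp ∧
      Lp ≤ Z1loc (adRep (mapK (kM p) rbar0)) (pPrime p) ∧
      Nat.card ↥Lp ≤ Nat.card (kM p) ^ 4 ∧
      GenHypS p (two_ne_zero_kM C.hp2) (mapK (kM p) rbar0) S₀ Q Rs Lp
        (piKL (kM p) (π0.toIntAlgHom)) ρ J := by
  classical
  have h2 : (2 : kM p) ≠ 0 := two_ne_zero_kM C.hp2
  have hcont := C.cont_mapK (kM p)
  have hdet := C.det_mapK (kM p)
  have hsplit : ∀ σ, ∃ α β : kM p,
      (mapK (kM p) rbar0 σ).charpoly = (X - Polynomial.C α) * (X - Polynomial.C β) := fun σ => by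
    rw [charpoly_mapK]
    exact quadSplitM C.hp2 _ _
  have hlift : ∀ σ, (ρ σ).map (piKL (kM p) (π0.toIntAlgHom)) = mapK (kM p) rbar0 σ := fun σ => by
    rw [mapK_apply, ← H.lift σ, Matrix.map_map]
    rfl
  have hdetΛ : ∀ σ, ∃ c : ℤ, (ρ σ).det = algebraMap ℤ R c := fun σ => by
    obtain ⟨c, hc⟩ := H.det σ
    exact ⟨c, by rw [hc]; simp⟩
  have hJ : ∀ a ∈ J, piKL (kM p) (π0.toIntAlgHom) a = 0 := fun a ha => by
    show algebraMap (ZMod p) (kM p) (π0 a) = 0
    rw [H.J_le a ha, map_zero]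
  obtain ⟨Lp, hB, hZ, hcard, hmem⟩ : ∃ Lp : Submodule (kM p) (↥(decomp (pPrime p)) → sl2 (kM p)),
      B1loc (adRep (mapK (kM p) rbar0)) (pPrime p) ≤ Lp ∧
      Lp ≤ Z1loc (adRep (mapK (kM p) rbar0)) (pPrime p) ∧
      Nat.card ↥Lp ≤ Nat.card (kM p) ^ 4 ∧
      ∀ φ ∈ TanSet (piKL (kM p) (π0.toIntAlgHom)) J,
        resLoc (kM p) (pPrime p) (coc h2 (pushRep φ ρ)) ∈ Lp := by
    rcases H.atp with hfl | ⟨e, he, hs⟩
    · obtain ⟨Lp, hB, hZ, -, hcard, hmem⟩ := flatTanM C.hp2 h2 (mapK (kM p) rbar0) hcont hdet hsplit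
      exact ⟨Lp, hB, hZ, hcard, fun φ hφ => hmem _ ⟨isLift_pushRep hlift hφ.1,
        det_pushRep hlift hdetΛ φ, cont_pushRep H.lev φ,
        hfl (φ : R →+* DualNumber (kM p)) ⟨hφ.1, hφ.2⟩⟩⟩
    · obtain ⟨Lp, hB, hZ, -, hcard, hmem⟩ :=
        exists_ord_condition_op C.hp2 h2 (mapK (kM p) rbar0) hcont hdet
      refine ⟨Lp, hB, hZ, hcard, fun φ hφ => hmem _ (cont_pushRep H.lev φ)
        (isLift_pushRep hlift hφ.1) (det_pushRep hlift hdetΛ φ) ?_⟩
      refine ⟨fun σ => φ (e σ), fun σ hσ => ?_, fun σ hσ τ hτ => ?_⟩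
      · have h1 := hφ.2 _ (he σ hσ)
        rw [map_sub, map_one, sub_eq_zero] at h1
        exact h1
      · have h1 := mapMatrix_eq_zero_of_mem (φ : R →+* DualNumber (kM p)) hφ.2 (hs σ hσ τ hτ)
        have h3 : (φ : R →+* DualNumber (kM p)) (ρ σ).det =
            TrivSqZeroExt.inl (chiK p (kM p) σ : kM p) := by
          rw [← hdet σ, ← det_pushRep hlift hdetΛ φ σ]
          exact RingHom.map_det (φ : R →+* DualNumber (kM p)) (ρ σ)
        rw [map_mul, map_sub, map_sub, mapMatrix_smul_one', mapMatrix_smul_one', map_mul, h3] at h1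
        exact h1
  refine ⟨Lp, hB, hZ, hcard, ?_⟩
  exact
    { lift := hlift
      det := hdetΛ
      tr := H.tr
      lev := H.lev
      J_le := hJ
      strict := by
        intro v hv φ hφ
        obtain ⟨M, hM, hc⟩ := H.strict v hv
        refine resLoc_coc_mem_B1loc_of_conj h2 hlift hφ v M ?_ hc
        have e1 : M.map (piKL (kM p) (π0.toIntAlgHom)) =
            (algebraMap (ZMod p) (kM p)).mapMatrix (M.map π0) := by
          ext i l; rfl
        rw [e1]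
        exact hM.map _
      atp := hmem
      min := by
        intro v hv hvR hvp φ hφ
        have hl : IsLift (mapK (kM p) rbar0) (pushRep φ ρ) := isLift_pushRep hlift hφ.1
        have hc := cont_pushRep H.lev φ
        have hvp' : (v : ℕ) ≠ p := fun e => hvp (Subtype.ext e)
        rcases H.min v hv hvR hvp with hu | ⟨⟨σ₀, hσ₀, hram⟩, hu⟩
        · refine resLoc_coc_mem_Lur_of_trivial h2 _ v _ hc hl fun σ hσ => ?_
          have h1 := mapMatrix_eq_zero_of_mem (φ : R →+* DualNumber (kM p)) hφ.2 (hu σ hσ)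
          rw [map_sub, map_one, sub_eq_zero] at h1
          exact h1
        · refine resLoc_coc_mem_Lur_of_unip h2 _ v hvp'
            ⟨σ₀, hσ₀, fun h1 => hram ((mapK_eq_one_iff σ₀).1 h1)⟩ _ hc hl fun σ hσ => ?_
          have ht : (pushRep φ ρ σ).trace = 2 := by
            have h1 := hφ.2 _ (hu σ hσ).1
            rw [map_sub, sub_eq_zero, map_ofNat] at h1
            rw [← h1]
            exact (AddMonoidHom.map_trace (φ : R →+* DualNumber (kM p)).toAddMonoidHom (ρ σ)).symm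
          have hd : (pushRep φ ρ σ).det = 1 := by
            have h1 := hφ.2 _ (hu σ hσ).2
            rw [map_sub, sub_eq_zero, map_one] at h1
            rw [← h1]
            exact (RingHom.map_det (φ : R →+* DualNumber (kM p)) (ρ σ)).symm
          rw [Matrix.charpoly_fin_two, ht, hd]
          simp only [map_ofNat, map_one]
          ring }

/-- **[GEN-STAGE]** : the one-line citation of (GEN). -/
theorem MCtx.gen_stage (C : MCtx p T θ rbar0) {t : ℕ} {qv : Fin t → Nat.Primes}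
    (W : TWGenL p (two_ne_zero_kM C.hp2) (mapK (kM p) rbar0) (toP T) t qv)
    {Rs : Finset Nat.Primes} (hRs : Rs ⊆ toP T) (hpR : pPrime p ∉ Rs) (w : Nat.Primes → ℕ)
    (hw : ∀ v ∈ Rs, Nat.card ↥(B1loc (adRep (mapK (kM p) rbar0)) v) * Nat.card (kM p) ^ w v ≤
      Nat.card (kM p) ^ 3)
    {R : Type} [CommRing R] {π0 : R →+* ZMod p} {ρ : GQ →* M2 R} {J : Ideal R}
    (H : GenHypMZ p rbar0 (toP T) (Finset.univ.image qv) Rs π0 ρ J) :
    ∑ v ∈ Rs, w v ≤ t ∧ ∃ x : Fin (t - ∑ v ∈ Rs, w v) → R, (∀ i, π0 (x i) = 0) ∧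
      RingHom.ker π0 ≤ J ⊔ Ideal.span (Set.range x) ⊔ RingHom.ker π0 ^ 2 ⊔
        Ideal.span {(p : R)} ∧
      (IsNilpotent (RingHom.ker π0) →
        RingHom.ker π0 ≤ J ⊔ Ideal.span (Set.range x) ⊔ Ideal.span {(p : R)}) := by
  classical
  obtain ⟨Lp, hLpB, hLpZ, hLpcard, HS⟩ := H.exists_genHypS C
  have hsmA : IsSmooth levAll (adRep (mapK (kM p) rbar0)) :=
    isSmooth_adRep _ (C.cont_mapK (kM p))
  have hpS : pPrime p ∈ toP T := mem_toP'.2 C.p_mem
  obtain ⟨hde, x, hx, hle⟩ := W (strictFam (mapK (kM p) rbar0) Lp Rs)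
    (fun v _ => by
      by_cases hvR : v ∈ Rs
      · rw [strictFam_mem _ Lp hvR]
      rw [strictFam_not_mem _ Lp hvR]
      by_cases hv : v = pPrime p
      · subst hv; rw [locFam_p]; exact hLpB
      · rw [locFam_ne _ Lp hv]; exact B1loc_le_Lur _ hsmA v)
    (fun v _ => by
      by_cases hvR : v ∈ Rs
      · rw [strictFam_mem _ Lp hvR]; exact B1loc_le_Z1loc _ hsmA v
      rw [strictFam_not_mem _ Lp hvR]
      by_cases hv : v = pPrime p
      · subst hv; rw [locFam_p]; exact hLpZ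
      · rw [locFam_ne _ Lp hv]; exact Lur_le_Z1loc _ v)
    (∑ v ∈ Rs, w v) 0 (prod_card_strictFam_le _ (toP T) Rs hpS hRs hpR Lp hLpcard w hw)
    ℤ (ZMod p) R ZMod.intCast_surjective π0.toIntAlgHom ρ J HS.toL
  have hP : (RingHom.ker (algebraMap ℤ (ZMod p))).map (algebraMap ℤ R) = Ideal.span {(p : R)} := by
    have : RingHom.ker (algebraMap ℤ (ZMod p)) = Ideal.span {(p : ℤ)} := ZMod.ker_intCastRingHom p
    rw [this, Ideal.map_span, Set.image_singleton]
    simp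
  rw [hP] at hle
  have hle' : RingHom.ker π0 ≤ J ⊔ Ideal.span (Set.range x) ⊔ RingHom.ker π0 ^ 2 ⊔
      Ideal.span {(p : R)} := hle
  refine ⟨hde, x, hx, hle', fun hnil => ?_⟩
  obtain ⟨N, hN⟩ := hnil
  exact ker_le_of_nilp hle' (N := N) (by rw [hN]; exact bot_le)

/-- weight `0` : always allowed. -/
theorem MCtx.weight_zero (_C : MCtx p T θ rbar0) (v : Nat.Primes) :
    Nat.card ↥(B1loc (adRep (mapK (kM p) rbar0)) v) * Nat.card (kM p) ^ 0 ≤ Nat.card (kM p) ^ 3 :=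
  card_B1loc_mul_le_zero _ v

/-- the image of `D_v` when `rbar0` is unramified at `v` : powers of the Frobenius. -/
theorem MCtx.exists_pow_of_unram (C : MCtx p T θ rbar0) (v : Nat.Primes)
    (hunr : ∀ σ ∈ inert v, rbar0 σ = 1) {φ : GQ}
    (hφ : (primeLocalPlace v).IsFrobeniusAt φ (v : ℕ)) :
    ∀ σ ∈ decomp v, ∃ a : ℕ, rbar0 σ = rbar0 φ ^ a := by
  obtain ⟨σ₀, hσ₀, -, hdec⟩ := exists_local_gens rbar0 C.cont v 1 (Nat.coprime_one_left _)
    (fun σ hσ => by rw [hunr σ hσ, one_pow])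
  intro σ hσ
  obtain ⟨a, b, hab⟩ := hdec φ hφ σ hσ
  exact ⟨a, by rw [hab, hunr σ₀ hσ₀, one_pow, mul_one]⟩

/-- weight `1` : `rbar0` unramified at `v`, non scalar Frobenius. -/
theorem MCtx.weight_one (C : MCtx p T θ rbar0) (v : Nat.Primes)
    (hunr : ∀ σ ∈ inert v, rbar0 σ = 1) {φ : GQ}
    (hφ : (primeLocalPlace v).IsFrobeniusAt φ (v : ℕ))
    (hns : ∀ c : ZMod p, rbar0 φ ≠ c • (1 : M2 (ZMod p))) :
    Nat.card ↥(B1loc (adRep (mapK (kM p) rbar0)) v) * Nat.card (kM p) ^ 1 ≤ Nat.card (kM p) ^ 3 := by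
  refine card_B1loc_mul_le_of_fixed _ v (exists_fixed_of_comm (two_ne_zero_kM C.hp2) _ v
    (mapK (kM p) rbar0 φ) (fun c hc => ?_) fun σ hσ => ?_)
  · refine hns (rbar0 φ 0 0) ?_
    have hinj := (algebraMap (ZMod p) (kM p)).injective
    have h00 := congrFun (congrFun hc 0) 0
    have h01 := congrFun (congrFun hc 0) 1
    have h10 := congrFun (congrFun hc 1) 0
    have h11 := congrFun (congrFun hc 1) 1
    simp only [mapK_apply, Matrix.map_apply, Matrix.smul_apply, Matrix.one_apply_eq, smul_eq_mul,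
      mul_one, ne_eq, zero_ne_one, one_ne_zero, not_false_eq_true, Matrix.one_apply_ne,
      mul_zero] at h00 h01 h10 h11
    refine Matrix.ext fun i j => ?_
    fin_cases i <;> fin_cases j
    · simp
    · simpa using hinj (by rw [map_zero]; exact h01)
    · simpa using hinj (by rw [map_zero]; exact h10)
    · simpa using hinj (h11.trans h00.symm)
  · obtain ⟨a, ha⟩ := C.exists_pow_of_unram v hunr hφ σ hσ
    have h1 : mapK (kM p) rbar0 σ = mapK (kM p) rbar0 φ ^ a := by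
      have : rbar0 σ = rbar0 (φ ^ a) := by rw [ha, map_pow]
      rw [← map_pow, mapK_apply, mapK_apply, this]
    rw [h1, ← pow_succ, ← pow_succ']

/-- weight `3` : `rbar0` unramified at `v`, scalar Frobenius. -/
theorem MCtx.weight_three (C : MCtx p T θ rbar0) (v : Nat.Primes)
    (hunr : ∀ σ ∈ inert v, rbar0 σ = 1) {φ : GQ}
    (hφ : (primeLocalPlace v).IsFrobeniusAt φ (v : ℕ)) {c : ZMod p}
    (hs : rbar0 φ = c • (1 : M2 (ZMod p))) :
    Nat.card ↥(B1loc (adRep (mapK (kM p) rbar0)) v) * Nat.card (kM p) ^ 3 ≤ Nat.card (kM p) ^ 3 := by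
  refine card_B1loc_mul_le_of_scalarAt fun σ hσ => ?_
  obtain ⟨a, ha⟩ := C.exists_pow_of_unram v hunr hφ σ hσ
  refine ⟨algebraMap (ZMod p) (kM p) (c ^ a), ?_⟩
  rw [mapK_apply, ha, hs, _root_.smul_pow, one_pow]
  refine Matrix.ext fun i j => ?_
  fin_cases i <;> fin_cases j <;> simp

end Stage

end Fermat.Agent.ML
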