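import Fermat.Agent.S56.Gen.MainW

/-!
# ML / Gen / Main : (GEN) for an arbitrary family of local conditions `L v`, `v ∈ S₀`.

`rbar : GQ →* M2 k` with `RbarHyp p rbar`, unramified outside `S₀ ∋ p`.  `L v` (`v ∈ S₀`) any subspaces `B¹(D_v) ≤ L v ≤ Z¹(D_v)` with
`(∏_{v ∈ S₀} #L v) * #k^d ≤ #k^(3 #S₀ + 1 + e)`  (neutral: `#L v = #k³` for `v ≠ p`, `#L p = #k⁴`; `d` = saving, `e` = excess).
* `GenHypL`            : the hypotheses on `(A, π, rA, J)`; the local ones are on the cocycles of the tangent vectors.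
* `card_Sel_L_le`      : `#S̃el * #k^d ≤ #k^(#Q + e + 3)`.
* `GenHypL.card_tanSet_le` : `#TanSet π J * #k^d ≤ #k^(#Q + e)`.
* `exists_tw_gen_L`    : Taylor-Wiles sets of constant cardinality `t` (independent of `n`, `T`, `L`, `Λ`, `A`), `d ≤ t + e` and
  `ker π ≤ J + (x_1 .. x_{t + e - d}) + (ker π)² + ker (Λ → k) A`.
-/

set_option autoImplicit false

open ExtCitation Polynomial

namespace Fermat.Agent.ML

open Fermat.Agent.S56
open CFT (levS levAll decomp Z1 B1 Qb IsSmooth)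
open Fermat.Agent.S56.Gen

variable {k : Type} [Field k] {p : ℕ} [Fact p.Prime]

/-- the hypotheses of (GEN) on `(A, π, rA, J)`, arbitrary local conditions. -/
structure GenHypL (p : ℕ) [Fact p.Prime] (h2 : (2 : k) ≠ 0) (rbar : GQ →* M2 k)
    (S₀ Q : Finset Nat.Primes) (L : ∀ v : Nat.Primes, Submodule k (↥(decomp v) → sl2 k))
    {Λ A : Type} [CommRing Λ] [Algebra Λ k] [CommRing A] [Algebra Λ A]
    (π : A →ₐ[Λ] k) (rA : GQ →* M2 A) (J : Ideal A) : Prop where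
  lift : ∀ σ, (rA σ).map π = rbar σ
  det : ∀ σ, ∃ c : Λ, (rA σ).det = algebraMap Λ A c
  tr : Algebra.adjoin Λ (Set.range fun σ => (rA σ).trace) = ⊤
  lev : ∃ U ∈ (levS (S₀ ∪ Q)).carrier, ∀ s ∈ U, rA s = 1
  J_le : ∀ a ∈ J, π a = 0
  loc : ∀ v ∈ S₀, ∀ φ ∈ TanSet π J, resLoc k v (coc h2 (pushRep φ rA)) ∈ L v

open Classical in
/-- extend a family of local conditions on `S₀` by `Lur`. -/
noncomputable def extFam (rbar : GQ →* M2 k) (S₀ : Finset Nat.Primes)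
    (L : ∀ v : Nat.Primes, Submodule k (↥(decomp v) → sl2 k)) (v : Nat.Primes) :
    Submodule k (↥(decomp v) → sl2 k) :=
  if v ∈ S₀ then L v else Lur (adRep rbar) v

lemma extFam_mem (rbar : GQ →* M2 k) {S₀ : Finset Nat.Primes}
    (L : ∀ v : Nat.Primes, Submodule k (↥(decomp v) → sl2 k)) {v : Nat.Primes} (hv : v ∈ S₀) :
    extFam rbar S₀ L v = L v := by
  simp [extFam, hv]

lemma extFam_not_mem (rbar : GQ →* M2 k) {S₀ : Finset Nat.Primes}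
    (L : ∀ v : Nat.Primes, Submodule k (↥(decomp v) → sl2 k)) {v : Nat.Primes} (hv : v ∉ S₀) :
    extFam rbar S₀ L v = Lur (adRep rbar) v := by
  simp [extFam, hv]

section

variable {Λ A : Type} [CommRing Λ] [Algebra Λ k] [CommRing A] [Algebra Λ A]
  {h2 : (2 : k) ≠ 0} {rbar : GQ →* M2 k} {S₀ Q : Finset Nat.Primes}
  {L : ∀ v : Nat.Primes, Submodule k (↥(decomp v) → sl2 k)}
  {π : A →ₐ[Λ] k} {rA : GQ →* M2 A} {J : Ideal A}

/-- enlarging `S₀` by primes at which nothing happens. -/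
theorem GenHypL.mono (H : GenHypL p h2 rbar S₀ Q L π rA J) {S₀' : Finset Nat.Primes}
    (hS : S₀ ⊆ S₀') (hdisj : Disjoint S₀' Q) :
    GenHypL p h2 rbar S₀' Q (extFam rbar S₀ L) π rA J where
  lift := H.lift
  det := H.det
  tr := H.tr
  lev := by
    obtain ⟨U, hU, hs⟩ := H.lev
    exact ⟨U, levS_carrier_mono (Finset.union_subset_union_left hS) hU, hs⟩
  J_le := H.J_le
  loc := by
    intro v hv φ hφ
    by_cases hv0 : v ∈ S₀
    · rw [extFam_mem rbar L hv0]; exact H.loc v hv0 φ hφ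
    · rw [extFam_not_mem rbar L hv0]
      obtain ⟨U, hU, hs⟩ := H.lev
      have hvT : v ∉ S₀ ∪ Q := fun h => by
        rcases Finset.mem_union.1 h with h | h
        · exact hv0 h
        · exact (Finset.disjoint_left.1 hdisj hv) h
      exact resLoc_coc_mem_Lur_of_trivial h2 rbar v _ (cont_pushRep H.lev φ)
        (isLift_pushRep H.lift hφ.1)
        (fun σ hσ => pushRep_eq_one φ (hs σ (inert_le_of_mem_levS hU hvT hσ)))

/-- weakening the local conditions. -/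
theorem GenHypL.mono_L (H : GenHypL p h2 rbar S₀ Q L π rA J)
    {L' : ∀ v : Nat.Primes, Submodule k (↥(decomp v) → sl2 k)} (hL : ∀ v ∈ S₀, L v ≤ L' v) :
    GenHypL p h2 rbar S₀ Q L' π rA J where
  lift := H.lift
  det := H.det
  tr := H.tr
  lev := H.lev
  J_le := H.J_le
  loc := fun v hv φ hφ => hL v hv (H.loc v hv φ hφ)

theorem GenHypL.coc_mem_Sel (H : GenHypL p h2 rbar S₀ Q L π rA J)
    {φ : A →ₐ[Λ] DualNumber k} (hφ : φ ∈ TanSet π J) :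
    coc h2 (pushRep φ rA) ∈ Sel (S₀ ∪ Q) S₀ (adRep rbar) L := by
  have hl : IsLift rbar (pushRep φ rA) := isLift_pushRep H.lift hφ.1
  have hlev : ∃ U ∈ (levS (S₀ ∪ Q)).carrier, ∀ s ∈ U, pushRep φ rA s = 1 := by
    obtain ⟨U, hU, hs⟩ := H.lev
    exact ⟨U, hU, fun s hsU => pushRep_eq_one φ (hs s hsU)⟩
  rw [mem_Sel]
  exact ⟨coc_mem_Z1 h2 _ hl hlev, fun v hv => H.loc v hv φ hφ⟩

end

/-- the arithmetic -/
theorem count_aux_L (K X P s t d e : ℕ) (hK : 0 < K) (hP : P * K ^ d ≤ K ^ (3 * s + 1 + e))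
    (h : X * (K ^ 3) ^ (s + t) * K ≤ P * (K ^ 4) ^ t * K ^ 3) :
    X * K ^ d ≤ K ^ (t + e + 3) := by
  have h1 : X * (K ^ 3) ^ (s + t) * K * K ^ d ≤ P * (K ^ 4) ^ t * K ^ 3 * K ^ d :=
    Nat.mul_le_mul_right _ h
  have h2 : P * (K ^ 4) ^ t * K ^ 3 * K ^ d = P * K ^ d * ((K ^ 4) ^ t * K ^ 3) := by ring
  have h3 : P * K ^ d * ((K ^ 4) ^ t * K ^ 3) ≤ K ^ (3 * s + 1 + e) * ((K ^ 4) ^ t * K ^ 3) :=
    Nat.mul_le_mul_right _ hP
  have e1 : X * (K ^ 3) ^ (s + t) * K * K ^ d = X * K ^ d * K ^ (3 * s + 3 * t + 1) := by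
    rw [← pow_mul]; ring
  have e2 : K ^ (3 * s + 1 + e) * ((K ^ 4) ^ t * K ^ 3) =
      K ^ (t + e + 3) * K ^ (3 * s + 3 * t + 1) := by
    rw [← pow_mul]; ring
  rw [h2] at h1
  have h4 := h1.trans h3
  rw [e1, e2] at h4
  exact Nat.le_of_mul_le_mul_right h4 (pow_pos hK _)

variable [Finite k] [CharP k p]

/-- **[GEN-COUNT]**, arbitrary local conditions. -/
theorem card_Sel_L_le (hp2 : p ≠ 2) {rbar : GQ →* M2 k} (h : RbarHyp p rbar)
    (S₀ Q : Finset Nat.Primes) (hdisj : Disjoint S₀ Q) (hpS : pPrime p ∈ S₀)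
    (hur : UnramOutside rbar S₀)
    (hQ : ∀ q ∈ Q, p ∣ (q : ℕ) - 1 ∧ ∃ φ : GQ, (primeLocalPlace q).IsFrobeniusAt φ (q : ℕ) ∧
      ∃ α β : k, α ≠ β ∧ (rbar φ).charpoly = (X - C α) * (X - C β))
    (hkill : ∀ b ∈ Z1 (levS (S₀ ∪ Q)) (adTw p rbar),
      (∀ q ∈ Q, resLoc k q b ∈ B1loc (adTw p rbar) q) → b ∈ B1 (adTw p rbar))
    (hGW : GWStatement p rbar S₀ Q)
    (L : ∀ v : Nat.Primes, Submodule k (↥(decomp v) → sl2 k))
    (hLB : ∀ v ∈ S₀, B1loc (adRep rbar) v ≤ L v) (hLZ : ∀ v ∈ S₀, L v ≤ Z1loc (adRep rbar) v)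
    (d e : ℕ)
    (hLcard : (∏ v ∈ S₀, Nat.card ↥(L v)) * Nat.card k ^ d ≤ Nat.card k ^ (3 * S₀.card + 1 + e)) :
    Finite ↥(Sel (S₀ ∪ Q) S₀ (adRep rbar) L) ∧
      Nat.card ↥(Sel (S₀ ∪ Q) S₀ (adRep rbar) L) * Nat.card k ^ d ≤
        Nat.card k ^ (Q.card + e + 3) := by
  classical
  obtain ⟨c, hc, hχ, hfin, hle⟩ := hGW L hLB hLZ hkill
  refine ⟨hfin, ?_⟩
  have hK : 0 < Nat.card k := Nat.card_pos
  rw [card_sl2, card_fixed_conj hp2 h.det c hc hχ] at hle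
  have hQc : ∏ q ∈ Q, Nat.card ↥(Z1loc (adRep rbar) q) ≤ (Nat.card k ^ 4) ^ Q.card := by
    refine Finset.prod_le_pow_card _ _ _ fun q hq => ?_
    obtain ⟨hq1, φ, hφ, α, β, hαβ, hchar⟩ := hQ q hq
    have hqS : q ∉ S₀ := fun hq' => (Finset.disjoint_left.1 hdisj hq') hq
    have hqp : (q : ℕ) ≠ p := fun e => hqS (by
      have : q = pPrime p := Subtype.ext e
      rw [this]; exact hpS)
    exact (card_Z1loc_le rbar h.cont q hqp hq1
      (hur q hqS _ (liesOverPrime_primeLocalPlace q)) φ hφ α β hαβ hchar).2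
  refine count_aux_L (Nat.card k) _ (∏ v ∈ S₀, Nat.card ↥(L v)) S₀.card Q.card d e hK hLcard
    (hle.trans ?_)
  exact Nat.mul_le_mul_right _ (Nat.mul_le_mul_left _ hQc)

section

variable {Λ A : Type} [CommRing Λ] [Algebra Λ k] [CommRing A] [Algebra Λ A]
  {h2 : (2 : k) ≠ 0} {rbar : GQ →* M2 k} {S₀ Q : Finset Nat.Primes}
  {L : ∀ v : Nat.Primes, Submodule k (↥(decomp v) → sl2 k)}
  {π : A →ₐ[Λ] k} {rA : GQ →* M2 A} {J : Ideal A}

/-- **[GEN-CARD]**, arbitrary local conditions. -/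
theorem GenHypL.card_tanSet_le (H : GenHypL p h2 rbar S₀ Q L π rA J) (hp2 : p ≠ 2)
    (h : RbarHyp p rbar) (hdisj : Disjoint S₀ Q) (hpS : pPrime p ∈ S₀)
    (hur : UnramOutside rbar S₀)
    (hQ : ∀ q ∈ Q, p ∣ (q : ℕ) - 1 ∧ ∃ φ : GQ, (primeLocalPlace q).IsFrobeniusAt φ (q : ℕ) ∧
      ∃ α β : k, α ≠ β ∧ (rbar φ).charpoly = (X - C α) * (X - C β))
    (hkill : ∀ b ∈ Z1 (levS (S₀ ∪ Q)) (adTw p rbar),
      (∀ q ∈ Q, resLoc k q b ∈ B1loc (adTw p rbar) q) → b ∈ B1 (adTw p rbar))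
    (hGW : GWStatement p rbar S₀ Q)
    (hLB : ∀ v ∈ S₀, B1loc (adRep rbar) v ≤ L v) (hLZ : ∀ v ∈ S₀, L v ≤ Z1loc (adRep rbar) v)
    (d e : ℕ)
    (hLcard : (∏ v ∈ S₀, Nat.card ↥(L v)) * Nat.card k ^ d ≤ Nat.card k ^ (3 * S₀.card + 1 + e)) :
    (TanSet π J).Finite ∧
      Nat.card ↥(TanSet π J) * Nat.card k ^ d ≤ Nat.card k ^ (Q.card + e) := by
  classical
  obtain ⟨hfin, hcard⟩ := card_Sel_L_le hp2 h S₀ Q hdisj hpS hur hQ hkill hGW L hLB hLZ d e hLcard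
  have hur' : UnramOutside rbar (S₀ ∪ Q) := hur.mono Finset.subset_union_left
  have hsm : IsSmooth (levS (S₀ ∪ Q)) (adRep rbar) := adRep_smooth h.cont _ hur'
  have hB : B1 (adRep rbar) ≤ Sel (S₀ ∪ Q) S₀ (adRep rbar) L := by
    intro c hc
    rw [mem_Sel]
    exact ⟨CFT.B1_le_Z1 hsm hc, fun v hv => hLB v hv (resLoc_mem_B1loc (adRep rbar) hc v)⟩
  obtain ⟨hfinT, hmain⟩ := card_tanSet_mul_le h2 rbar π rA H.lift H.det H.tr J _ hfin hB
    (adRep_invariants hp2 h) (fun φ hφ => H.coc_mem_Sel hφ)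
  refine ⟨hfinT, ?_⟩
  rw [card_sl2] at hmain
  have hK : 0 < Nat.card k := Nat.card_pos
  have h3 := (Nat.mul_le_mul_right (Nat.card k ^ d) hmain).trans hcard
  rw [pow_add, mul_right_comm] at h3
  exact Nat.le_of_mul_le_mul_right h3 (pow_pos hK 3)

end

/-- **[GEN-L]** : Taylor-Wiles sets of constant cardinality `t`, for which every trace-generated lift satisfying the local
conditions `L` needs only `t + e - d` generators modulo `J`. -/
theorem exists_tw_gen_L (hp2 : p ≠ 2) (h2 : (2 : k) ≠ 0) {rbar : GQ →* M2 k} (h : RbarHyp p rbar)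
    (S₀ : Finset Nat.Primes) (hpS : pPrime p ∈ S₀) (hur : UnramOutside rbar S₀) :
    ∃ t : ℕ, ∀ (n : ℕ) (T : Finset ℕ), ∃ qv : Fin t → Nat.Primes, Function.Injective qv ∧
      (∀ i, ((qv i : Nat.Primes) : ℕ) ∉ T ∧ qv i ∉ S₀ ∧ p ^ (n + 1) ∣ ((qv i : Nat.Primes) : ℕ) - 1 ∧
        ∃ φ : GQ, (primeLocalPlace (qv i)).IsFrobeniusAt φ ((qv i : Nat.Primes) : ℕ) ∧
          ∃ α β : k, α ≠ β ∧ (rbar φ).charpoly = (X - C α) * (X - C β)) ∧
      ∀ (L : ∀ v : Nat.Primes, Submodule k (↥(decomp v) → sl2 k)),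
        (∀ v ∈ S₀, B1loc (adRep rbar) v ≤ L v) → (∀ v ∈ S₀, L v ≤ Z1loc (adRep rbar) v) →
      ∀ (d e : ℕ), (∏ v ∈ S₀, Nat.card ↥(L v)) * Nat.card k ^ d ≤
          Nat.card k ^ (3 * S₀.card + 1 + e) →
      ∀ (Λ A : Type) [CommRing Λ] [Algebra Λ k] [CommRing A] [Algebra Λ A]
        (_ : Function.Surjective (algebraMap Λ k)) (π : A →ₐ[Λ] k) (rA : GQ →* M2 A) (J : Ideal A),
        GenHypL p h2 rbar S₀ (Finset.univ.image qv) L π rA J →
        d ≤ t + e ∧ ∃ x : Fin (t + e - d) → A, (∀ i, π (x i) = 0) ∧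
          RingHom.ker (π : A →+* k) ≤ J ⊔ Ideal.span (Set.range x) ⊔
            RingHom.ker (π : A →+* k) ^ 2 ⊔ (RingHom.ker (algebraMap Λ k)).map (algebraMap Λ A) := by
  classical
  obtain ⟨S₁, hS₁⟩ := exists_S1_greenberg_wiles hp2 h
  have hur' : UnramOutside rbar (S₀ ∪ S₁) := hur.mono Finset.subset_union_left
  have hpS' : pPrime p ∈ S₀ ∪ S₁ := Finset.mem_union_left _ hpS
  obtain ⟨t, ht⟩ := exists_tw_primes hp2 h (S₀ ∪ S₁) hpS' hur'
  refine ⟨t, fun n T => ?_⟩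
  obtain ⟨qv, hinj, hq, hkill⟩ := ht n (T ∪ (S₀ ∪ S₁).image (fun q : Nat.Primes => (q : ℕ)))
  have hnotS : ∀ i, qv i ∉ S₀ ∪ S₁ := fun i hi =>
    (hq i).1 (Finset.mem_union_right _ (Finset.mem_image_of_mem _ hi))
  refine ⟨qv, hinj, fun i => ⟨fun hi => (hq i).1 (Finset.mem_union_left _ hi),
    fun hi => hnotS i (Finset.mem_union_left _ hi), (hq i).2⟩, ?_⟩
  intro L hLB hLZ d e hLcard Λ A _ _ _ _ hΛ π rA J H
  have hcard : (Finset.univ.image qv).card = t := by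
    rw [Finset.card_image_of_injective _ hinj, Finset.card_univ, Fintype.card_fin]
  have hdisj : Disjoint (S₀ ∪ S₁) (Finset.univ.image qv) := by
    rw [Finset.disjoint_left]
    intro q hq1 hq2
    obtain ⟨i, -, rfl⟩ := Finset.mem_image.1 hq2
    exact hnotS i hq1
  have hQ : ∀ q ∈ Finset.univ.image qv, p ∣ (q : ℕ) - 1 ∧ ∃ φ : GQ,
      (primeLocalPlace q).IsFrobeniusAt φ (q : ℕ) ∧
      ∃ α β : k, α ≠ β ∧ (rbar φ).charpoly = (X - C α) * (X - C β) := fun q hq' => by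
    obtain ⟨i, -, rfl⟩ := Finset.mem_image.1 hq'
    exact ⟨(dvd_pow_self p (Nat.succ_ne_zero n)).trans (hq i).2.1, (hq i).2.2⟩
  have hsmA : IsSmooth levAll (adRep rbar) :=
    isSmooth_levAll_of_levS (adRep_smooth h.cont _ hur')
  have hK : 0 < Nat.card k := Nat.card_pos
  -- the extended family
  have hLB' : ∀ v ∈ S₀ ∪ S₁, B1loc (adRep rbar) v ≤ extFam rbar S₀ L v := fun v _ => by
    by_cases hv0 : v ∈ S₀
    · rw [extFam_mem rbar L hv0]; exact hLB v hv0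
    · rw [extFam_not_mem rbar L hv0]; exact B1loc_le_Lur _ hsmA v
  have hLZ' : ∀ v ∈ S₀ ∪ S₁, extFam rbar S₀ L v ≤ Z1loc (adRep rbar) v := fun v _ => by
    by_cases hv0 : v ∈ S₀
    · rw [extFam_mem rbar L hv0]; exact hLZ v hv0
    · rw [extFam_not_mem rbar L hv0]; exact Lur_le_Z1loc _ v
  have hLcard' : (∏ v ∈ S₀ ∪ S₁, Nat.card ↥(extFam rbar S₀ L v)) * Nat.card k ^ d ≤
      Nat.card k ^ (3 * (S₀ ∪ S₁).card + 1 + e) := by
    have hU : S₀ ∪ S₁ = S₀ ∪ (S₁ \ S₀) := by rw [Finset.union_sdiff_self_eq_union]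
    have hdj : Disjoint S₀ (S₁ \ S₀) := Finset.disjoint_sdiff
    rw [hU, Finset.prod_union hdj, Finset.card_union_of_disjoint hdj]
    have h1 : ∏ v ∈ S₀, Nat.card ↥(extFam rbar S₀ L v) = ∏ v ∈ S₀, Nat.card ↥(L v) :=
      Finset.prod_congr rfl fun v hv => by rw [extFam_mem rbar L hv]
    have h2' : ∏ v ∈ S₁ \ S₀, Nat.card ↥(extFam rbar S₀ L v) ≤
        (Nat.card k ^ 3) ^ (S₁ \ S₀).card := by
      refine Finset.prod_le_pow_card _ _ _ fun v hv => ?_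
      rw [extFam_not_mem rbar L (Finset.mem_sdiff.1 hv).2, ← card_sl2]
      exact (card_Lur_le (adRep rbar) v).2
    rw [h1]
    calc (∏ v ∈ S₀, Nat.card ↥(L v)) * (∏ v ∈ S₁ \ S₀, Nat.card ↥(extFam rbar S₀ L v)) *
          Nat.card k ^ d
        = (∏ v ∈ S₀, Nat.card ↥(L v)) * Nat.card k ^ d *
          (∏ v ∈ S₁ \ S₀, Nat.card ↥(extFam rbar S₀ L v)) := by ring
      _ ≤ Nat.card k ^ (3 * S₀.card + 1 + e) * (Nat.card k ^ 3) ^ (S₁ \ S₀).card :=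
          Nat.mul_le_mul hLcard h2'
      _ = Nat.card k ^ (3 * (S₀.card + (S₁ \ S₀).card) + 1 + e) := by
          rw [← pow_mul, ← pow_add]; congr 1; ring
  obtain ⟨hfin, hc⟩ := (H.mono Finset.subset_union_left hdisj).card_tanSet_le hp2 h hdisj hpS' hur'
    hQ hkill (hS₁ _ _ Finset.subset_union_right hdisj hpS' hur' hQ) hLB' hLZ' d e hLcard'
  rw [hcard] at hc
  exact exists_gens_of_card_tanSet_le H.J_le hfin hc hΛ

end Fermat.Agent.ML
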