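import Fermat.Agent.ML.Gen.Main

/-!
# ML / Gen / Menu : the STRICT local condition `L v = B¹(D_v, ad⁰)` for an arbitrary `rbar|_{D_v}`, and the bookkeeping.

* `card_B1loc_mul`   : `#B¹(D_v, W) * #W^{D_v} = #W`.
* `card_B1loc_mul_le_of_fixed` : a nonzero `D_v`-invariant vector of `ad⁰` ⟹ `#B¹ * #k ≤ #k³` (saving `1`).
* `exists_fixed_of_comm` : `rbar σ₀` (`σ₀ ∈ D_v`) non scalar commuting with `rbar (D_v)` ⟹ such a vector exists.
* `ScalarAt` ⟹ `#B¹ * #k³ ≤ #k³` (saving `3`).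
* `resLoc_coc_mem_B1loc_of_conj` : if `M * rA σ ≡ C_σ * M` modulo `J` with `C_σ ∈ M₂(Λ)` for all `σ ∈ D_v` (`M` invertible modulo `ker π`),
  the cocycle of every tangent vector killing `J` is a local coboundary.
* `GenHypS`, `exists_tw_gen_strict` : (GEN) with `Lp` at `p`, `B¹` at `R` (weights `w v`), `Lur` elsewhere: `t - Σ_{v ∈ R} w v` generators.
-/

set_option autoImplicit false

open ExtCitation Polynomial

namespace Fermat.Agent.ML

open Fermat.Agent.S56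
open CFT (levS levAll decomp Z1 B1 Qb IsSmooth d01)
open Fermat.Agent.S56.Gen

section Card

variable {k : Type} [Field k] {W : Type} [AddCommGroup W] [Module k W]

/-- the local invariants -/
def fixLoc (ρ : Representation k GQ W) (v : Nat.Primes) : Submodule k W where
  carrier := {w | ∀ σ ∈ decomp v, ρ σ w = w}
  add_mem' := fun {a b} ha hb σ hσ => by rw [map_add, ha σ hσ, hb σ hσ]
  zero_mem' := fun σ _ => map_zero _
  smul_mem' := fun c a ha σ hσ => by rw [map_smul, ha σ hσ]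

theorem mem_fixLoc {ρ : Representation k GQ W} {v : Nat.Primes} {w : W} :
    w ∈ fixLoc ρ v ↔ ∀ σ ∈ decomp v, ρ σ w = w := Iff.rfl

theorem ker_d01_locRep (ρ : Representation k GQ W) (v : Nat.Primes) :
    LinearMap.ker (d01 (locRep ρ v)) = fixLoc ρ v := by
  ext w
  rw [LinearMap.mem_ker, mem_fixLoc]
  constructor
  · intro h σ hσ
    have := congrFun h ⟨σ, hσ⟩
    rw [CFT.d01_apply] at this
    exact sub_eq_zero.1 this
  · intro h
    funext σ
    rw [CFT.d01_apply]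
    exact sub_eq_zero.2 (h σ σ.2)

/-- rank-nullity for `w ↦ (σ ↦ σ w - w)` -/
theorem card_B1loc_mul (ρ : Representation k GQ W) (v : Nat.Primes) :
    Nat.card ↥(B1loc ρ v) * Nat.card ↥(fixLoc ρ v) = Nat.card W := by
  have e := (d01 (locRep ρ v)).quotKerEquivRange
  have h1 : Nat.card ↥(B1loc ρ v) = Nat.card (W ⧸ LinearMap.ker (d01 (locRep ρ v))) :=
    (Nat.card_congr e.toEquiv).symm
  rw [h1, ← ker_d01_locRep]
  exact (AddSubgroup.card_eq_card_quotient_mul_card_addSubgroup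
    (LinearMap.ker (d01 (locRep ρ v))).toAddSubgroup).symm

theorem finite_B1loc [Finite W] (ρ : Representation k GQ W) (v : Nat.Primes) :
    Finite ↥(B1loc ρ v) :=
  Finite.of_surjective (d01 (locRep ρ v)).rangeRestrict (LinearMap.surjective_rangeRestrict _)

end Card

variable {k : Type} [Field k]

/-- a nonzero invariant vector saves `1`. -/
theorem card_B1loc_mul_le_of_fixed [Finite k] (rbar : GQ →* M2 k) (v : Nat.Primes)
    (h : ∃ w : sl2 k, w ≠ 0 ∧ ∀ σ ∈ decomp v, adRep rbar σ w = w) :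
    Nat.card ↥(B1loc (adRep rbar) v) * Nat.card k ^ 1 ≤ Nat.card k ^ 3 := by
  obtain ⟨w, hw0, hw⟩ := h
  have hfin : Finite ↥(sl2 k) := Module.finite_of_finite k
  have hinj : Function.Injective (fun c : k => (⟨c • w, (fixLoc (adRep rbar) v).smul_mem c hw⟩ :
      ↥(fixLoc (adRep rbar) v))) := by
    intro c c' hcc
    have h1 : c • w = c' • w := congrArg Subtype.val hcc
    exact smul_left_injective k hw0 h1
  have h1 : Nat.card k ≤ Nat.card ↥(fixLoc (adRep rbar) v) := Nat.card_le_card_of_injective _ hinj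
  rw [pow_one, ← card_sl2, ← card_B1loc_mul (adRep rbar) v]
  exact Nat.mul_le_mul_left _ h1

/-- a non scalar `rbar σ₀` commuting with `rbar (D_v)` gives an invariant vector. -/
theorem exists_fixed_of_comm (h2 : (2 : k) ≠ 0) (rbar : GQ →* M2 k) (v : Nat.Primes) (X : M2 k)
    (hX : ∀ c : k, X ≠ c • (1 : M2 k)) (hcomm : ∀ σ ∈ decomp v, rbar σ * X = X * rbar σ) :
    ∃ w : sl2 k, w ≠ 0 ∧ ∀ σ ∈ decomp v, adRep rbar σ w = w := by
  refine ⟨toSl2 h2 X, fun h0 => ?_, fun σ hσ => ?_⟩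
  · have h1 := congrArg (fun x : sl2 k => (x : M2 k)) h0
    simp only [toSl2_coe, Submodule.coe_zero] at h1
    exact hX _ (sub_eq_zero.1 h1)
  · rw [← toSl2_adFull, adFull_apply, hcomm σ hσ, mul_assoc, rbar_mul_inv, mul_one]

/-- scalar `rbar|_{D_v}` saves `3`. -/
theorem card_B1loc_mul_le_of_scalarAt [Finite k] {rbar : GQ →* M2 k} {v : Nat.Primes}
    (h : ScalarAt rbar v) :
    Nat.card ↥(B1loc (adRep rbar) v) * Nat.card k ^ 3 ≤ Nat.card k ^ 3 := by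
  rw [h.B1loc_eq_bot]
  have : Nat.card ↥(⊥ : Submodule k (↥(decomp v) → sl2 k)) = 1 := Nat.card_unique
  rw [this, one_mul]

/-- no saving. -/
theorem card_B1loc_mul_le_zero [Finite k] (rbar : GQ →* M2 k) (v : Nat.Primes) :
    Nat.card ↥(B1loc (adRep rbar) v) * Nat.card k ^ 0 ≤ Nat.card k ^ 3 := by
  have hfin : Finite ↥(sl2 k) := Module.finite_of_finite k
  rw [pow_zero, mul_one, ← card_sl2, ← card_B1loc_mul (adRep rbar) v]
  exact Nat.le_mul_of_pos_right _ Nat.card_pos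

section Conj

variable {Λ A : Type} [CommRing Λ] [Algebra Λ k] [CommRing A] [Algebra Λ A]

/-- **STRICT, membership.**  `M * rA σ ≡ C_σ * M (mod J)`, `C_σ ∈ M₂(Λ)`, for `σ ∈ D_v`. -/
theorem resLoc_coc_mem_B1loc_of_conj (h2 : (2 : k) ≠ 0) {rbar : GQ →* M2 k} {π : A →ₐ[Λ] k}
    {rA : GQ →* M2 A} (hlift : ∀ σ, (rA σ).map π = rbar σ) {J : Ideal A}
    {φ : A →ₐ[Λ] DualNumber k} (hφ : φ ∈ TanSet π J) (v : Nat.Primes) (M : M2 A)
    (hM : IsUnit (M.map π))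
    (h : ∀ σ ∈ decomp v, ∃ C : M2 Λ, ∀ i l, (M * rA σ - C.map (algebraMap Λ A) * M) i l ∈ J) :
    resLoc k v (coc h2 (pushRep φ rA)) ∈ B1loc (adRep rbar) v := by
  have hl : IsLift rbar (pushRep φ rA) := isLift_pushRep hlift hφ.1
  obtain ⟨N₀, hN₀⟩ := hM
  set N : M2 (DualNumber k) := (φ : A →+* DualNumber k).mapMatrix M with hN
  have hNf : N.map TrivSqZeroExt.fst = (N₀ : M2 k) := by
    rw [hN₀]; ext i l; exact hφ.1 _
  set N₁ : M2 k := N.map TrivSqZeroExt.snd with hN₁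
  set u : M2 k := ((N₀⁻¹ : (M2 k)ˣ) : M2 k) * N₁ with hu
  refine ⟨toSl2 h2 u, ?_⟩
  funext σ
  obtain ⟨C, hC⟩ := h σ σ.2
  -- the relation over `k[ε]`
  have hrel : N * pushRep φ rA σ =
      (C.map (algebraMap Λ (DualNumber k))) * N := by
    have h1 : (φ : A →+* DualNumber k).mapMatrix (M * rA σ - C.map (algebraMap Λ A) * M) = 0 := by
      ext i l
      · exact congrArg TrivSqZeroExt.fst (hφ.2 _ (hC i l))
      · exact congrArg TrivSqZeroExt.snd (hφ.2 _ (hC i l))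
    rw [map_sub, map_mul, map_mul, sub_eq_zero] at h1
    have h3 : (φ : A →+* DualNumber k).mapMatrix (C.map (algebraMap Λ A)) =
        C.map (algebraMap Λ (DualNumber k)) := by
      ext i l
      · exact congrArg TrivSqZeroExt.fst (φ.commutes (C i l))
      · exact congrArg TrivSqZeroExt.snd (φ.commutes (C i l))
    rw [h3] at h1
    exact h1
  set C₀ : M2 k := C.map (algebraMap Λ k) with hC₀
  have hCf : (C.map (algebraMap Λ (DualNumber k))).map TrivSqZeroExt.fst = C₀ := by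
    ext i l; rfl
  have hCs : (C.map (algebraMap Λ (DualNumber k))).map TrivSqZeroExt.snd = 0 := by
    ext i l; rfl
  have hf := congrArg (fun X : M2 (DualNumber k) => X.map TrivSqZeroExt.fst) hrel
  have hs := congrArg (fun X : M2 (DualNumber k) => X.map TrivSqZeroExt.snd) hrel
  simp only [map_fst_mul, map_snd_mul, hNf, hCf, hCs, hl (σ : GQ), zero_mul, add_zero,
    ← hN₁] at hf hs
  -- `hf : N₀ * rbar σ = C₀ * N₀`, `hs : N₀ * b + N₁ * rbar σ = C₀ * N₁`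
  have hinv : ((N₀⁻¹ : (M2 k)ˣ) : M2 k) * (N₀ : M2 k) = 1 := Units.inv_mul N₀
  have hinv' : (N₀ : M2 k) * ((N₀⁻¹ : (M2 k)ˣ) : M2 k) = 1 := Units.mul_inv N₀
  have hC₁ : ((N₀⁻¹ : (M2 k)ˣ) : M2 k) * C₀ = rbar σ * ((N₀⁻¹ : (M2 k)ˣ) : M2 k) := by
    calc ((N₀⁻¹ : (M2 k)ˣ) : M2 k) * C₀
        = ((N₀⁻¹ : (M2 k)ˣ) : M2 k) * (C₀ * (N₀ : M2 k)) * ((N₀⁻¹ : (M2 k)ˣ) : M2 k) := by
          rw [mul_assoc, mul_assoc, hinv', mul_one]
      _ = rbar σ * ((N₀⁻¹ : (M2 k)ˣ) : M2 k) := by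
          rw [← hf, ← mul_assoc, hinv, one_mul]
  have hb : (pushRep φ rA σ).map TrivSqZeroExt.snd = rbar σ * u - u * rbar σ := by
    have h4 := congrArg (fun X => ((N₀⁻¹ : (M2 k)ˣ) : M2 k) * X) hs
    simp only [mul_add, ← mul_assoc, hinv, one_mul, hC₁] at h4
    rw [hu, ← mul_assoc, ← h4]
    abel
  have hc : cocM (pushRep φ rA) σ = adFull rbar σ u - u := by
    rw [cocM, hb, hl, adFull_apply, sub_mul, mul_assoc u, rbar_mul_inv, mul_one]
  rw [CFT.d01_apply, resLoc_apply, coc, hc, map_sub, toSl2_adFull]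
  rfl

/-- **STRICT, membership**, no conjugation: all entries of `rA σ` lie in `Λ + J`. -/
theorem resLoc_coc_mem_B1loc_of_const (h2 : (2 : k) ≠ 0) {rbar : GQ →* M2 k} {π : A →ₐ[Λ] k}
    {rA : GQ →* M2 A} (hlift : ∀ σ, (rA σ).map π = rbar σ) {J : Ideal A}
    {φ : A →ₐ[Λ] DualNumber k} (hφ : φ ∈ TanSet π J) (v : Nat.Primes)
    (h : ∀ σ ∈ decomp v, ∃ C : M2 Λ, ∀ i l, rA σ i l - algebraMap Λ A (C i l) ∈ J) :
    resLoc k v (coc h2 (pushRep φ rA)) ∈ B1loc (adRep rbar) v := by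
  refine resLoc_coc_mem_B1loc_of_conj h2 hlift hφ v 1 ?_ fun σ hσ => ?_
  · have : (1 : M2 A).map π = 1 := map_one (π : A →+* k).mapMatrix
    rw [this]; exact isUnit_one
  · obtain ⟨C, hC⟩ := h σ hσ
    exact ⟨C, fun i l => by rw [one_mul, mul_one]; exact hC i l⟩

end Conj

variable {p : ℕ} [Fact p.Prime]

open Classical in
/-- the family: `B¹` at `R`, `Lp` at `p`, `Lur` elsewhere -/
noncomputable def strictFam [Finite k] [CharP k p] (rbar : GQ →* M2 k)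
    (Lp : Submodule k (↥(decomp (pPrime p)) → sl2 k))
    (R : Finset Nat.Primes) (v : Nat.Primes) : Submodule k (↥(decomp v) → sl2 k) :=
  if v ∈ R then B1loc (adRep rbar) v else locFam rbar Lp v

lemma strictFam_mem [Finite k] [CharP k p] (rbar : GQ →* M2 k)
    (Lp : Submodule k (↥(decomp (pPrime p)) → sl2 k))
    {R : Finset Nat.Primes} {v : Nat.Primes} (hv : v ∈ R) :
    strictFam rbar Lp R v = B1loc (adRep rbar) v := by
  simp [strictFam, hv]

lemma strictFam_not_mem [Finite k] [CharP k p] (rbar : GQ →* M2 k)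
    (Lp : Submodule k (↥(decomp (pPrime p)) → sl2 k))
    {R : Finset Nat.Primes} {v : Nat.Primes} (hv : v ∉ R) :
    strictFam rbar Lp R v = locFam rbar Lp v := by
  simp [strictFam, hv]

/-- the hypotheses of (GEN): `Lp` at `p`, strict (= local coboundaries) at `R`, `Lur` elsewhere. -/
structure GenHypS (p : ℕ) [Fact p.Prime] (h2 : (2 : k) ≠ 0) (rbar : GQ →* M2 k)
    (S₀ Q R : Finset Nat.Primes) (Lp : Submodule k (↥(decomp (pPrime p)) → sl2 k))
    {Λ A : Type} [CommRing Λ] [Algebra Λ k] [CommRing A] [Algebra Λ A]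
    (π : A →ₐ[Λ] k) (rA : GQ →* M2 A) (J : Ideal A) : Prop where
  lift : ∀ σ, (rA σ).map π = rbar σ
  det : ∀ σ, ∃ c : Λ, (rA σ).det = algebraMap Λ A c
  tr : Algebra.adjoin Λ (Set.range fun σ => (rA σ).trace) = ⊤
  lev : ∃ U ∈ (levS (S₀ ∪ Q)).carrier, ∀ s ∈ U, rA s = 1
  J_le : ∀ a ∈ J, π a = 0
  strict : ∀ v ∈ R, ∀ φ ∈ TanSet π J,
    resLoc k v (coc h2 (pushRep φ rA)) ∈ B1loc (adRep rbar) v
  atp : ∀ φ ∈ TanSet π J, resLoc k (pPrime p) (coc h2 (pushRep φ rA)) ∈ Lp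
  min : ∀ v ∈ S₀, v ∉ R → v ≠ pPrime p → ∀ φ ∈ TanSet π J,
    resLoc k v (coc h2 (pushRep φ rA)) ∈ Lur (adRep rbar) v

variable [Finite k] [CharP k p]

theorem GenHypS.toL {h2 : (2 : k) ≠ 0} {rbar : GQ →* M2 k} {S₀ Q R : Finset Nat.Primes}
    {Lp : Submodule k (↥(decomp (pPrime p)) → sl2 k)}
    {Λ A : Type} [CommRing Λ] [Algebra Λ k] [CommRing A] [Algebra Λ A]
    {π : A →ₐ[Λ] k} {rA : GQ →* M2 A} {J : Ideal A}
    (H : GenHypS p h2 rbar S₀ Q R Lp π rA J) :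
    GenHypL p h2 rbar S₀ Q (strictFam rbar Lp R) π rA J where
  lift := H.lift
  det := H.det
  tr := H.tr
  lev := H.lev
  J_le := H.J_le
  loc := by
    intro v hv φ hφ
    by_cases hvR : v ∈ R
    · rw [strictFam_mem rbar Lp hvR]; exact H.strict v hvR φ hφ
    rw [strictFam_not_mem rbar Lp hvR]
    by_cases hvp : v = pPrime p
    · subst hvp; rw [locFam_p]; exact H.atp φ hφ
    rw [locFam_ne rbar Lp hvp]
    exact H.min v hv hvR hvp φ hφ

/-- the budget of `strictFam`. -/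
theorem prod_card_strictFam_le (rbar : GQ →* M2 k) (S₀ R : Finset Nat.Primes)
    (hpS : pPrime p ∈ S₀) (hR : R ⊆ S₀) (hpR : pPrime p ∉ R)
    (Lp : Submodule k (↥(decomp (pPrime p)) → sl2 k)) (hLpcard : Nat.card ↥Lp ≤ Nat.card k ^ 4)
    (w : Nat.Primes → ℕ)
    (hw : ∀ v ∈ R, Nat.card ↥(B1loc (adRep rbar) v) * Nat.card k ^ w v ≤ Nat.card k ^ 3) :
    (∏ v ∈ S₀, Nat.card ↥(strictFam rbar Lp R v)) * Nat.card k ^ (∑ v ∈ R, w v) ≤
      Nat.card k ^ (3 * S₀.card + 1 + 0) := by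
  classical
  have hRe : R ⊆ S₀.erase (pPrime p) := fun v hv =>
    Finset.mem_erase.2 ⟨fun e => hpR (e ▸ hv), hR hv⟩
  rw [← Finset.mul_prod_erase S₀ _ hpS, strictFam_not_mem rbar Lp hpR, locFam_p,
    ← Finset.prod_sdiff hRe, ← Finset.prod_pow_eq_pow_sum]
  have h1 : (∏ v ∈ R, Nat.card ↥(strictFam rbar Lp R v)) * ∏ v ∈ R, Nat.card k ^ w v ≤
      (Nat.card k ^ 3) ^ R.card := by
    rw [← Finset.prod_mul_distrib]
    refine Finset.prod_le_pow_card _ _ _ fun v hv => ?_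
    rw [strictFam_mem rbar Lp hv]
    exact hw v hv
  have h2' : ∏ v ∈ S₀.erase (pPrime p) \ R, Nat.card ↥(strictFam rbar Lp R v) ≤
      (Nat.card k ^ 3) ^ (S₀.erase (pPrime p) \ R).card := by
    refine Finset.prod_le_pow_card _ _ _ fun v hv => ?_
    obtain ⟨hv1, hv2⟩ := Finset.mem_sdiff.1 hv
    rw [strictFam_not_mem rbar Lp hv2, locFam_ne rbar Lp (Finset.ne_of_mem_erase hv1), ← card_sl2]
    exact (card_Lur_le (adRep rbar) v).2
  have hc : (S₀.erase (pPrime p) \ R).card + R.card + 1 = S₀.card := by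
    rw [Finset.card_sdiff_add_card_eq_card hRe, Finset.card_erase_add_one hpS]
  calc Nat.card ↥Lp * ((∏ v ∈ S₀.erase (pPrime p) \ R, Nat.card ↥(strictFam rbar Lp R v)) *
        ∏ v ∈ R, Nat.card ↥(strictFam rbar Lp R v)) * ∏ v ∈ R, Nat.card k ^ w v
      = Nat.card ↥Lp * (∏ v ∈ S₀.erase (pPrime p) \ R, Nat.card ↥(strictFam rbar Lp R v)) *
        ((∏ v ∈ R, Nat.card ↥(strictFam rbar Lp R v)) * ∏ v ∈ R, Nat.card k ^ w v) := by ring
    _ ≤ Nat.card k ^ 4 * (Nat.card k ^ 3) ^ (S₀.erase (pPrime p) \ R).card *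
        (Nat.card k ^ 3) ^ R.card := Nat.mul_le_mul (Nat.mul_le_mul hLpcard h2') h1
    _ = Nat.card k ^ (3 * S₀.card + 1 + 0) := by
        rw [← hc, ← pow_mul, ← pow_mul, ← pow_add, ← pow_add]; congr 1; ring

/-- **[GEN-STRICT]** : `t - Σ_{v ∈ R} w v` generators modulo `J`, where `#B¹(D_v) * #k^(w v) ≤ #k³`. -/
theorem exists_tw_gen_strict (hp2 : p ≠ 2) (h2 : (2 : k) ≠ 0) {rbar : GQ →* M2 k}
    (h : RbarHyp p rbar) (S₀ : Finset Nat.Primes) (hpS : pPrime p ∈ S₀)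
    (hur : UnramOutside rbar S₀) :
    ∃ t : ℕ, ∀ (n : ℕ) (T : Finset ℕ), ∃ qv : Fin t → Nat.Primes, Function.Injective qv ∧
      (∀ i, ((qv i : Nat.Primes) : ℕ) ∉ T ∧ qv i ∉ S₀ ∧ p ^ (n + 1) ∣ ((qv i : Nat.Primes) : ℕ) - 1 ∧
        ∃ φ : GQ, (primeLocalPlace (qv i)).IsFrobeniusAt φ ((qv i : Nat.Primes) : ℕ) ∧
          ∃ α β : k, α ≠ β ∧ (rbar φ).charpoly = (X - C α) * (X - C β)) ∧
      ∀ (R : Finset Nat.Primes), R ⊆ S₀ → pPrime p ∉ R → ∀ (w : Nat.Primes → ℕ),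
        (∀ v ∈ R, Nat.card ↥(B1loc (adRep rbar) v) * Nat.card k ^ w v ≤ Nat.card k ^ 3) →
      ∀ (Lp : Submodule k (↥(decomp (pPrime p)) → sl2 k)), B1loc (adRep rbar) (pPrime p) ≤ Lp →
        Lp ≤ Z1loc (adRep rbar) (pPrime p) → Nat.card ↥Lp ≤ Nat.card k ^ 4 →
      ∀ (Λ A : Type) [CommRing Λ] [Algebra Λ k] [CommRing A] [Algebra Λ A]
        (_ : Function.Surjective (algebraMap Λ k)) (π : A →ₐ[Λ] k) (rA : GQ →* M2 A) (J : Ideal A),
        GenHypS p h2 rbar S₀ (Finset.univ.image qv) R Lp π rA J →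
        ∑ v ∈ R, w v ≤ t ∧ ∃ x : Fin (t - ∑ v ∈ R, w v) → A, (∀ i, π (x i) = 0) ∧
          RingHom.ker (π : A →+* k) ≤ J ⊔ Ideal.span (Set.range x) ⊔
            RingHom.ker (π : A →+* k) ^ 2 ⊔ (RingHom.ker (algebraMap Λ k)).map (algebraMap Λ A) := by
  classical
  obtain ⟨t, ht⟩ := exists_tw_gen_L hp2 h2 h S₀ hpS hur
  refine ⟨t, fun n T => ?_⟩
  obtain ⟨qv, hinj, hq, hgen⟩ := ht n T
  refine ⟨qv, hinj, hq, fun R hR hpR w hw Lp hLpB hLpZ hLpcard Λ A _ _ _ _ hΛ π rA J H => ?_⟩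
  have hsmA : IsSmooth levAll (adRep rbar) :=
    isSmooth_levAll_of_levS (adRep_smooth h.cont _ hur)
  have := hgen (strictFam rbar Lp R)
    (fun v _ => by
      by_cases hvR : v ∈ R
      · rw [strictFam_mem rbar Lp hvR]
      rw [strictFam_not_mem rbar Lp hvR]
      by_cases hv : v = pPrime p
      · subst hv; rw [locFam_p]; exact hLpB
      · rw [locFam_ne rbar Lp hv]; exact B1loc_le_Lur _ hsmA v)
    (fun v _ => by
      by_cases hvR : v ∈ R
      · rw [strictFam_mem rbar Lp hvR]; exact B1loc_le_Z1loc _ hsmA v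
      rw [strictFam_not_mem rbar Lp hvR]
      by_cases hv : v = pPrime p
      · subst hv; rw [locFam_p]; exact hLpZ
      · rw [locFam_ne rbar Lp hv]; exact Lur_le_Z1loc _ v)
    (∑ v ∈ R, w v) 0 (prod_card_strictFam_le rbar S₀ R hpS hR hpR Lp hLpcard w hw)
    Λ A hΛ π rA J H.toL
  exact this

end Fermat.Agent.ML
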